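import Fermat.Agent.Mazur3.Descent.Local
import Fermat.Agent.ExtVanish.LocalRam
import Fermat.Agent.GalRep.PlaceVal
import Fermat.Agent.NewVec.InertiaField

/-!
# Inertia at the level prime: a generator of the `η`-part of tame inertia
-/

set_option autoImplicit false

noncomputable section

namespace Fermat.Agent.Mazur3

open GalRep IsLocalRing Module
open Fermat.Agent.Galois (GQ tameChar)

local notation "ℚb" => AlgebraicClosure ℚ

/-- An element of tame character one on a finite Galois level has prime power order on it. -/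
theorem exists_pow_fix_of_tameChar_eq_one_on {B : ValuationSubring ℚb} {q : ℕ} (hq : q.Prime)
    (hB : B.LiesOverPrime q) {w : B.decompositionSubgroup ℚ} (hw : w ∈ B.inertiaSubgroup ℚ)
    (F : IntermediateField ℚ ℚb) [FiniteDimensional ℚ F] [IsGalois ℚ F]
    (hw1 : ∀ (x : ℚb) (hx : x ≠ 0), x ∈ F → tameChar w x hx = 1) :
    ∃ j : ℕ, ∀ x ∈ F, ((w : GQ) ^ q ^ j) x = x := by
  classical
  set g : F ≃ₐ[ℚ] F := AlgEquiv.restrictNormalHom F (w : GQ) with hg
  obtain ⟨j, s, hs, hord⟩ := Nat.exists_eq_pow_mul_and_not_dvd (orderOf_pos g).ne' q hq.ne_one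
  refine ⟨j, fun x hx => ?_⟩
  set u : B.decompositionSubgroup ℚ := w ^ q ^ j with hu
  have hu1 : ∀ (y : ℚb) (hy : y ≠ 0) (_ : y ∈ F) (i : ℕ), tameChar (u ^ i) y hy = 1 :=
    fun y hy hyF i => by
      rw [hu, ← pow_mul, Galois.tameChar_pow hw, hw1 y hy hyF, one_pow]
  have hper : ∀ y ∈ F, ((u : GQ) ^ s) y = y := by
    intro y hy
    have h1 : g ^ (q ^ j * s) = 1 := by rw [← hord]; exact pow_orderOf_eq_one g
    have h2 : AlgEquiv.restrictNormalHom F ((w : GQ) ^ (q ^ j * s)) ⟨y, hy⟩ = ⟨y, hy⟩ := by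
      rw [map_pow, ← hg, h1]; rfl
    have h3 := (AlgEquiv.restrictNormal_commutes ((w : GQ) ^ (q ^ j * s)) F ⟨y, hy⟩).symm
    rw [show AlgEquiv.restrictNormal ((w : GQ) ^ (q ^ j * s)) F ⟨y, hy⟩ = ⟨y, hy⟩ from h2] at h3
    rw [show (u : GQ) = (w : GQ) ^ q ^ j from SubmonoidClass.coe_pow _ _, ← pow_mul]
    exact h3
  have hs0 : (s : ℚb) ≠ 0 := Nat.cast_ne_zero.2 fun h => hs (h ▸ dvd_zero q)
  set a : ℚb := (∑ i ∈ Finset.range s, ((u : GQ) ^ i) x) / s with ha
  have hF : ∀ (i : ℕ) (y : ℚb), y ∈ F → ((u : GQ) ^ i) y ∈ F := fun i y hy =>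
    apply_mem_level F _ hy
  have haF : a ∈ F := div_mem (sum_mem fun i _ => hF i x hx) (natCast_mem F s)
  have hshift : ∀ y ∈ F, ∑ i ∈ Finset.range s, ((u : GQ) ^ (i + 1)) y =
      ∑ i ∈ Finset.range s, ((u : GQ) ^ i) y := by
    intro y hy
    have := Finset.sum_range_succ' (fun i => ((u : GQ) ^ i) y) s
    rw [Finset.sum_range_succ, pow_zero] at this
    simp only [hper y hy, AlgEquiv.one_apply] at this
    exact (add_right_cancel this).symm
  have hua : (u : GQ) a = a := by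
    rw [ha, map_div₀, map_natCast, map_sum]
    congr 1
    refine Eq.trans (Finset.sum_congr rfl fun i _ => ?_) (hshift x hx)
    rw [← AlgEquiv.mul_apply, ← pow_succ']
  have huia : ∀ i : ℕ, ((u : GQ) ^ i) a = a := fun i => by
    induction i with
    | zero => simp
    | succ i ih => rw [pow_succ, AlgEquiv.mul_apply, hua, ih]
  have hsum : ∑ i ∈ Finset.range s, ((u : GQ) ^ i) (x - a) = 0 := by
    simp only [map_sub, huia, Finset.sum_sub_distrib, Finset.sum_const, Finset.card_range,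
      nsmul_eq_mul]
    rw [ha]
    field_simp
    ring
  suffices x - a = 0 by
    rw [sub_eq_zero] at this
    rw [this, ← SubmonoidClass.coe_pow]
    exact hua
  by_contra hd
  have h0 : residue B (∑ i ∈ Finset.range s, (⟨((u : GQ) ^ i) (x - a) / (x - a),
      Galois.div_mem_of_valuation_eq hd (Galois.valuation_apply_eq (pow_mem u.2 i) _)⟩ : B)) =
        0 := by
    rw [residue_eq_zero_iff]
    convert Ideal.zero_mem _
    rw [← Subtype.coe_inj, AddSubmonoidClass.coe_finsetSum, ← Finset.sum_div, hsum, zero_div]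
    rfl
  rw [map_sum] at h0
  have h1 : ∀ i ∈ Finset.range s, residue B (⟨((u : GQ) ^ i) (x - a) / (x - a),
      Galois.div_mem_of_valuation_eq hd (Galois.valuation_apply_eq (pow_mem u.2 i) _)⟩ : B) = 1 :=
    fun i _ => hu1 (x - a) hd (sub_mem hx haF) i
  rw [Finset.sum_congr rfl h1, Finset.sum_const, Finset.card_range, nsmul_one] at h0
  have hq0 : (q : ResidueField B) = 0 := by
    rw [← map_natCast (residue B), residue_eq_zero_iff, B.valuation_lt_one_iff]
    exact (ValuationSubring.mem_nonunits_iff B).1 hB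
  obtain ⟨c, d, hcd⟩ := Nat.isCoprime_iff_coprime.2 ((Nat.Prime.coprime_iff_not_dvd hq).2 hs)
  have := congrArg (Int.cast : ℤ → ResidueField B) hcd
  push_cast at this
  rw [hq0, h0, mul_zero, mul_zero, add_zero] at this
  exact zero_ne_one this

theorem tameChar_pow_arg {B : ValuationSubring ℚb} (τ : B.decompositionSubgroup ℚ) (x : ℚb)
    (hx : x ≠ 0) (k : ℕ) : tameChar τ (x ^ k) (pow_ne_zero k hx) = tameChar τ x hx ^ k := by
  rw [tameChar, tameChar, ← map_pow]
  congr 1
  refine Subtype.ext ?_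
  show (τ : GQ) (x ^ k) / x ^ k = ((τ : GQ) x / x) ^ k
  rw [map_pow, div_pow]

variable {η : ℕ} [Fact η.Prime] {p : ℕ} {B : ValuationSubring ℚb}

/-- An element of inertia at `p` moving an `η`-th root of `p` in the residue field. -/
theorem exists_tame_moving (hp : p.Prime) (hpη : p ≠ η) (hB : B.LiesOverPrime p) :
    ∃ s : B.decompositionSubgroup ℚ, s ∈ B.inertiaSubgroup ℚ ∧
      ∃ (r : ℚb) (hr : r ≠ 0), r ^ η = (p : ℚb) ∧ tameChar s r hr ≠ 1 := by
  have hη : η.Prime := Fact.out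
  haveI : NeZero η := ⟨hη.ne_zero⟩
  obtain ⟨ζ, hζ⟩ := HasEnoughRootsOfUnity.exists_primitiveRoot ℚb η
  obtain ⟨r, hr⟩ := IsAlgClosed.exists_pow_nat_eq (p : ℚb) hη.pos
  have hr0 : r ≠ 0 := fun h => by
    rw [h, zero_pow hη.ne_zero, eq_comm, Nat.cast_eq_zero] at hr
    exact hp.ne_zero hr
  set K : IntermediateField ℚ ℚb := IntermediateField.adjoin ℚ {ζ}
  have hfixK : ∀ σ ∈ B.inertiaSubgroupIn ℚ, ∀ c ∈ K, σ c = c := by
    intro σ hσ c hc
    induction hc using IntermediateField.adjoin_induction with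
    | mem x hx =>
      rw [Set.mem_singleton_iff.1 hx, cyc_spec η σ (k := 1) ζ (by rw [pow_one]; exact hζ.pow_eq_one),
        cyc_inertia η hp hpη hB hσ, Units.val_one, map_one, ZMod.val_one_eq_one_mod,
        Nat.mod_eq_of_lt (by rw [pow_one]; exact hη.one_lt), pow_one]
    | algebraMap x => exact σ.commutes x
    | add x y _ _ hx hy => rw [map_add, hx, hy]
    | inv x _ hx => rw [map_inv₀, hx]
    | mul x y _ _ hx hy => rw [map_mul, hx, hy]
  have hv : ∀ c : K, B.valuation r ≠ B.valuation (c : ℚb) := by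
    intro c hc
    have hc0 : (c : ℚb) ≠ 0 := fun h => (map_ne_zero B.valuation).2 hr0 (by rw [hc, h, map_zero])
    obtain ⟨k, hk⟩ := NewVec.exists_val_eq_zpow_of_fixed hp hB (fun σ hσ => hfixK σ hσ c c.2) hc0
    have h1 := congrArg B.valuation hr
    rw [map_pow, hc, hk, ← zpow_natCast, ← zpow_mul,
      show B.valuation (p : ℚb) = B.valuation (p : ℚb) ^ (1 : ℤ) from (zpow_one _).symm,
      ← zpow_mul, one_mul] at h1
    have h2 := (zpow_right_inj₀ (valuation_ell_pos hp) (valuation_ell_lt_one hB).ne).1 h1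
    rcases Int.eq_one_or_neg_one_of_mul_eq_one' h2 with ⟨-, h3⟩ | ⟨-, h3⟩
    · exact hη.ne_one (by exact_mod_cast h3)
    · omega
  have hdiv : ∀ τ : GQ, τ r ^ η = r ^ η := fun τ => by rw [← map_pow, hr, map_natCast]
  obtain ⟨τ, hτK, hτr⟩ : ∃ τ ∈ K.fixingSubgroup, τ r ≠ r := by
    by_contra hcon
    push Not at hcon
    have hrK : r ∈ K := by
      rw [← InfiniteGalois.fixedField_fixingSubgroup K, IntermediateField.mem_fixedField_iff]
      exact hcon
    exact hv ⟨r, hrK⟩ rfl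
  obtain ⟨σ, -, hσI, hσr⟩ := ExtVanish.exists_inertia_moving hp hB hη K (β := r) (w := r)
    (fun τ' _ h hh hhw => by
      have hz : (τ' r / r) ^ η = 1 := by
        rw [div_pow, hdiv, div_self (pow_ne_zero _ hr0)]
      obtain ⟨i, -, hi⟩ := hζ.eq_pow_of_pow_eq_one hz
      have hzK : τ' r / r ∈ K := hi ▸ pow_mem (IntermediateField.mem_adjoin_simple_self ℚ ζ) i
      rw [show τ' r = τ' r / r * r from (div_mul_cancel₀ _ hr0).symm, map_mul, hhw,
        (IntermediateField.mem_fixingSubgroup_iff K h).1 hh _ hzK])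
    ⟨Polynomial.X ^ η - Polynomial.C (p : K), Polynomial.monic_X_pow_sub_C _ hη.ne_zero,
      Polynomial.natDegree_X_pow_sub_C, by simp [hr]⟩
    ⟨(p : K), by rw [← map_pow, hr]; simp⟩ hv
    (fun τ' _ => (pow_left_inj₀ zero_le zero_le hη.ne_zero).1
      (by rw [← map_pow B.valuation, ← map_pow B.valuation, hdiv]))
    hτK hτr
  obtain ⟨s, hs, rfl⟩ := hσI
  refine ⟨s, hs, r, hr0, hr, fun h1 => hσr ?_⟩
  have hx : (s : GQ) r / r ∈ B :=
    Galois.div_mem_of_valuation_eq hr0 (Galois.valuation_apply_eq s.2 r)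
  have hz : (⟨(s : GQ) r / r, hx⟩ : B) = 1 :=
    eq_one_of_residue_eq_one hp hB (n := η)
      (fun h => hpη ((Nat.prime_dvd_prime_iff_eq hp hη).1 h))
      (Subtype.ext (by
        show ((s : GQ) r / r) ^ η = 1
        rw [div_pow, hdiv, div_self (pow_ne_zero _ hr0)])) h1
  exact (div_eq_one_iff_eq hr0).1 (congrArg Subtype.val hz)

/-- On a finite level inertia is generated, up to elements of `p`-power order, by one element,
of which an element moving an `η`-th root of `p` is a power prime to `η`. -/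
theorem exists_inertia_gen (hp : p.Prime) (hB : B.LiesOverPrime p)
    {s : B.decompositionSubgroup ℚ} (hs : s ∈ B.inertiaSubgroup ℚ) {r : ℚb} (hr : r ≠ 0)
    (hrη : r ^ η = (p : ℚb)) (hs1 : tameChar s r hr ≠ 1)
    (L : IntermediateField ℚ ℚb) [FiniteDimensional ℚ L] [IsGalois ℚ L] :
    ∃ g ∈ B.inertiaSubgroupIn ℚ, ∀ τ ∈ B.inertiaSubgroupIn ℚ, ∃ k j : ℕ,
      (∀ x ∈ L, ((τ * (g ^ k)⁻¹) ^ p ^ j) x = x) ∧ (τ = (s : GQ) → ¬ η ∣ k) := by
  classical
  have hη : η.Prime := Fact.out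
  obtain ⟨e, he, hexp⟩ := exists_valuation_exponent hp hB L
  obtain ⟨R, hR⟩ := IsAlgClosed.exists_pow_nat_eq (p : ℚb) (Nat.mul_pos he hη.pos)
  have hR0 : R ≠ 0 := fun h => by
    rw [h, zero_pow (Nat.mul_pos he hη.pos).ne', eq_comm, Nat.cast_eq_zero] at hR
    exact hp.ne_zero hR
  let I : Subgroup (B.decompositionSubgroup ℚ) := B.inertiaSubgroup ℚ
  let θ : I →* ResidueField B :=
    { toFun := fun τ => tameChar (τ : B.decompositionSubgroup ℚ) R hR0
      map_one' := by simpa using Galois.tameChar_pow (one_mem I) R hR0 0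
      map_mul' := fun τ τ' => Galois.tameChar_mul τ.2 R hR0 }
  let θu : I →* (ResidueField B)ˣ := θ.toHomUnits
  have hθpow : ∀ τ : I, θ τ ^ (e * η) = 1 := by
    intro τ
    show tameChar (τ : B.decompositionSubgroup ℚ) R hR0 ^ (e * η) = 1
    rw [← tameChar_pow_arg _ R hR0, tameChar, ← map_one (residue B)]
    congr 1
    refine Subtype.ext ?_
    show ((τ : B.decompositionSubgroup ℚ) : GQ) (R ^ (e * η)) / R ^ (e * η) = 1
    rw [hR, map_natCast, div_self (Nat.cast_ne_zero.2 hp.ne_zero)]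
  haveI : NeZero (e * η) := ⟨(Nat.mul_pos he hη.pos).ne'⟩
  haveI : Finite θu.range := by
    refine Finite.of_injective (fun u : θu.range =>
      (⟨u.1, by
        obtain ⟨τ, hτ⟩ := u.2
        rw [mem_rootsOfUnity, ← hτ]
        exact Units.ext (by simpa [θu] using hθpow τ)⟩ : rootsOfUnity (e * η) (ResidueField B)))
      (fun u v h => Subtype.ext (congrArg (fun z : rootsOfUnity (e * η) (ResidueField B) =>
        (z : (ResidueField B)ˣ)) h))
  haveI : IsCyclic θu.range :=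
    isCyclic_of_subgroup_isDomain ((Units.coeHom _).comp θu.range.subtype)
      (Units.val_injective.comp Subtype.val_injective)
  obtain ⟨⟨u, g, hgu⟩, hgen⟩ := IsCyclic.exists_monoid_generator (α := θu.range)
  refine ⟨_, ⟨(g : B.decompositionSubgroup ℚ), g.2, rfl⟩, ?_⟩
  rintro _ ⟨τ, hτ, rfl⟩
  obtain ⟨k, hk⟩ := Submonoid.mem_powers_iff _ _ |>.1 (hgen ⟨θu ⟨τ, hτ⟩, ⟨_, rfl⟩⟩)
  have hk' : θ ⟨τ, hτ⟩ = θ g ^ k := by
    have := congrArg (fun z : θu.range => ((z : (ResidueField B)ˣ) : ResidueField B)) hk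
    simp only [SubmonoidClass.coe_pow, Units.val_pow_eq_pow_val, ← hgu] at this
    simpa [θu] using this.symm
  set w : I := ⟨τ, hτ⟩ * (g ^ k)⁻¹ with hw
  have hw1 : θ w = 1 := by
    have h : θ w * θ (g ^ k) = θ ⟨τ, hτ⟩ := by rw [← map_mul, hw, inv_mul_cancel_right]
    have hne : θ g ^ k ≠ 0 := by
      intro h0
      have := hθpow g
      rw [(eq_zero_of_pow_eq_zero h0), zero_pow (NeZero.ne _)] at this
      exact zero_ne_one this
    rw [map_pow, hk'] at h
    exact (mul_eq_right₀ hne).1 h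
  obtain ⟨j, hj⟩ := exists_pow_fix_of_tameChar_eq_one_on hp hB w.2 L fun x hx hxL => by
    obtain ⟨z, hz⟩ := hexp x hxL hx
    have hvR : B.valuation x = B.valuation R ^ (z * η) := by
      refine (pow_left_inj₀ zero_le zero_le he.ne').1 ?_
      rw [hz, ← zpow_natCast (B.valuation R ^ (z * (η : ℤ))) e, ← zpow_mul, ← hR, map_pow,
        ← zpow_natCast, ← zpow_mul]
      congr 1
      push_cast
      ring
    obtain ⟨i, hi | hi⟩ := (z * (η : ℤ)).eq_nat_or_neg
    · rw [Galois.tameChar_congr w.2 hx (pow_ne_zero i hR0) (by rw [hvR, hi, map_pow, zpow_natCast]),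
        tameChar_pow_arg _ R hR0, show tameChar (w : B.decompositionSubgroup ℚ) R hR0 = θ w from rfl, hw1,
        one_pow]
    · have h1 : x * R ^ i ≠ 0 := mul_ne_zero hx (pow_ne_zero i hR0)
      have h2 : tameChar (w : B.decompositionSubgroup ℚ) (x * R ^ i) h1 =
          tameChar (w : B.decompositionSubgroup ℚ) x hx := by
        rw [tameChar, tameChar]
        have : tameChar (w : B.decompositionSubgroup ℚ) (R ^ i) (pow_ne_zero i hR0) = 1 := by
          rw [tameChar_pow_arg _ R hR0, show tameChar (w : B.decompositionSubgroup ℚ) R hR0 = θ w from rfl,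
            hw1, one_pow]
        rw [tameChar] at this
        conv_rhs => rw [← mul_one (residue B _), ← this, ← map_mul]
        congr 1
        refine Subtype.ext ?_
        show ((w : B.decompositionSubgroup ℚ) : GQ) (x * R ^ i) / (x * R ^ i) = _ / x * (_ / R ^ i)
        rw [map_mul, mul_div_mul_comm]
      rw [← h2, Galois.tameChar_congr w.2 h1 one_ne_zero (by
        rw [map_mul, hvR, hi, map_pow, map_one, zpow_neg, zpow_natCast,
          inv_mul_cancel₀ (pow_ne_zero i ((map_ne_zero _).2 hR0))])]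
      rw [tameChar, ← map_one (residue B)]
      congr 1
      exact Subtype.ext (by simp)
  refine ⟨k, j, fun x hx => ?_, fun hτs => ?_⟩
  · have := hj x hx
    simpa [hw] using this
  · intro hdvd
    have hτs' : τ = s := Subtype.ext hτs
    refine hs1 ?_
    have hvr : B.valuation r = B.valuation (R ^ e) := by
      refine (pow_left_inj₀ zero_le zero_le hη.ne_zero).1 ?_
      rw [← map_pow, ← map_pow, hrη, ← pow_mul, hR]
    rw [Galois.tameChar_congr hs hr (pow_ne_zero e hR0) hvr, tameChar_pow_arg _ R hR0]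
    subst hτs'
    show θ ⟨τ, hτ⟩ ^ e = 1
    obtain ⟨c, rfl⟩ := hdvd
    rw [hk', ← pow_mul, show η * c * e = e * η * c by ring, pow_mul, hθpow, one_pow]

variable [NeZero p] {E : EisModule p η}

namespace EisModule

theorem IsCocycle.apply_pow_inertia {c : GQ → E.M} (hc : E.IsCocycle c) (hB : B.LiesOverPrime p)
    {σ : GQ} (hσ : σ ∈ B.inertiaSubgroupIn ℚ) :
    ∀ n : ℕ, c (σ ^ n) = (n : ℤ_[η]) • c σ + (n.choose 2 : ℤ_[η]) • (E.galois σ - 1) (c σ)
  | 0 => by simp [hc.map_one]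
  | n + 1 => by
    have hNN : (E.galois σ - 1) ((E.galois σ - 1) (c σ)) = 0 :=
      LinearMap.congr_fun (E.unipotent B hB σ hσ σ hσ) (c σ)
    have e : ∀ y, E.galois σ y = (E.galois σ - 1) y + y := fun y => by simp
    rw [pow_succ', hc.cocycle, apply_pow_inertia hc hB hσ n, map_add, map_smul, map_smul,
      Nat.choose_succ_succ', Nat.choose_one_right, e ((E.galois σ - 1) (c σ)), hNN, zero_add,
      e (c σ), Nat.cast_add, Nat.cast_add, Nat.cast_one]
    module

theorem IsCocycle.apply_tame (hp : p.Prime) (hg : ¬ η ∣ p) {c : GQ → E.M} (hc : E.IsCocycle c)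
    (hB : B.LiesOverPrime p) {F : GQ} (hF : B.IsFrobeniusAt F p) {s : GQ}
    (hs : s ∈ B.inertiaSubgroupIn ℚ) : c (F * s * F⁻¹) = c (s ^ p) := by
  have hpη : p ≠ η := fun h => hg (h ▸ dvd_rfl)
  set w := F * s * F⁻¹ * (s ^ p)⁻¹ with hw
  have hwI : w ∈ B.inertiaSubgroupIn ℚ :=
    mul_mem (conj_mem_inertia_of_decomposition hF.mem_decompositionSubgroup hs)
      (inv_mem (pow_mem hs p))
  have hw1 : E.galois w = 1 := by
    rw [hw, map_mul, galois_tame hp hg hB hF hs, ← map_pow, galois_mul_inv]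
  have hcw : c w = 0 := by
    refine eq_zero_of_forall_smul (η := η) fun k => ?_
    obtain ⟨L, hL, hLg, hlev⟩ := hc.exists_level k
    obtain ⟨j, hj⟩ := Galois.tame_relation hp hB hF hs L
    obtain ⟨x, hx⟩ := (hlev (w ^ p ^ j) hj).1
    obtain ⟨u, hu⟩ := isUnit_natCast_pow (η := η) hp hpη j
    refine ⟨(u⁻¹ : ℤ_[η]ˣ).val • x, ?_⟩
    rw [hc.apply_pow_inertia hB hwI, hw1, sub_self, LinearMap.zero_apply, smul_zero, add_zero,
      Nat.cast_pow] at hx
    rw [smul_comm, ← hx, ← hu, smul_smul, Units.inv_mul, one_smul]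
  rw [show F * s * F⁻¹ = w * s ^ p by rw [hw, inv_mul_cancel_right], hc.cocycle, hcw, hw1,
    zero_add, Module.End.one_apply]

/-- The value at an inertia element at the level prime lies in the kernel. -/
theorem IsCocycle.apply_mem_ker (hp : p.Prime) (hg : ¬ η ∣ p) {c : GQ → E.M}
    (hc : E.IsCocycle c) (hB : B.LiesOverPrime p) {F : GQ} (hF : B.IsFrobeniusAt F p) {s : GQ}
    (hs : s ∈ B.inertiaSubgroupIn ℚ) :
    c s ∈ LinearMap.ker ((E.galois F * E.galois F - (p : Module.End ℤ_[η] E.M) ^ 2) *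
      (E.galois F - (p : Module.End ℤ_[η] E.M))) := by
  have h := hc.apply_tame hp hg hB hF hs
  rw [hc.conj, hc.apply_pow_inertia hB hs, galois_tame hp hg hB hF hs] at h
  set N := E.galois s - 1 with hN
  set Q := E.galois F * E.galois F - (p : Module.End ℤ_[η] E.M) ^ 2
  have hQN : ∀ y, Q (N y) = 0 :=
    LinearMap.congr_fun (frob_sq_sub_mul_unipotent hp hg hB hF hs)
  have hpow : ∀ (n : ℕ) (y : E.M), (E.galois s ^ n) y = y + (n : ℤ_[η]) • N y := by
    intro n y
    induction n with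
    | zero => simp
    | succ n ih =>
      have hNN : N (N y) = 0 := LinearMap.congr_fun (E.unipotent B hB s hs s hs) y
      rw [pow_succ', Module.End.mul_apply, ih, show E.galois s = N + 1 from
        (sub_add_cancel _ _).symm, LinearMap.add_apply, map_add, map_smul, hNN, Module.End.one_apply]
      push_cast
      module
  rw [hpow] at h
  rw [LinearMap.mem_ker, Module.End.mul_apply,
    show (E.galois F - (p : Module.End ℤ_[η] E.M)) (c s) = E.galois F (c s) - (p : ℤ_[η]) • c s by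
      simp [Nat.cast_smul_eq_nsmul]]
  have h2 : E.galois F (c s) - (p : ℤ_[η]) • c s =
      N ((p : ℤ_[η]) • c F + (p.choose 2 : ℤ_[η]) • c s) := by
    rw [map_add, map_smul, map_smul, ← sub_eq_zero]
    rw [← sub_eq_zero] at h
    rw [← h]
    module
  rw [h2, hQN]

/-- A cocycle divisible at the generator is divisible on all of inertia at the level prime. -/
theorem IsCocycle.dvd_on_inertia (hp : p.Prime) (hg : ¬ η ∣ p) {c : GQ → E.M}
    (hc : E.IsCocycle c) (hB : B.LiesOverPrime p) {s : B.decompositionSubgroup ℚ}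
    (hs : s ∈ B.inertiaSubgroup ℚ) {r : ℚb} (hr : r ≠ 0) (hrη : r ^ η = (p : ℚb))
    (hs1 : tameChar s r hr ≠ 1) {K : ℕ}
    (h : ∃ w : E.M, c (s : GQ) = (η ^ K : ℤ_[η]) • w) {τ : GQ}
    (hτ : τ ∈ B.inertiaSubgroupIn ℚ) : ∃ w : E.M, c τ = (η ^ K : ℤ_[η]) • w := by
  have hpη : p ≠ η := fun h => hg (h ▸ dvd_rfl)
  set S : Submodule ℤ_[η] E.M := LinearMap.range ((η ^ K : ℤ_[η]) • LinearMap.id)
  have hS : ∀ x : E.M, x ∈ S ↔ ∃ w : E.M, x = (η ^ K : ℤ_[η]) • w := fun x => by
    simp [S, LinearMap.mem_range, eq_comm]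
  rw [← hS] at h ⊢
  obtain ⟨L, hL, hLg, hlev⟩ := hc.exists_level K
  obtain ⟨g, hgI, hgen⟩ := exists_inertia_gen hp hB hs hr hrη hs1 L
  -- elements of `p`-power order on the level do not matter
  have hw0 : ∀ w ∈ B.inertiaSubgroupIn ℚ, (∃ j : ℕ, ∀ x ∈ L, (w ^ p ^ j) x = x) →
      c w ∈ S ∧ ∀ v, E.galois w v - v ∈ S := by
    rintro w hwI ⟨j, hj⟩
    obtain ⟨u, hu⟩ := isUnit_natCast_pow (η := η) hp hpη j
    have hN : ∀ v, E.galois w v - v ∈ S := by
      intro v
      have hpow : ∀ (n : ℕ), (E.galois w ^ n) v - v = (n : ℤ_[η]) • (E.galois w v - v) := by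
        intro n
        induction n with
        | zero => simp
        | succ n ih =>
          have hNN : (E.galois w - 1) ((E.galois w - 1) v) = 0 :=
            LinearMap.congr_fun (E.unipotent B hB w hwI w hwI) v
          simp only [LinearMap.sub_apply, Module.End.one_apply, map_sub] at hNN
          rw [sub_eq_iff_eq_add] at ih
          rw [pow_succ', Module.End.mul_apply, ih, map_add, map_smul, map_sub, Nat.cast_succ,
            show E.galois w (E.galois w v) - E.galois w v = E.galois w v - v from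
              sub_eq_zero.1 hNN]
          module
      obtain ⟨x, hx⟩ := (hlev (w ^ p ^ j) hj).2.1 v
      rw [map_pow, hpow, Nat.cast_pow] at hx
      have h2 : ((u⁻¹ : ℤ_[η]ˣ).val) • ((p : ℤ_[η]) ^ j) • (E.galois w v - v) ∈ S :=
        S.smul_mem _ ((hS _).2 ⟨x, hx⟩)
      rwa [← hu, smul_smul, Units.inv_mul, one_smul] at h2
    refine ⟨?_, hN⟩
    have h1 := (hS _).2 (hlev (w ^ p ^ j) hj).1
    rw [hc.apply_pow_inertia hB hwI, Nat.cast_pow, LinearMap.sub_apply, Module.End.one_apply,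
      S.add_mem_iff_left (S.smul_mem _ (hN _))] at h1
    have h2 : ((u⁻¹ : ℤ_[η]ˣ).val) • ((p : ℤ_[η]) ^ j) • c w ∈ S := S.smul_mem _ h1
    rwa [← hu, smul_smul, Units.inv_mul, one_smul] at h2
  have hred : ∀ τ' ∈ B.inertiaSubgroupIn ℚ, ∀ k : ℕ,
      (∃ j : ℕ, ∀ x ∈ L, ((τ' * (g ^ k)⁻¹) ^ p ^ j) x = x) →
      (c τ' ∈ S ↔ c (g ^ k) ∈ S) := by
    intro τ' hτ' k hk
    obtain ⟨h1, h2⟩ := hw0 _ (mul_mem hτ' (inv_mem (pow_mem hgI k))) hk
    have e := hc.cocycle (τ' * (g ^ k)⁻¹) (g ^ k)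
    rw [inv_mul_cancel_right] at e
    rw [e, S.add_mem_iff_right h1]
    exact ⟨fun h => by simpa using sub_mem h (h2 (c (g ^ k))),
      fun h => by simpa using add_mem (h2 (c (g ^ k))) h⟩
  have hcg : c g ∈ S := by
    obtain ⟨k, j, hkj, hndvd⟩ := hgen (s : GQ) ⟨s, hs, rfl⟩
    have h1 := (hred _ ⟨s, hs, rfl⟩ k ⟨j, hkj⟩).1 h
    rw [hc.apply_pow_inertia hB hgI] at h1
    obtain ⟨u, hu⟩ : IsUnit (k : ℤ_[η]) := by
      rw [PadicInt.isUnit_iff, PadicInt.norm_natCast_eq_one_iff]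
      exact (Fact.out : η.Prime).coprime_iff_not_dvd.2 (hndvd rfl)
    set N := E.galois g - 1
    have hNN : ∀ y, N (N y) = 0 := LinearMap.congr_fun (E.unipotent B hB g hgI g hgI)
    have hstab : ∀ y ∈ S, N y ∈ S := fun y hy => by
      obtain ⟨w, rfl⟩ := (hS y).1 hy
      exact (hS _).2 ⟨N w, map_smul _ _ _⟩
    have h2 : N (c g) ∈ S := by
      have := hstab _ h1
      rw [map_add, map_smul, map_smul, hNN, smul_zero, add_zero, ← hu] at this
      have h3 := S.smul_mem (u⁻¹ : ℤ_[η]ˣ).val this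
      rwa [smul_smul, Units.inv_mul, one_smul] at h3
    rw [S.add_mem_iff_left (S.smul_mem _ h2), ← hu] at h1
    have h3 := S.smul_mem (u⁻¹ : ℤ_[η]ˣ).val h1
    rwa [smul_smul, Units.inv_mul, one_smul] at h3
  obtain ⟨k, j, hkj, -⟩ := hgen τ hτ
  refine (hred τ hτ k ⟨j, hkj⟩).2 ?_
  rw [hc.apply_pow_inertia hB hgI]
  refine add_mem (S.smul_mem _ hcg) (S.smul_mem _ ?_)
  obtain ⟨w, hw⟩ := (hS _).1 hcg
  exact (hS _).2 ⟨(E.galois g - 1) w, by rw [hw, map_smul]⟩

end EisModule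

end Fermat.Agent.Mazur3
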