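import Fermat.Agent.Mazur3.EisModule
import Fermat.Agent.Galois.Tame

/-!
# Basic tools of the Eisenstein descent

Cocycles, finite Galois levels, powers of roots of unity with exponents in `ZMod m`, Kummer
generators of twisted characters, and the notion of a cocycle of unit type on a line.
-/

set_option autoImplicit false

noncomputable section

namespace Fermat.Agent.Mazur3

open GalRep
open Fermat.Agent.Galois (GQ)

local notation "ℚb" => AlgebraicClosure ℚ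

/-- A finite Galois level above a finite level. -/
theorem exists_galois_level (F : IntermediateField ℚ ℚb) [FiniteDimensional ℚ F] :
    ∃ E : IntermediateField ℚ ℚb, FiniteDimensional ℚ E ∧ IsGalois ℚ E ∧ F ≤ E :=
  ⟨IntermediateField.normalClosure ℚ F ℚb, inferInstance,
    { to_normal := normalClosure.normal ℚ F ℚb }, IntermediateField.le_normalClosure F⟩

/-- Galois elements preserve a finite Galois level. -/
theorem apply_mem_level (E : IntermediateField ℚ ℚb) [IsGalois ℚ E] (σ : GQ) {x : ℚb}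
    (hx : x ∈ E) : σ x ∈ E := by
  rw [show σ x = ((AlgEquiv.restrictNormal σ E ⟨x, hx⟩ : E) : ℚb) from
    (AlgEquiv.restrictNormal_commutes σ E ⟨x, hx⟩).symm]
  exact SetLike.coe_mem _

/-- A power of a root of unity with exponent in `ZMod m`. -/
def zexp {m : ℕ} (ζ : ℚb) (e : ZMod m) : ℚb := ζ ^ e.val

theorem zexp_add {m : ℕ} [NeZero m] {ζ : ℚb} (hζ : ζ ^ m = 1) (a b : ZMod m) :
    zexp ζ (a + b) = zexp ζ a * zexp ζ b := by
  rw [zexp, zexp, zexp, ← pow_add, ZMod.val_add, ← pow_eq_pow_mod _ hζ]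

theorem zexp_zero {m : ℕ} (ζ : ℚb) : zexp ζ (0 : ZMod m) = 1 := by simp [zexp]

theorem zexp_natCast {m : ℕ} [NeZero m] {ζ : ℚb} (hζ : ζ ^ m = 1) (n : ℕ) :
    zexp ζ (n : ZMod m) = ζ ^ n := by
  rw [zexp, ZMod.val_natCast, ← pow_eq_pow_mod _ hζ]

theorem zexp_pow {m : ℕ} [NeZero m] {ζ : ℚb} (hζ : ζ ^ m = 1) (a : ZMod m) :
    ∀ n : ℕ, zexp ζ a ^ n = zexp ζ (n • a)
  | 0 => by rw [pow_zero, zero_smul, zexp_zero]
  | n + 1 => by rw [pow_succ, zexp_pow hζ a n, succ_nsmul, zexp_add hζ]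

theorem zexp_pow_self {m : ℕ} [NeZero m] {ζ : ℚb} (hζ : ζ ^ m = 1) (a : ZMod m) :
    zexp ζ a ^ m = 1 := by
  rw [zexp_pow hζ, nsmul_eq_mul, ZMod.natCast_self, zero_mul, zexp_zero]

theorem zexp_ne_zero {m : ℕ} [NeZero m] {ζ : ℚb} (hζ : ζ ^ m = 1) (a : ZMod m) :
    zexp ζ a ≠ 0 := fun h => by
  have := zexp_pow_self hζ a
  rw [h, zero_pow (NeZero.ne m)] at this
  exact zero_ne_one this

theorem zexp_eq_one_iff {m : ℕ} [NeZero m] {ζ : ℚb} (hζ : IsPrimitiveRoot ζ m) (a : ZMod m) :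
    zexp ζ a = 1 ↔ a = 0 := by
  rw [zexp, hζ.pow_eq_one_iff_dvd]
  refine ⟨fun h => (ZMod.val_eq_zero a).1 (Nat.eq_zero_of_dvd_of_lt h a.val_lt), fun h => ?_⟩
  simp [h]

theorem apply_zexp {η K : ℕ} [Fact η.Prime] [NeZero (η ^ K)] {ζ : ℚb} (hζ : ζ ^ η ^ K = 1)
    (σ : GQ) (e : ZMod (η ^ K)) :
    σ (zexp ζ e) = zexp ζ ((cyc η σ).val.toZModPow K * e) := by
  rw [cyc_spec η σ _ (zexp_pow_self hζ e), zexp, zexp, ← pow_mul, ZMod.val_mul,
    ← pow_eq_pow_mod _ hζ, mul_comm]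

/-- **Kummer generators** (Hilbert 90 at a finite level): a twisted character on a subgroup,
vanishing on a level, is given by a nonzero element. -/
theorem exists_kummer_gen {η K : ℕ} [Fact η.Prime] [NeZero (η ^ K)] {ζ : ℚb}
    (hζ : ζ ^ η ^ K = 1) (H : Subgroup GQ) (κ : GQ → ZMod (η ^ K))
    (hκ : ∀ σ ∈ H, ∀ τ ∈ H, κ (σ * τ) = κ σ + (cyc η σ).val.toZModPow K * κ τ)
    (F : IntermediateField ℚ ℚb) [FiniteDimensional ℚ F]
    (hF : ∀ σ ∈ H, (∀ x ∈ F, σ x = x) → κ σ = 0) :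
    ∃ u : ℚb, u ≠ 0 ∧ ∀ σ ∈ H, σ u = zexp ζ (κ σ) * u := by
  classical
  haveI := IntermediateField.adjoin.finiteDimensional
    (Algebra.IsIntegral.isIntegral (R := ℚ) ζ)
  haveI := IntermediateField.finiteDimensional_sup F (IntermediateField.adjoin ℚ {ζ})
  obtain ⟨E, hEfin, hEgal, hFE⟩ := exists_galois_level (F ⊔ IntermediateField.adjoin ℚ {ζ})
  set res := AlgEquiv.restrictNormalHom (F := ℚ) (K₁ := ℚb) E
  set S : Subgroup (E ≃ₐ[ℚ] E) := H.map res with hS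
  have hlift : ∀ h : S, ∃ σ ∈ H, res σ = (h : E ≃ₐ[ℚ] E) := fun h => h.2
  choose L hL hLres using hlift
  have hres : ∀ (σ : GQ) (y : E), ((res σ y : E) : ℚb) = σ y := fun σ y =>
    AlgEquiv.restrictNormal_commutes σ E y
  have hwd : ∀ σ ∈ H, ∀ σ' ∈ H, res σ = res σ' → κ σ = κ σ' := by
    intro σ hσ σ' hσ' he
    have h1 : κ (σ'⁻¹ * σ) = 0 := by
      refine hF _ (mul_mem (inv_mem hσ') hσ) fun x hx => ?_
      have hxE : x ∈ E := hFE ((le_sup_left : F ≤ _) hx)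
      have := congrArg (fun τ : E ≃ₐ[ℚ] E => ((τ ⟨x, hxE⟩ : E) : ℚb)) he
      simp only [hres] at this
      rw [AlgEquiv.mul_apply, this, AlgEquiv.aut_inv, AlgEquiv.symm_apply_apply]
    have h2 := hκ σ' hσ' (σ'⁻¹ * σ) (mul_mem (inv_mem hσ') hσ)
    rwa [mul_inv_cancel_left, h1, mul_zero, add_zero] at h2
  have hζE : ζ ∈ E :=
    hFE ((le_sup_right : _ ≤ F ⊔ IntermediateField.adjoin ℚ {ζ})
      (IntermediateField.mem_adjoin_simple_self ℚ ζ))
  obtain ⟨y, hy⟩ : ∃ y : E, ∑ h : S, zexp ζ (κ (L h)) * L h y ≠ 0 := by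
    by_contra hcon
    push Not at hcon
    have hinj : Function.Injective fun h : S =>
        ((E.val.comp (h : E ≃ₐ[ℚ] E).toAlgHom).toRingHom.toMonoidHom : E →* ℚb) := by
      intro h h' he
      refine Subtype.ext (AlgEquiv.ext fun y => ?_)
      exact Subtype.ext (DFunLike.congr_fun he y)
    have hli := (linearIndependent_monoidHom E ℚb).comp _ hinj
    rw [Fintype.linearIndependent_iff] at hli
    have h0 := hli (fun h => zexp ζ (κ (L h))) (funext fun y => by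
      rw [Finset.sum_apply]
      refine Eq.trans (Finset.sum_congr rfl fun h _ => ?_) (hcon y)
      rw [← hres, hLres]
      rfl) ⟨1, one_mem _⟩
    exact zexp_ne_zero hζ _ h0
  refine ⟨(∑ h : S, zexp ζ (κ (L h)) * L h y)⁻¹, inv_ne_zero hy, fun σ hσ => ?_⟩
  set s : S := ⟨res σ, Subgroup.mem_map_of_mem res hσ⟩
  have hshift : zexp ζ (κ σ) * σ (∑ h : S, zexp ζ (κ (L h)) * L h y) =
      ∑ h : S, zexp ζ (κ (L h)) * L h y := by
    rw [map_sum, Finset.mul_sum]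
    refine (Fintype.sum_equiv (Equiv.mulLeft s) _ _ fun h => ?_)
    have he : res (σ * L h) = res (L (s * h)) := by
      rw [map_mul, hLres, hLres]
      rfl
    rw [map_mul, apply_zexp hζ, ← mul_assoc, ← zexp_add hζ, ← hκ σ hσ _ (hL h),
      hwd _ (mul_mem hσ (hL h)) _ (hL _) he, ← AlgEquiv.mul_apply]
    show _ = zexp ζ (κ (L (s * h))) * L (s * h) y
    congr 1
    rw [← hres, ← hres, he]
  rw [map_inv₀]
  refine inv_eq_of_mul_eq_one_left ?_
  rw [mul_right_comm, hshift, mul_inv_cancel₀ hy]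

variable {p η : ℕ} [NeZero p] [Fact η.Prime] {E : EisModule p η}

namespace EisModule

theorem galois_mul_apply (σ τ : GQ) (v : E.M) :
    E.galois (σ * τ) v = E.galois σ (E.galois τ v) := by
  rw [map_mul]
  rfl

theorem galois_inv_apply (σ : GQ) (v : E.M) : E.galois σ⁻¹ (E.galois σ v) = v := by
  rw [← galois_mul_apply, inv_mul_cancel, map_one]
  rfl

theorem galois_apply_inv (σ : GQ) (v : E.M) : E.galois σ (E.galois σ⁻¹ v) = v := by
  rw [← galois_mul_apply, mul_inv_cancel, map_one]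
  rfl

/-- The coboundary of an element. -/
def coboundary (E : EisModule p η) (x : E.M) : GQ → E.M := fun σ => E.galois σ x - x

theorem isCocycle_coboundary (x : E.M) : E.IsCocycle (E.coboundary x) := by
  refine ⟨fun σ τ => ?_, fun k => ?_⟩
  · simp only [coboundary, galois_mul_apply, map_sub]
    abel
  · obtain ⟨F, hF, h⟩ := E.continuous k
    exact ⟨F, hF, fun σ hσ => h σ hσ x⟩

variable {c : GQ → E.M}

theorem IsCocycle.smul (hc : E.IsCocycle c) (D : ℤ_[η]) : E.IsCocycle fun σ => D • c σ := by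
  refine ⟨fun σ τ => ?_, fun k => ?_⟩
  · rw [hc.cocycle, smul_add, map_smul]
  · obtain ⟨F, hF, h⟩ := hc.continuous k
    refine ⟨F, hF, fun σ hσ => ?_⟩
    obtain ⟨w, hw⟩ := h σ hσ
    exact ⟨D • w, by rw [hw, smul_comm]⟩

theorem IsCocycle.map_one (hc : E.IsCocycle c) : c 1 = 0 := by
  have h := hc.cocycle 1 1
  simpa using h

theorem IsCocycle.map_inv (hc : E.IsCocycle c) (σ : GQ) :
    c σ⁻¹ = - E.galois σ⁻¹ (c σ) := by
  have h := hc.cocycle σ⁻¹ σ
  rw [inv_mul_cancel, hc.map_one] at h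
  exact eq_neg_of_add_eq_zero_left h.symm

theorem IsCocycle.conj (hc : E.IsCocycle c) (g τ : GQ) :
    c (g * τ * g⁻¹) = c g + E.galois g (c τ) - E.galois (g * τ * g⁻¹) (c g) := by
  rw [hc.cocycle, hc.cocycle, hc.map_inv, map_neg, galois_mul_apply (g * τ), sub_eq_add_neg]

/-- A finite Galois level on which the action, a cocycle and the cyclotomic character are
trivial modulo `η ^ k`. -/
theorem IsCocycle.exists_level (hc : E.IsCocycle c) (k : ℕ) :
    ∃ F : IntermediateField ℚ ℚb, FiniteDimensional ℚ F ∧ IsGalois ℚ F ∧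
      ∀ σ : GQ, (∀ x ∈ F, σ x = x) →
        (∃ w : E.M, c σ = (η ^ k : ℤ_[η]) • w) ∧
        (∀ v : E.M, ∃ w : E.M, E.galois σ v - v = (η ^ k : ℤ_[η]) • w) ∧
        ∃ a : ℤ_[η], (cyc η σ).val - 1 = (η ^ k : ℤ_[η]) * a := by
  obtain ⟨F₁, i₁, h₁⟩ := hc.continuous k
  obtain ⟨F₂, i₂, h₂⟩ := E.continuous k
  obtain ⟨F₃, i₃, h₃⟩ := exists_cyc_level η k
  obtain ⟨F, hF, hFg, hle⟩ := exists_galois_level (F₁ ⊔ F₂ ⊔ F₃)
  exact ⟨F, hF, hFg, fun σ hσ =>
    ⟨h₁ σ fun x hx => hσ x (hle ((le_sup_left.trans le_sup_left : F₁ ≤ _) hx)),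
     h₂ σ fun x hx => hσ x (hle ((le_sup_right.trans le_sup_left : F₂ ≤ _) hx)),
     h₃ σ fun x hx => hσ x (hle ((le_sup_right : F₃ ≤ _) hx))⟩⟩

variable {A : ValuationSubring (AlgebraicClosure ℚ)} {hg : ¬ η ∣ p}

/-- Modulo `η ^ K` every functional of the line turns `c` into the Kummer character of a unit. -/
def OrdLine.UnitType (O : E.OrdLine A hg) (c : GQ → E.M) : Prop :=
  ∀ (K : ℕ) (g : O.line →ₗ[ℤ_[η]] ℤ_[η]) (ζ : ℚb), IsPrimitiveRoot ζ (η ^ K) →
    ∃ u : ℚb, A.valuation u = 1 ∧ ∀ σ ∈ A.inertiaSubgroupIn ℚ, ∀ h : c σ ∈ O.line,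
      σ u = zexp ζ ((g ⟨c σ, h⟩).toZModPow K) * u

end EisModule

end Fermat.Agent.Mazur3
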