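import Fermat.Agent.Mazur3.Descent.Classes

/-!
# The descent: cocycles of unit type are coboundaries up to a constant
-/

set_option autoImplicit false
set_option linter.style.haveILetI false

noncomputable section

namespace Fermat.Agent.Mazur3

open GalRep Module
open Fermat.Agent.Galois (GQ)

local notation "ℚb" => AlgebraicClosure ℚ

variable {p η : ℕ} [NeZero p] [Fact η.Prime] {E : EisModule p η}
  {A : ValuationSubring ℚb} {hg : ¬ η ∣ p}

namespace EisModule

section Card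

variable (K : ℕ)

theorem neZero_pow (η K : ℕ) [Fact η.Prime] : NeZero (η ^ K) :=
  ⟨pow_ne_zero _ (Fact.out : η.Prime).ne_zero⟩

theorem toZModPow_eq_iff {r r' : ℤ_[η]} :
    r.toZModPow K = r'.toZModPow K ↔ ∃ t, r - r' = (η ^ K : ℤ_[η]) * t := by
  rw [← sub_eq_zero, ← map_sub, ← RingHom.mem_ker, PadicInt.ker_toZModPow,
    Ideal.mem_span_singleton]
  rfl

/-- The size of the reduction. -/
theorem card_red :
    Finite (E.Red K) ∧ Nat.card (E.Red K) = (η ^ K) ^ finrank ℤ_[η] E.M := by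
  haveI := neZero_pow η K
  let b := Module.Free.chooseBasis ℤ_[η] E.M
  let ι := Module.Free.ChooseBasisIndex ℤ_[η] E.M
  let ψ : E.M → (ι → ZMod (η ^ K)) := fun x i => (b.repr x i).toZModPow K
  have hψ : ∀ x x', ψ x = ψ x' ↔ x - x' ∈ E.pm K := by
    intro x x'
    rw [funext_iff, mem_pm]
    constructor
    · intro h
      choose t ht using fun i => (toZModPow_eq_iff K).1 (h i)
      refine ⟨∑ i, t i • b i, ?_⟩
      refine b.ext_elem fun i => ?_
      rw [map_sub, Finsupp.sub_apply, ht i, map_smul, Finsupp.smul_apply, smul_eq_mul,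
        b.repr_sum_self]
    · rintro ⟨w, hw⟩ i
      refine (toZModPow_eq_iff K).2 ⟨b.repr w i, ?_⟩
      rw [← Finsupp.sub_apply, ← map_sub, hw, map_smul, Finsupp.smul_apply, smul_eq_mul]
  have hout : ∀ x, ψ (Submodule.Quotient.mk x : E.Red K).out = ψ x := fun x =>
    (hψ _ _).2 ((Submodule.Quotient.eq _).1 (Quotient.out_eq _))
  have hbij : Function.Bijective fun y : E.Red K => ψ y.out := by
    constructor
    · intro y y' h
      rw [← Quotient.out_eq y, ← Quotient.out_eq y']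
      exact (Submodule.Quotient.eq _).2 ((hψ _ _).1 h)
    · intro v
      refine ⟨Submodule.Quotient.mk (∑ i, ((v i).val : ℤ_[η]) • b i), (hout _).trans ?_⟩
      funext i
      show (b.repr _ i).toZModPow K = v i
      rw [b.repr_sum_self, map_natCast, ZMod.natCast_zmod_val]
  refine ⟨Finite.of_injective _ hbij.1, ?_⟩
  rw [Nat.card_eq_of_bijective _ hbij, Nat.card_fun, Nat.card_zmod, Nat.card_eq_fintype_card,
    ← finrank_eq_card_chooseBasisIndex]

/-- The size of the image of a submodule. -/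
theorem card_map_le (P : Submodule ℤ_[η] E.M) :
    Nat.card (P.map (E.pm K).mkQ) ≤ (η ^ K) ^ finrank ℤ_[η] P := by
  haveI := neZero_pow η K
  let b := Module.Free.chooseBasis ℤ_[η] P
  let g : (Module.Free.ChooseBasisIndex ℤ_[η] P → ZMod (η ^ K)) → (P.map (E.pm K).mkQ) := fun v =>
    ⟨(E.pm K).mkQ (∑ i, ((v i).val : ℤ_[η]) • b i : P), ⟨_, SetLike.coe_mem _, rfl⟩⟩
  have hg : Function.Surjective g := by
    rintro ⟨_, x, hx, rfl⟩
    refine ⟨fun i => (b.repr ⟨x, hx⟩ i).toZModPow K, Subtype.ext ?_⟩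
    show (E.pm K).mkQ _ = (E.pm K).mkQ x
    conv_rhs => rw [show x = ((∑ i, b.repr ⟨x, hx⟩ i • b i : P) : E.M) by rw [b.sum_repr]]
    simp only [AddSubmonoidClass.coe_finsetSum, Submodule.coe_smul, map_sum, map_smul]
    refine Finset.sum_congr rfl fun i _ => ?_
    rw [smul_red_eq_nsmul (b.repr ⟨x, hx⟩ i), Nat.cast_smul_eq_nsmul]
  refine (Nat.card_le_card_of_surjective g hg).trans (le_of_eq ?_)
  rw [Nat.card_fun, Nat.card_zmod, Nat.card_eq_fintype_card, ← finrank_eq_card_chooseBasisIndex]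

end Card

variable (O : E.OrdLine A hg)

/-- The classes of unit type are few. -/
theorem OrdLine.card_redClasses_le (hp : p.Prime) (hA : A.LiesOverPrime η) (K : ℕ) :
    Finite (O.redClasses K) ∧ Nat.card (O.redClasses K) ≤ (η ^ K) ^ finrank ℤ_[η] E.M := by
  haveI := neZero_pow η K
  haveI := (card_red (E := E) K).1
  have hpη : p ≠ η := fun h => hg (h ▸ dvd_rfl)
  obtain ⟨B, hB⟩ := Galois.exists_liesOverPrime hp
  obtain ⟨F, hF⟩ := Galois.exists_isFrobeniusAt hp hB
  obtain ⟨s, hs, r, hr, hrη, hs1⟩ := exists_tame_moving hp hpη hB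
  set Q := LinearMap.ker ((E.galois F * E.galois F - (p : Module.End ℤ_[η] E.M) ^ 2) *
    (E.galois F - (p : Module.End ℤ_[η] E.M)))
  let ev : O.redClasses K →+ E.Red K :=
    { toFun := fun f => f.1 (s : GQ)
      map_zero' := rfl
      map_add' := fun _ _ => rfl }
  have hstab : IsStable (⊤ : Submodule ℤ_[η] (E.Red K)) := fun _ _ _ => trivial
  obtain ⟨hfin, hcard⟩ := O.card_subClasses_le hp hA hB ⊤ hstab
  have hmem : ∀ f : ev.ker, f.1.1 ∈ O.subClasses B (⊤ : Submodule ℤ_[η] (E.Red K)) := by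
    intro f
    refine ⟨f.1.2, fun τ hτ => ?_, fun σ => trivial⟩
    obtain ⟨c, hc, hcf⟩ := f.1.2
    have h0 : f.1.1 (s : GQ) = 0 := f.2
    rw [← hcf] at h0 ⊢
    change Submodule.Quotient.mk (c (s : GQ)) = 0 at h0
    show Submodule.Quotient.mk (c τ) = 0
    rw [Submodule.Quotient.mk_eq_zero, mem_pm] at h0 ⊢
    exact hc.1.1.dvd_on_inertia hp hg hB hs hr hrη hs1 h0 hτ
  let ι : ev.ker → O.subClasses B (⊤ : Submodule ℤ_[η] (E.Red K)) := fun f => ⟨f.1.1, hmem f⟩
  have hι : Function.Injective ι := fun a b h =>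
    Subtype.ext (Subtype.ext (congrArg (fun z : O.subClasses B (⊤ : Submodule ℤ_[η] (E.Red K)) =>
      z.1) h :))
  haveI := hfin
  haveI : Finite ev.ker := Finite.of_injective ι hι
  obtain ⟨hfin', hcard'⟩ := finite_card_le_of_hom ev
    (T := ((Q.map (E.pm K).mkQ : Submodule ℤ_[η] (E.Red K)) : Set (E.Red K))) (Set.toFinite _)
    (fun f => by
      obtain ⟨c, hc, hcf⟩ := f.2
      exact ⟨c (s : GQ), hc.1.1.apply_mem_ker hp hg hB hF ⟨s, hs, rfl⟩, congrFun hcf (s : GQ)⟩)
  refine ⟨hfin', hcard'.trans ?_⟩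
  have h1 : Nat.card ev.ker ≤ (η ^ K) ^ finrank ℤ_[η] O.line := by
    refine (Nat.card_le_card_of_injective ι hι).trans (hcard.trans ?_)
    rw [top_inf_eq]
    exact card_map_le K O.line
  have h2 : ((Q.map (E.pm K).mkQ : Submodule ℤ_[η] (E.Red K)) : Set (E.Red K)).ncard ≤
      (η ^ K) ^ finrank ℤ_[η] Q := by
    rw [← Nat.card_coe_set_eq]
    exact card_map_le K Q
  refine (Nat.mul_le_mul h1 h2).trans ?_
  rw [← pow_add]
  refine Nat.pow_le_pow_right (NeZero.pos _) ?_
  have h3 := O.two_mul_finrank_line hp hA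
  have h4 : 2 * finrank ℤ_[η] Q ≤ finrank ℤ_[η] E.M := O.two_mul_finrank_ker_le hp hA hB hF
  show finrank ℤ_[η] O.line + finrank ℤ_[η] Q ≤ finrank ℤ_[η] E.M
  omega

theorem exists_limit {M : Type*} [AddCommGroup M] [Module ℤ_[η] M] [Module.Free ℤ_[η] M]
    [Module.Finite ℤ_[η] M] (y : ℕ → M)
    (h : ∀ K, ∃ w : M, y (K + 1) - y K = (η ^ K : ℤ_[η]) • w) :
    ∃ z : M, ∀ K, ∃ w : M, y K - z = (η ^ K : ℤ_[η]) • w := by
  let b := Module.Free.chooseBasis ℤ_[η] M
  have hmem : ∀ (m : ℕ) (x : ℤ_[η]),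
      x ∈ (IsLocalRing.maximalIdeal ℤ_[η]) ^ m • (⊤ : Submodule ℤ_[η] ℤ_[η]) ↔
        ∃ t, x = (η : ℤ_[η]) ^ m * t := by
    intro m x
    rw [PadicInt.maximalIdeal_eq_span_p, Ideal.span_singleton_pow, smul_eq_mul, Ideal.mul_top,
      Ideal.mem_span_singleton]
    rfl
  have hstep : ∀ i m n, m ≤ n → ∃ t, b.repr (y m) i - b.repr (y n) i = (η : ℤ_[η]) ^ m * t := by
    intro i m n hmn
    induction n, hmn using Nat.le_induction with
    | base => exact ⟨0, by simp⟩
    | succ n hmn ih =>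
      obtain ⟨t, ht⟩ := ih
      obtain ⟨w, hw⟩ := h n
      obtain ⟨e, rfl⟩ := Nat.exists_eq_add_of_le hmn
      refine ⟨t - (η : ℤ_[η]) ^ e * b.repr w i, ?_⟩
      have h1 := congrArg (fun z => b.repr z i) hw
      simp only [map_sub, Finsupp.sub_apply, map_smul, Finsupp.smul_apply, smul_eq_mul,
        pow_add] at h1
      linear_combination ht - h1
  have hL : ∀ i, ∃ L, ∀ n, ∃ t, b.repr (y n) i - L = (η : ℤ_[η]) ^ n * t := by
    intro i
    obtain ⟨L, hL⟩ := IsPrecomplete.prec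
      (inferInstance : IsPrecomplete (IsLocalRing.maximalIdeal ℤ_[η]) ℤ_[η])
      (f := fun n => b.repr (y n) i) (fun {m n} hmn => by
        rw [SModEq.sub_mem, hmem]
        exact hstep i m n hmn)
    exact ⟨L, fun n => (hmem _ _).1 (SModEq.sub_mem.1 (hL n))⟩
  choose L hL using hL
  refine ⟨∑ i, L i • b i, fun K => ?_⟩
  choose t ht using fun i => hL i K
  refine ⟨∑ i, t i • b i, b.ext_elem fun i => ?_⟩
  rw [map_sub, Finsupp.sub_apply, b.repr_sum_self, map_smul, Finsupp.smul_apply, b.repr_sum_self,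
    smul_eq_mul]
  exact ht i

/-- **The descent.** A cocycle with values on the line on inertia is a coboundary up to a nonzero
constant. -/
theorem exists_coboundary (hp : p.Prime) (hg : ¬ η ∣ p) (E : EisModule p η)
    {A : ValuationSubring ℚb} (hA : A.LiesOverPrime η) (O : E.OrdLine A hg) {c : GQ → E.M}
    (hc : E.IsCocycle c) (hline : ∀ σ ∈ A.inertiaSubgroupIn ℚ, c σ ∈ O.line) :
    ∃ D : ℤ_[η], D ≠ 0 ∧ ∃ g : E.M, ∀ σ, D • c σ = E.galois σ g - g := by
  classical
  have hη : η.Prime := Fact.out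
  obtain ⟨D, hD0, hD⟩ := O.exists_unitType hA
  have hcl : ∀ c', E.IsCocycle c' → (∀ σ ∈ A.inertiaSubgroupIn ℚ, c' σ ∈ O.line) →
      (fun σ => D • c' σ) ∈ O.classes := fun c' h1 h2 =>
    ⟨⟨h1.smul D, fun σ hσ => O.line.smul_mem D (h2 σ hσ)⟩, hD c' h1 h2⟩
  -- a Frobenius element at an auxiliary prime controls fixed points
  obtain ⟨ℓ, hℓle, hℓ⟩ := Nat.exists_infinite_primes (η + p + 1)
  let i : GoodPrime p := ⟨⟨ℓ, hℓ⟩, fun h => by
    have := Nat.le_of_dvd hp.pos (show ℓ ∣ p from h)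
    omega⟩
  have hiη : (i : ℕ) ≠ η := by show ℓ ≠ η; omega
  obtain ⟨Bℓ, hBℓ⟩ := Galois.exists_liesOverPrime hℓ
  obtain ⟨σℓ, hσℓ⟩ := Galois.exists_isFrobeniusAt hℓ hBℓ
  set T' := E.hecke (MvPolynomial.X i) - ((1 + (i : ℕ) : ℕ) : Module.End ℤ_[η] E.M) with hT'
  obtain ⟨δ, W, hδ, hW⟩ := exists_comp_eq_det T' (E.sub_injective i)
  have hfixed : ∀ (K : ℕ) (x : E.M), (∀ σ, D • (E.galois σ x - x) ∈ E.pm K) →
      (δ * D) • x ∈ E.pm K := by
    intro K x hx
    have h1 : T' (D • x) ∈ E.pm K := by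
      have e : T' (D • x) = D • (E.galois σℓ x - x) + (ℓ : ℤ_[η]) • (D • (E.galois σℓ⁻¹ x - x)) := by
        rw [hT', LinearMap.sub_apply, ← galois_add_mul_inv hiη hBℓ hσℓ, LinearMap.add_apply,
          Module.End.mul_apply, Module.End.natCast_apply, Module.End.natCast_apply,
          show (i : ℕ) = ℓ from rfl, ← Nat.cast_smul_eq_nsmul ℤ_[η], ← Nat.cast_smul_eq_nsmul ℤ_[η],
          map_smul, map_smul, Nat.cast_add, Nat.cast_one]
        module
      rw [e]
      exact add_mem (hx _) ((E.pm K).smul_mem _ (hx _))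
    have h2 := map_mem_pm W h1
    rw [Submodule.mem_comap, ← Module.End.mul_apply, hW] at h2
    rw [mul_smul]
    exact h2
  have hδD : δ * D ≠ 0 := mul_ne_zero hδ hD0
  obtain ⟨u, hu⟩ : ∃ u : ℤ_[η]ˣ, δ * D = u * (η : ℤ_[η]) ^ (δ * D).valuation :=
    ⟨_, PadicInt.unitCoeff_spec hδD⟩
  set t := (δ * D).valuation
  set d := finrank ℤ_[η] E.M
  set N := (η ^ (t * d)).factorial with hN
  -- the approximate primitives
  have hprim : ∀ K, ∃ x : E.M, ∀ σ, (N : ℤ_[η]) • D • c σ - D • (E.galois σ x - x) ∈ E.pm K := by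
    intro K
    haveI := neZero_pow η K
    obtain ⟨hfin, hcard⟩ := O.card_redClasses_le hp hA K
    haveI := hfin
    let ψ : E.M →+ O.redClasses K :=
      { toFun := fun x => ⟨E.redFun K (fun σ => D • E.coboundary x σ),
          ⟨_, hcl _ (isCocycle_coboundary x) (O.adm_coboundary x).2, rfl⟩⟩
        map_zero' := Subtype.ext (funext fun σ => by
          show (Submodule.Quotient.mk (D • (E.galois σ 0 - 0)) : E.Red K) = 0
          rw [map_zero, sub_zero, smul_zero, Submodule.Quotient.mk_zero])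
        map_add' := fun x y => Subtype.ext (funext fun σ => by
          show (Submodule.Quotient.mk (D • (E.galois σ (x + y) - (x + y))) : E.Red K) =
            Submodule.Quotient.mk (D • (E.galois σ x - x)) +
              Submodule.Quotient.mk (D • (E.galois σ y - y))
          rw [← Submodule.Quotient.mk_add, map_add]
          congr 1
          module) }
    have hker : ψ.ker ≤ (E.pm (K - t)).toAddSubgroup := by
      intro x hx
      have hx' : ∀ σ, D • (E.galois σ x - x) ∈ E.pm K := fun σ =>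
        (Submodule.Quotient.mk_eq_zero _).1 (congrFun (congrArg Subtype.val hx) σ)
      obtain ⟨w, hw⟩ := mem_pm.1 (hfixed K x hx')
      show x ∈ E.pm (K - t)
      rw [mem_pm]
      rcases Nat.lt_or_ge K t with hKt | hKt
      · exact ⟨x, by rw [Nat.sub_eq_zero_of_le hKt.le, pow_zero, one_smul]⟩
      · refine ⟨(u⁻¹ : ℤ_[η]ˣ).val • w, ?_⟩
        have hne : ((η : ℤ_[η]) ^ t) ≠ 0 := pow_ne_zero _ (Nat.cast_ne_zero.2 hη.ne_zero)
        refine smul_right_injective E.M hne ?_
        show (η : ℤ_[η]) ^ t • x = (η : ℤ_[η]) ^ t • _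
        rw [smul_smul (M := ℤ_[η]), ← pow_add, Nat.add_sub_cancel' hKt, smul_comm, ← hw, hu, mul_smul,
          smul_smul (u⁻¹ : ℤ_[η]ˣ).val, Units.inv_mul, one_smul]
    have hidx : (η ^ (K - t)) ^ d ≤ Nat.card ψ.range := by
      rw [← Nat.card_congr (QuotientAddGroup.quotientKerEquivRange ψ).toEquiv,
        ← AddSubgroup.index_eq_card, ← (card_red (E := E) (K - t)).2]
      refine Nat.le_of_dvd ?_ (AddSubgroup.index_dvd_of_le hker)
      rw [AddSubgroup.index_eq_card,
        Nat.card_congr (QuotientAddGroup.quotientKerEquivRange ψ).toEquiv]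
      exact Nat.card_pos
    have hsmall : ψ.range.index ≤ η ^ (t * d) := by
      have h1 := AddSubgroup.card_mul_index ψ.range
      have h2 : Nat.card ψ.range * ψ.range.index ≤ Nat.card ψ.range * η ^ (t * d) := by
        rw [h1]
        refine hcard.trans (le_trans ?_ (Nat.mul_le_mul_right _ hidx))
        rw [← pow_mul, ← pow_mul, ← pow_add]
        refine Nat.pow_le_pow_right hη.pos ?_
        rw [← add_mul]
        exact Nat.mul_le_mul_right _ (by omega)
      exact Nat.le_of_mul_le_mul_left h2 Nat.card_pos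
    let cD : O.redClasses K := ⟨E.redFun K (fun σ => D • c σ), ⟨_, hcl c hc hline, rfl⟩⟩
    have hmem : N • cD ∈ ψ.range := by
      obtain ⟨k, hk⟩ := Nat.dvd_factorial
        (Nat.pos_of_ne_zero (AddSubgroup.index_ne_zero_of_finite (H := ψ.range))) hsmall
      rw [hN, hk, mul_comm, mul_nsmul']
      exact nsmul_mem (ψ.range.nsmul_index_mem cD) _
    obtain ⟨x, hx⟩ := hmem
    refine ⟨x, fun σ => ?_⟩
    have h := congrFun (congrArg Subtype.val hx) σ
    change Submodule.Quotient.mk (D • (E.galois σ x - x)) =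
      N • (Submodule.Quotient.mk (D • c σ) : E.Red K) at h
    rw [← Submodule.Quotient.mk_smul, Submodule.Quotient.eq] at h
    rw [Nat.cast_smul_eq_nsmul, ← neg_sub]
    exact neg_mem h
  choose x hx using hprim
  have hle : ∀ K, E.pm (K + 1) ≤ E.pm K := fun K v hv => by
    obtain ⟨w, rfl⟩ := mem_pm.1 hv
    exact mem_pm.2 ⟨(η : ℤ_[η]) • w, by rw [smul_smul, pow_succ]⟩
  obtain ⟨z, hz⟩ := exists_limit (fun K => (δ * D) • x K) fun K => by
    rw [← mem_pm, ← smul_sub]
    refine hfixed K _ fun σ => ?_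
    have h1 := hle K (hx (K + 1) σ)
    have h2 := hx K σ
    have e : D • (E.galois σ (x (K + 1) - x K) - (x (K + 1) - x K)) =
        ((N : ℤ_[η]) • D • c σ - D • (E.galois σ (x K) - x K)) -
          ((N : ℤ_[η]) • D • c σ - D • (E.galois σ (x (K + 1)) - x (K + 1))) := by
      rw [map_sub]
      module
    rw [e]
    exact sub_mem h2 h1
  refine ⟨δ * (N : ℤ_[η]) * D, mul_ne_zero (mul_ne_zero hδ
    (Nat.cast_ne_zero.2 (Nat.factorial_pos _).ne')) hD0, z, fun σ => ?_⟩
  rw [← sub_eq_zero]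
  refine eq_zero_of_forall_smul (η := η) fun K => mem_pm.1 ?_
  have h1 := (E.pm K).smul_mem δ (hx K σ)
  have h2 : (δ * D) • x K - z ∈ E.pm K := mem_pm.2 (hz K)
  have h3 : E.galois σ ((δ * D) • x K - z) ∈ E.pm K := map_mem_pm (E.galois σ) h2
  have e : (δ * (N : ℤ_[η]) * D) • c σ - (E.galois σ z - z) =
      δ • ((N : ℤ_[η]) • D • c σ - D • (E.galois σ (x K) - x K)) +
        (E.galois σ ((δ * D) • x K - z) - ((δ * D) • x K - z)) := by
    rw [map_sub, map_smul]
    module
  rw [e]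
  exact add_mem h1 (sub_mem h3 h2)

end EisModule

end Fermat.Agent.Mazur3
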