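import Fermat.Agent.Mazur3.Descent.Step
import Fermat.Agent.NewVec.InertiaField
import Fermat.Agent.GalRep.PlaceVal

/-!
# Cyclotomic classes of unit type over the rationals
-/

set_option autoImplicit false

noncomputable section

namespace Fermat.Agent.Mazur3

open GalRep
open Fermat.Agent.Galois (GQ)

local notation "ℚb" => AlgebraicClosure ℚ

variable {η : ℕ} [Fact η.Prime]

theorem exists_eq_pow_of_dvd_factorization {n k : ℕ} (hn : n ≠ 0)
    (h : ∀ q, k ∣ n.factorization q) : ∃ m : ℕ, n = m ^ k := by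
  refine ⟨n.factorization.prod fun q e => q ^ (e / k), ?_⟩
  conv_lhs => rw [← Nat.prod_factorization_pow_eq_self hn]
  rw [Finsupp.prod, Finsupp.prod, ← Finset.prod_pow]
  exact Finset.prod_congr rfl fun q _ => by rw [← pow_mul, Nat.div_mul_cancel (h q)]

theorem valuation_natCast_eq {B : ValuationSubring ℚb} {q : ℕ} (hq : q.Prime)
    (hB : B.LiesOverPrime q) {n : ℕ} (hn : n ≠ 0) :
    B.valuation (n : ℚb) = B.valuation (q : ℚb) ^ n.factorization q := by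
  obtain ⟨k, hk⟩ := valuation_intCast hq hB (m := ((n / q ^ n.factorization q : ℕ) : ℤ))
    (by exact_mod_cast (Nat.ordCompl_pos q hn).ne')
  have h1 : B.valuation ((n / q ^ n.factorization q : ℕ) : ℚb) = 1 := by
    refine le_antisymm ((B.valuation_le_one_iff _).mpr ?_) (not_lt.mp fun h => ?_)
    · exact natCast_mem B _
    · refine Nat.not_dvd_ordCompl hq hn (Int.natCast_dvd_natCast.1
        ((Galois.intCast_mem_placeCenter hq hB (Nat.cast (n / q ^ n.factorization q))).1 ?_))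
      rw [Galois.mem_placeCenter_iff, ValuationSubring.mem_nonunits_iff, Int.cast_natCast]
      simpa using h
  conv_lhs => rw [← Nat.ordProj_mul_ordCompl_eq_self n q]
  rw [Nat.cast_mul, map_mul, h1, mul_one, Nat.cast_pow, map_pow]

/-- A rational number with all valuations divisible by `k` is a `k`-th power up to sign. -/
theorem exists_rat_eq_pow_or_neg {k : ℕ} (hk : k ≠ 0) {a : ℚ} (ha : a ≠ 0)
    (h : ∀ q : ℕ, q.Prime → ∃ B : ValuationSubring ℚb, B.LiesOverPrime q ∧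
      ∃ j : ℤ, B.valuation (a : ℚb) = B.valuation (q : ℚb) ^ ((k : ℤ) * j)) :
    ∃ b : ℚ, b ≠ 0 ∧ (a = b ^ k ∨ a = -b ^ k) := by
  have hnum : a.num.natAbs ≠ 0 := Int.natAbs_ne_zero.2 (Rat.num_ne_zero.2 ha)
  have hkey : ∀ q, k ∣ a.num.natAbs.factorization q ∧ k ∣ a.den.factorization q := by
    intro q
    by_cases hq : q.Prime
    swap
    · rw [Nat.factorization_eq_zero_of_not_prime _ hq, Nat.factorization_eq_zero_of_not_prime _ hq]
      exact ⟨dvd_zero k, dvd_zero k⟩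
    obtain ⟨B, hB, j, hj⟩ := h q hq
    have hn : B.valuation (a.num : ℚb) = B.valuation (q : ℚb) ^ (a.num.natAbs.factorization q) := by
      rw [← valuation_natCast_eq hq hB hnum]
      rcases Int.natAbs_eq a.num with e | e
      · conv_lhs => rw [e, Int.cast_natCast]
      · conv_lhs => rw [e, Int.cast_neg, Int.cast_natCast, Valuation.map_neg]
    rw [Rat.cast_def, map_div₀, hn, valuation_natCast_eq hq hB a.den_nz, ← zpow_natCast,
      ← zpow_natCast, ← zpow_sub₀ (valuation_ell_pos hq).ne'] at hj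
    have e := (zpow_right_inj₀ (valuation_ell_pos hq) (valuation_ell_lt_one hB).ne).1 hj
    have hcop : a.num.natAbs.factorization q = 0 ∨ a.den.factorization q = 0 := by
      by_contra hcon
      push Not at hcon
      exact Nat.not_coprime_of_dvd_of_dvd hq.one_lt (Nat.dvd_of_factorization_pos hcon.1)
        (Nat.dvd_of_factorization_pos hcon.2) a.reduced
    rcases hcop with h0 | h0 <;> rw [h0] at e ⊢
    · refine ⟨dvd_zero k, Int.natCast_dvd_natCast.1 ⟨-j, ?_⟩⟩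
      simp only [Nat.cast_zero, zero_sub] at e
      linarith
    · refine ⟨Int.natCast_dvd_natCast.1 ⟨j, ?_⟩, dvd_zero k⟩
      simpa using e
  obtain ⟨m, hm⟩ := exists_eq_pow_of_dvd_factorization hnum fun q => (hkey q).1
  obtain ⟨d, hd⟩ := exists_eq_pow_of_dvd_factorization a.den_nz fun q => (hkey q).2
  refine ⟨(m : ℚ) / d, ?_, ?_⟩
  · intro h0
    rcases div_eq_zero_iff.1 h0 with h1 | h1
    · rw [Nat.cast_eq_zero.1 h1] at hm
      exact hnum (by rw [hm, zero_pow hk])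
    · exact a.den_nz (by rw [hd, Nat.cast_eq_zero.1 h1, zero_pow hk])
  · have e1 : ((a.num.natAbs : ℕ) : ℚ) / (a.den : ℚ) = ((m : ℚ) / d) ^ k := by
      rw [hm, hd, Nat.cast_pow, Nat.cast_pow, div_pow]
    rcases Int.natAbs_eq a.num with e | e
    · left
      rw [← e1]
      conv_lhs => rw [← Rat.num_div_den a, e, Int.cast_natCast]
    · right
      rw [← e1, ← neg_div]
      conv_lhs => rw [← Rat.num_div_den a, e, Int.cast_neg, Int.cast_natCast]

variable {A : ValuationSubring ℚb} {ζ : ℚb}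

theorem zexp_injective {m : ℕ} [NeZero m] (hζ : IsPrimitiveRoot ζ m) {a b : ZMod m}
    (h : zexp ζ a = zexp ζ b) : a = b := by
  rw [← sub_eq_zero, ← zexp_eq_one_iff hζ]
  refine mul_right_cancel₀ (zexp_ne_zero hζ.pow_eq_one b) ?_
  rw [← zexp_add hζ.pow_eq_one, sub_add_cancel, one_mul, h]

theorem exists_zexp_of_pow_eq_one {m : ℕ} [NeZero m] (hζ : IsPrimitiveRoot ζ m) {z : ℚb}
    (hz : z ^ m = 1) : ∃ e : ZMod m, z = zexp ζ e := by
  obtain ⟨i, -, hi⟩ := hζ.eq_pow_of_pow_eq_one hz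
  exact ⟨i, by rw [zexp_natCast hζ.pow_eq_one, hi]⟩

/-- A twisted class which is a unit class everywhere comes from a root of unity. -/
theorem exists_root_of_unitType (hA : A.LiesOverPrime η) (hζ : IsPrimitiveRoot ζ (η ^ 1))
    (κ : GQ → ZMod (η ^ 1)) (hκ : ∀ σ τ, κ (σ * τ) = κ σ + omega η σ * κ τ)
    (hlev : ∃ F : IntermediateField ℚ ℚb, FiniteDimensional ℚ F ∧
      ∀ σ : GQ, (∀ x ∈ F, σ x = x) → κ σ = 0)
    (hunr : ∀ q : ℕ, q.Prime → q ≠ η → ∃ B : ValuationSubring ℚb, B.LiesOverPrime q ∧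
      ∀ σ ∈ B.inertiaSubgroupIn ℚ, κ σ = 0)
    (hu : ∃ u : ℚb, A.valuation u = 1 ∧
      ∀ σ ∈ A.inertiaSubgroupIn ℚ, σ u = zexp ζ (κ σ) * u) :
    ∃ ρ : ℚb, ρ ^ (2 * η) = 1 ∧ ∀ σ : GQ, σ ρ = zexp ζ (κ σ) * ρ := by
  haveI : NeZero (η ^ 1) := ⟨pow_ne_zero _ (Fact.out : η.Prime).ne_zero⟩
  obtain ⟨F, hF, hF'⟩ := hlev
  obtain ⟨r, hr0, hr⟩ := exists_kummer_gen hζ.pow_eq_one ⊤ κ (fun σ _ τ _ => hκ σ τ) F
    (fun σ _ h => hF' σ h)
  obtain ⟨a, ha⟩ : ∃ a : ℚ, (a : ℚb) = r ^ (η ^ 1) := by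
    obtain ⟨a, ha⟩ := (InfiniteGalois.mem_range_algebraMap_iff_fixed (r ^ (η ^ 1))).2 fun σ => by
      rw [map_pow, hr σ (Subgroup.mem_top σ), mul_pow, zexp_pow_self hζ.pow_eq_one, one_mul]
    exact ⟨a, by rw [← ha, eq_ratCast]⟩
  have ha0 : a ≠ 0 := fun h => pow_ne_zero (η ^ 1) hr0 (by rw [← ha, h, Rat.cast_zero])
  have hval : ∀ q : ℕ, q.Prime → ∃ B : ValuationSubring ℚb, B.LiesOverPrime q ∧
      ∃ j : ℤ, B.valuation (a : ℚb) = B.valuation (q : ℚb) ^ (((η ^ 1 : ℕ) : ℤ) * j) := by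
    intro q hq
    by_cases hqη : q = η
    · subst hqη
      obtain ⟨u, hu1, hu2⟩ := hu
      have hu0 : u ≠ 0 := fun h => by simp [h] at hu1
      obtain ⟨j, hj⟩ := NewVec.exists_val_eq_zpow_of_fixed hq hA (x := r / u) (fun σ hσ => by
        rw [map_div₀, hr σ (Subgroup.mem_top σ), hu2 σ hσ,
          mul_div_mul_left _ _ (zexp_ne_zero hζ.pow_eq_one _)]) (div_ne_zero hr0 hu0)
      rw [map_div₀, hu1, div_one] at hj
      exact ⟨A, hA, j, by rw [ha, map_pow, hj, ← zpow_natCast (A.valuation _ ^ j), ← zpow_mul,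
        mul_comm]⟩
    · obtain ⟨B, hB, hB'⟩ := hunr q hq hqη
      obtain ⟨j, hj⟩ := NewVec.exists_val_eq_zpow_of_fixed hq hB (x := r) (fun σ hσ => by
        rw [hr σ (Subgroup.mem_top σ), hB' σ hσ, zexp_zero, one_mul]) hr0
      exact ⟨B, hB, j, by rw [ha, map_pow, hj, ← zpow_natCast (B.valuation _ ^ j), ← zpow_mul,
        mul_comm]⟩
  obtain ⟨b, hb0, hb⟩ := exists_rat_eq_pow_or_neg (NeZero.ne (η ^ 1)) ha0 hval
  have hb0' : (b : ℚb) ≠ 0 := Rat.cast_ne_zero.2 hb0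
  refine ⟨r / b, ?_, fun σ => by
    rw [map_div₀, map_ratCast, hr σ (Subgroup.mem_top σ), mul_div_assoc]⟩
  rw [mul_comm, pow_mul, div_pow]
  have e : r ^ η = (a : ℚb) := by rw [ha, pow_one]
  rw [e]
  simp only [pow_one] at hb
  rcases hb with rfl | rfl <;> push_cast <;>
    field_simp [pow_ne_zero η hb0']

/-- At most `η` cyclotomic classes are of unit type everywhere. -/
theorem exists_unit_classes (hA : A.LiesOverPrime η) (hζ : IsPrimitiveRoot ζ (η ^ 1)) :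
    ∃ Φ : Fin η → GQ → ZMod (η ^ 1), ∀ κ : GQ → ZMod (η ^ 1),
      (∀ σ τ, κ (σ * τ) = κ σ + omega η σ * κ τ) →
      (∃ F : IntermediateField ℚ ℚb, FiniteDimensional ℚ F ∧
        ∀ σ : GQ, (∀ x ∈ F, σ x = x) → κ σ = 0) →
      (∀ q : ℕ, q.Prime → q ≠ η → ∃ B : ValuationSubring ℚb, B.LiesOverPrime q ∧
        ∀ σ ∈ B.inertiaSubgroupIn ℚ, κ σ = 0) →
      (∃ u : ℚb, A.valuation u = 1 ∧ ∀ σ ∈ A.inertiaSubgroupIn ℚ, σ u = zexp ζ (κ σ) * u) →
      ∃ i, κ = Φ i := by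
  have hη : η.Prime := Fact.out
  haveI : NeZero (η ^ 1) := ⟨pow_ne_zero _ hη.ne_zero⟩
  haveI : NeZero (2 * η) := ⟨Nat.mul_ne_zero two_ne_zero hη.ne_zero⟩
  obtain ⟨ξ, hξ⟩ := HasEnoughRootsOfUnity.exists_primitiveRoot ℚb (2 * η)
  have hξη : ξ ^ η = -1 := by
    have h2 : (ξ ^ η) ^ 2 = 1 := by rw [← pow_mul, mul_comm]; exact hξ.pow_eq_one
    refine (sq_eq_one_iff.1 h2).resolve_left fun h => ?_
    have := Nat.le_of_dvd hη.pos ((hξ.pow_eq_one_iff_dvd η).1 h)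
    have := hη.pos
    omega
  have hz : ∀ (i : ℕ) (σ : GQ), ∃ e : ZMod (η ^ 1), σ (ξ ^ i) = zexp ζ e * ξ ^ i := by
    intro i σ
    have hξ0 : ξ ^ i ≠ 0 := pow_ne_zero _ (hξ.ne_zero (NeZero.ne _))
    obtain ⟨e, he⟩ := exists_zexp_of_pow_eq_one hζ (z := σ (ξ ^ i) / ξ ^ i) (by
      have e : (ξ ^ i) ^ (η ^ 1) = (-1) ^ i := by rw [pow_one, ← pow_mul, mul_comm, pow_mul, hξη]
      rw [div_pow, ← map_pow, e, map_pow, map_neg, map_one,
        div_self (pow_ne_zero _ (neg_ne_zero.2 one_ne_zero))])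
    exact ⟨e, by rw [← he, div_mul_cancel₀ _ hξ0]⟩
  choose Φ hΦ using hz
  refine ⟨fun i => Φ i, fun κ hκ hlev hunr hu => ?_⟩
  obtain ⟨ρ, hρ2, hρ⟩ := exists_root_of_unitType hA hζ κ hκ hlev hunr hu
  obtain ⟨j, -, hj⟩ := hξ.eq_pow_of_pow_eq_one hρ2
  refine ⟨⟨j % η, Nat.mod_lt _ hη.pos⟩, funext fun σ => zexp_injective hζ ?_⟩
  have hne : ξ ^ (j % η) ≠ 0 := pow_ne_zero _ (hξ.ne_zero (NeZero.ne _))
  have e : ρ = (-1) ^ (j / η) * ξ ^ (j % η) := by
    rw [← hξη, ← pow_mul, ← pow_add, Nat.div_add_mod, hj]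
  have h := hρ σ
  rw [e, map_mul, map_pow σ, map_neg, map_one, hΦ, ← mul_assoc, ← mul_assoc] at h
  have h2 := mul_right_cancel₀ hne h
  rw [mul_comm (zexp ζ (κ σ))] at h2
  exact (mul_left_cancel₀ (pow_ne_zero _ (neg_ne_zero.2 one_ne_zero)) h2).symm

/-- A cyclotomic class unramified everywhere vanishes. -/
theorem eq_zero_of_unramified (hA : A.LiesOverPrime η) (hζ : IsPrimitiveRoot ζ (η ^ 1))
    (κ : GQ → ZMod (η ^ 1)) (hκ : ∀ σ τ, κ (σ * τ) = κ σ + omega η σ * κ τ)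
    (hlev : ∃ F : IntermediateField ℚ ℚb, FiniteDimensional ℚ F ∧
      ∀ σ : GQ, (∀ x ∈ F, σ x = x) → κ σ = 0)
    (hunr : ∀ q : ℕ, q.Prime → q ≠ η → ∃ B : ValuationSubring ℚb, B.LiesOverPrime q ∧
      ∀ σ ∈ B.inertiaSubgroupIn ℚ, κ σ = 0)
    (hη0 : ∀ σ ∈ A.inertiaSubgroupIn ℚ, κ σ = 0)
    {σ₀ : GQ} (hσ₀ : σ₀ ∈ A.inertiaSubgroupIn ℚ) (hω : omega η σ₀ ≠ 1) : κ = 0 := by
  haveI : NeZero (η ^ 1) := ⟨pow_ne_zero _ (Fact.out : η.Prime).ne_zero⟩
  obtain ⟨ρ, hρ2, hρ⟩ := exists_root_of_unitType hA hζ κ hκ hlev hunr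
    ⟨1, map_one _, fun σ hσ => by rw [hη0 σ hσ, zexp_zero, map_one, mul_one]⟩
  obtain ⟨e, he⟩ := exists_zexp_of_pow_eq_one hζ (z := ρ ^ 2) (by rw [pow_one, ← pow_mul, hρ2])
  have h0 : σ₀ ρ = ρ := by rw [hρ, hη0 _ hσ₀, zexp_zero, one_mul]
  have h1 : omega η σ₀ * e = e := by
    refine zexp_injective hζ ?_
    have := apply_zexp hζ.pow_eq_one σ₀ e
    rw [← he, map_pow, h0] at this
    rw [← he]
    exact this.symm
  have he0 : e = 0 := by
    by_contra h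
    exact hω (mul_right_cancel₀ h (by rw [h1, one_mul]))
  rw [he0, zexp_zero] at he
  funext σ
  refine (zexp_eq_one_iff hζ _).1 ?_
  have hρ0 : ρ ≠ 0 := fun h => by simp [h] at he
  have hfix : σ ρ = ρ := by
    rcases sq_eq_one_iff.1 he with h | h <;> simp [h]
  exact mul_right_cancel₀ hρ0 (by rw [← hρ, hfix, one_mul])

end Fermat.Agent.Mazur3
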