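import Fermat.Agent.Mazur3.Descent.Trace

/-!
# Simple quotients of the reductions are the trivial or the cyclotomic character
-/

set_option autoImplicit false
set_option linter.style.haveILetI false

noncomputable section

namespace Fermat.Agent.Mazur3

open GalRep
open Fermat.Agent.Galois (GQ)

local notation "ℚb" => AlgebraicClosure ℚ

variable {p η : ℕ} [NeZero p] [Fact η.Prime]

instance fact_prime_pow_one : Fact (η ^ 1).Prime := ⟨by rw [pow_one]; exact Fact.out⟩

/-- The cyclotomic character modulo `η`. -/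
def omega (η : ℕ) [Fact η.Prime] (σ : GQ) : ZMod (η ^ 1) := (cyc η σ).val.toZModPow 1

theorem omega_mul (σ τ : GQ) : omega η (σ * τ) = omega η σ * omega η τ := by
  rw [omega, omega, omega, map_mul, Units.val_mul, map_mul]

theorem omega_one : omega η 1 = 1 := by rw [omega, map_one, Units.val_one, map_one]

theorem omega_ne_zero (σ : GQ) : omega η σ ≠ 0 := fun h => one_ne_zero (α := ZMod (η ^ 1)) (by
  rw [← omega_one (η := η), ← mul_inv_cancel σ, omega_mul, h, zero_mul])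

theorem omega_inv (σ : GQ) : omega η σ * omega η σ⁻¹ = 1 := by
  rw [← omega_mul, mul_inv_cancel, omega_one]

/-- An additive map to `ZMod η` of a `ℤ_η`-module is linear through the reduction. -/
theorem map_smul_addHom {V : Type*} [AddCommGroup V] [Module ℤ_[η] V] (θ : V →+ ZMod (η ^ 1))
    (r : ℤ_[η]) (v : V) : θ (r • v) = r.toZModPow 1 * θ v := by
  set n := (r.toZModPow 1).val
  have h : (r - (n : ℤ_[η])).toZModPow 1 = 0 := by
    rw [map_sub, map_natCast, ZMod.natCast_zmod_val, sub_self]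
  rw [← RingHom.mem_ker, PadicInt.ker_toZModPow, Ideal.mem_span_singleton] at h
  obtain ⟨r', hr⟩ := h
  rw [eq_add_of_sub_eq hr, add_smul, map_add, mul_smul, ← Nat.cast_pow, Nat.cast_smul_eq_nsmul,
    Nat.cast_smul_eq_nsmul, map_nsmul, map_nsmul, nsmul_eq_mul, nsmul_eq_mul, map_add, map_mul,
    map_natCast, map_natCast, ZMod.natCast_self, zero_mul, zero_mul, zero_add, zero_add]

namespace EisModule

variable (E : EisModule p η) (K : ℕ)

/-- Multiples of `η ^ K`. -/
def pm : Submodule ℤ_[η] E.M := LinearMap.range ((η ^ K : ℤ_[η]) • LinearMap.id)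

variable {E K}

theorem mem_pm {x : E.M} : x ∈ E.pm K ↔ ∃ w : E.M, x = (η ^ K : ℤ_[η]) • w := by
  simp [pm, LinearMap.mem_range, eq_comm]

theorem map_mem_pm (f : Module.End ℤ_[η] E.M) : E.pm K ≤ (E.pm K).comap f := fun x hx => by
  obtain ⟨w, rfl⟩ := mem_pm.1 hx
  exact mem_pm.2 ⟨f w, map_smul f _ w⟩

variable (E K)

/-- The reduction modulo `η ^ K`. -/
abbrev Red : Type := E.M ⧸ E.pm K

variable {E K}

/-- An endomorphism on the reduction. -/
def redEnd (K : ℕ) (f : Module.End ℤ_[η] E.M) : Module.End ℤ_[η] (E.Red K) :=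
  (E.pm K).mapQ (E.pm K) f (map_mem_pm f)

@[simp] theorem redEnd_mk (f : Module.End ℤ_[η] E.M) (x : E.M) :
    redEnd K f (Submodule.Quotient.mk x) = Submodule.Quotient.mk (f x) := rfl

/-- The Galois action on the reduction. -/
def galK (E : EisModule p η) (K : ℕ) : GQ →* Module.End ℤ_[η] (E.Red K) where
  toFun σ := redEnd K (E.galois σ)
  map_one' := Submodule.linearMap_qext _ (LinearMap.ext fun x => by simp)
  map_mul' σ τ := Submodule.linearMap_qext _ (LinearMap.ext fun x => by simp)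

@[simp] theorem galK_mk (σ : GQ) (x : E.M) :
    E.galK K σ (Submodule.Quotient.mk x) = Submodule.Quotient.mk (E.galois σ x) := rfl

/-- Stable subgroups of the reduction. -/
def IsStable (S : Submodule ℤ_[η] (E.Red K)) : Prop := ∀ σ, ∀ v ∈ S, E.galK K σ v ∈ S

theorem pow_mem_smul {g : Module.End ℤ_[η] E.M} {k : ℕ}
    (h : ∀ v : E.M, ∃ w : E.M, (g ^ k) v = (η : ℤ_[η]) • w) :
    ∀ (j : ℕ) (v : E.M), ∃ w : E.M, (g ^ (k * j)) v = (η ^ j : ℤ_[η]) • w
  | 0, v => ⟨v, by simp⟩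
  | j + 1, v => by
    obtain ⟨w, hw⟩ := pow_mem_smul h j v
    obtain ⟨w', hw'⟩ := h w
    exact ⟨w', by rw [mul_add, mul_one, add_comm, pow_add, Module.End.mul_apply, hw, map_smul, hw',
      smul_smul, pow_succ]⟩

theorem redEnd_pow (f : Module.End ℤ_[η] E.M) (n : ℕ) (x : E.M) :
    (redEnd K f ^ n) (Submodule.Quotient.mk x) = Submodule.Quotient.mk ((f ^ n) x) := by
  induction n with
  | zero => simp
  | succ n ih => rw [pow_succ', Module.End.mul_apply, ih, redEnd_mk, pow_succ', Module.End.mul_apply]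

/-- A nontrivial group killed by `η` has a nonzero functional to `ZMod η`. -/
theorem exists_addHom_of_prime {G : Type*} [AddCommGroup G] [Module (ZMod η) G] [Nontrivial G] :
    ∃ θ : G →+ ZMod η, θ ≠ 0 := by
  let b := Module.Basis.ofVectorSpace (ZMod η) G
  obtain ⟨i⟩ := b.index_nonempty
  refine ⟨(b.coord i).toAddMonoidHom, fun h => ?_⟩
  have h1 : b.coord i (b i) = 0 := DFunLike.congr_fun h (b i)
  rw [Module.Basis.coord_apply, Module.Basis.repr_self, Finsupp.single_eq_same] at h1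
  exact one_ne_zero h1

/-- A nonzero finite group killed by a power of `η` has a nonzero functional to `ZMod η`. -/
theorem exists_addHom_ne_zero {V : Type*} [AddCommGroup V] [Finite V] (v₀ : V) (hv₀ : v₀ ≠ 0)
    {j : ℕ} (hj : ∀ v : V, (η ^ j) • v = 0) : ∃ θ : V →+ ZMod (η ^ 1), θ ≠ 0 := by
  classical
  let W : AddSubgroup V := (nsmulAddMonoidHom (η ^ 1)).range
  have hW : W ≠ ⊤ := by
    intro htop
    have hsurj : ∀ v : V, ∃ w, (η ^ 1) • w = v := fun v => (htop ▸ AddSubgroup.mem_top v : v ∈ W)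
    have : ∀ i : ℕ, ∃ w, (η ^ i) • w = v₀ := by
      intro i
      induction i with
      | zero => exact ⟨v₀, by simp⟩
      | succ i ih =>
        obtain ⟨w, hw⟩ := ih
        obtain ⟨w', rfl⟩ := hsurj w
        exact ⟨w', by rw [← hw, smul_smul, pow_one, ← pow_succ]⟩
    obtain ⟨w, hw⟩ := this j
    exact hv₀ (by rw [← hw, hj])
  have hk : ∀ x : V ⧸ W, η • x = 0 := fun x => by
    obtain ⟨v, rfl⟩ := QuotientAddGroup.mk_surjective x
    rw [← QuotientAddGroup.mk_nsmul, QuotientAddGroup.eq_zero_iff]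
    exact ⟨v, show (η ^ 1) • v = η • v by rw [pow_one]⟩
  letI : Module (ZMod η) (V ⧸ W) := AddCommGroup.zmodModule hk
  haveI : Nontrivial (V ⧸ W) := QuotientAddGroup.nontrivial_iff.2 hW
  obtain ⟨θ, hθ⟩ := exists_addHom_of_prime (η := η) (G := V ⧸ W)
  let e : ZMod η ≃+* ZMod (η ^ 1) := ZMod.ringEquivCongr (pow_one η).symm
  refine ⟨(e.toAddMonoidHom.comp θ).comp (QuotientAddGroup.mk' W), fun h => hθ ?_⟩
  refine AddMonoidHom.ext fun x => ?_
  obtain ⟨v, rfl⟩ := QuotientAddGroup.mk_surjective x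
  refine e.injective ?_
  rw [AddMonoidHom.zero_apply, _root_.map_zero]
  exact DFunLike.congr_fun h v

/-- **The residual step.** A nonzero finite stable subgroup of a reduction has a nonzero functional
on which Galois acts trivially, or through the cyclotomic character. -/
theorem exists_eigen_functional (S : Submodule ℤ_[η] (E.Red K)) [Finite S] (hS : IsStable S)
    (h0 : S ≠ ⊥) :
    ∃ θ : S →+ ZMod (η ^ 1), θ ≠ 0 ∧
      ((∀ σ, ∀ v : S, θ ⟨E.galK K σ v, hS σ v v.2⟩ = θ v) ∨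
        ∀ σ, ∀ v : S, θ ⟨E.galK K σ v, hS σ v v.2⟩ = omega η σ * θ v) := by
  classical
  have hη : η.Prime := Fact.out
  let ρ : GQ → S →+ S := fun σ => ((E.galK K σ).restrict (hS σ)).toAddMonoidHom
  have hρ : ∀ σ τ (v : S), ρ (σ * τ) v = ρ σ (ρ τ v) := fun σ τ v => Subtype.ext (by
    show E.galK K (σ * τ) v = E.galK K σ (E.galK K τ v)
    rw [map_mul]; rfl)
  have hρ1 : ∀ v : S, ρ 1 v = v := fun v => Subtype.ext (by
    show E.galK K 1 v = v
    rw [map_one]; rfl)
  haveI : NeZero (η ^ 1) := ⟨by rw [pow_one]; exact hη.ne_zero⟩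
  haveI : Finite (S →+ ZMod (η ^ 1)) := Finite.of_injective _ DFunLike.coe_injective
  let St : AddSubgroup (S →+ ZMod (η ^ 1)) → Prop := fun D =>
    D ≠ ⊥ ∧ ∀ σ, ∀ θ ∈ D, θ.comp (ρ σ) ∈ D
  obtain ⟨θ₀, hθ₀⟩ : ∃ θ : S →+ ZMod (η ^ 1), θ ≠ 0 := by
    obtain ⟨v, hv, hv0⟩ := Submodule.exists_mem_ne_zero_of_ne_bot h0
    refine exists_addHom_ne_zero (⟨v, hv⟩ : S) (fun h => hv0 (congrArg Subtype.val h)) (j := K)
      fun w => Subtype.ext ?_
    obtain ⟨x, hx⟩ := Submodule.Quotient.mk_surjective _ (w : E.Red K)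
    rw [AddSubmonoidClass.coe_nsmul, ← Nat.cast_smul_eq_nsmul ℤ_[η], Nat.cast_pow, ← hx,
      ← Submodule.Quotient.mk_smul, ZeroMemClass.coe_zero, Submodule.Quotient.mk_eq_zero]
    exact mem_pm.2 ⟨x, rfl⟩
  have hex : ∃ n, ∃ D, St D ∧ Nat.card D = n := ⟨_, ⊤, ⟨fun h => hθ₀ (by
    have : θ₀ ∈ (⊤ : AddSubgroup (S →+ ZMod (η ^ 1))) := trivial
    rw [h] at this
    simpa using this), fun _ _ _ => trivial⟩, rfl⟩
  obtain ⟨D, ⟨hD0, hDst⟩, hDc⟩ := Nat.find_spec hex
  have hmin : ∀ D', St D' → D' ≤ D → D' = D := fun D' h hle =>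
    AddSubgroup.eq_of_le_of_card_ge hle (hDc ▸ Nat.find_min' hex ⟨D', h, rfl⟩)
  -- the Hecke operators act by `1 + ℓ`
  have hfrob : ∀ (ℓ : GoodPrime p), (ℓ : ℕ) ≠ η → ∀ B : ValuationSubring ℚb,
      B.LiesOverPrime (ℓ : ℕ) → ∀ σ : GQ, B.IsFrobeniusAt σ (ℓ : ℕ) → ∀ θ ∈ D, ∀ v : S,
        θ (ρ σ v) + (ℓ : ℕ) * θ (ρ σ⁻¹ v) = (1 + (ℓ : ℕ)) * θ v := by
    intro ℓ hℓ B hB σ hσ
    let f : S →+ S := ρ σ + (ℓ : ℕ) • ρ σ⁻¹ - (1 + (ℓ : ℕ)) • AddMonoidHom.id S
    have hfD : ∀ θ ∈ D, θ.comp f ∈ D := by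
      intro θ hθ
      have : θ.comp f = θ.comp (ρ σ) + (ℓ : ℕ) • θ.comp (ρ σ⁻¹) - (1 + (ℓ : ℕ)) • θ := by
        ext v; simp [f]
      rw [this]
      exact sub_mem (add_mem (hDst σ θ hθ) (nsmul_mem (hDst _ θ hθ) _)) (nsmul_mem hθ _)
    set g := E.hecke (MvPolynomial.X ℓ) - ((1 + (ℓ : ℕ) : ℕ) : Module.End ℤ_[η] E.M) with hg
    have hfg : ∀ v : S, ((f v : S) : E.Red K) = redEnd K g v := by
      intro v
      obtain ⟨x, hx⟩ := Submodule.Quotient.mk_surjective _ (v : E.Red K)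
      simp only [f, AddMonoidHom.sub_apply, AddMonoidHom.add_apply, AddMonoidHom.smul_apply,
        AddMonoidHom.id_apply, AddSubgroupClass.coe_sub, Submodule.coe_add,
        AddSubmonoidClass.coe_nsmul]
      show E.galK K σ v + (ℓ : ℕ) • E.galK K σ⁻¹ v - _ = _
      rw [← hx, galK_mk, galK_mk, redEnd_mk, hg, LinearMap.sub_apply,
        ← galois_add_mul_inv hℓ hB hσ, LinearMap.add_apply, Module.End.mul_apply,
        Module.End.natCast_apply, Module.End.natCast_apply]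
      rfl
    have hcomm : ∀ τ, ∀ v : S, f (ρ τ v) = ρ τ (f v) := by
      intro τ v
      refine Subtype.ext ?_
      rw [hfg]
      show redEnd K g (E.galK K τ v) = E.galK K τ (f v : S)
      rw [hfg]
      obtain ⟨x, hx⟩ := Submodule.Quotient.mk_surjective _ (v : E.Red K)
      rw [← hx, galK_mk, redEnd_mk, redEnd_mk, galK_mk]
      congr 1
      exact (LinearMap.congr_fun ((E.galois_hecke τ _).symm.sub_left (Nat.cast_commute _ _)).eq x)
    obtain ⟨k, hk⟩ := E.eisenstein ℓ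
    have hnil : ∀ v : S, (f^[k * K]) v = 0 := by
      intro v
      have hit : ∀ (n : ℕ), (((f^[n]) v : S) : E.Red K) = (redEnd K g ^ n) v := by
        intro n
        induction n with
        | zero => rfl
        | succ n ih => rw [Function.iterate_succ_apply', hfg, ih, pow_succ', Module.End.mul_apply]
      refine Subtype.ext ?_
      rw [hit]
      obtain ⟨x, hx⟩ := Submodule.Quotient.mk_surjective _ (v : E.Red K)
      rw [← hx, redEnd_pow, ZeroMemClass.coe_zero, Submodule.Quotient.mk_eq_zero]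
      exact mem_pm.2 (pow_mem_smul hk K x)
    let D1 : AddSubgroup (S →+ ZMod (η ^ 1)) :=
      { carrier := {θ | θ ∈ D ∧ θ.comp f = 0}
        add_mem' := fun ha hb => ⟨add_mem ha.1 hb.1, by rw [AddMonoidHom.add_comp, ha.2, hb.2,
          add_zero]⟩
        zero_mem' := ⟨zero_mem D, AddMonoidHom.zero_comp f⟩
        neg_mem' := fun {a} ha => ⟨neg_mem ha.1, by
          ext v
          have := DFunLike.congr_fun ha.2 v
          simp only [AddMonoidHom.comp_apply, AddMonoidHom.zero_apply] at this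
          simp [this]⟩ }
    have hD1 : D1 = D := by
      refine hmin D1 ⟨fun h => ?_, fun τ θ hθ => ⟨hDst τ θ hθ.1, ?_⟩⟩ fun θ hθ => hθ.1
      · obtain ⟨θ, hθD, hθ0⟩ := AddSubgroup.bot_or_exists_ne_zero D |>.resolve_left hD0
        let seq : ℕ → (S →+ ZMod (η ^ 1)) := fun n => Nat.rec θ (fun _ ψ => ψ.comp f) n
        have hseq : ∀ n, seq n ∈ D ∧ ∀ v, seq n v = θ ((f^[n]) v) := by
          intro n
          induction n with
          | zero => exact ⟨hθD, fun v => rfl⟩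
          | succ n ih => exact ⟨hfD _ ih.1, fun v => (ih.2 (f v)).trans rfl⟩
        have hall : ∀ n, seq n ≠ 0 := by
          intro n
          induction n with
          | zero => exact hθ0
          | succ n ih =>
            intro hsucc
            refine ih ?_
            have hmem : seq n ∈ D1 := ⟨(hseq n).1, hsucc⟩
            rwa [h, AddSubgroup.mem_bot] at hmem
        refine hall (k * K) (AddMonoidHom.ext fun v => ?_)
        rw [(hseq _).2, hnil, map_zero, AddMonoidHom.zero_apply]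
      · ext v
        have := DFunLike.congr_fun hθ.2 (ρ τ v)
        simp only [AddMonoidHom.comp_apply, AddMonoidHom.zero_apply] at this ⊢
        rwa [← hcomm]
    intro θ hθ v
    have h1 : θ ∈ D1 := by rw [hD1]; exact hθ
    have h2 := DFunLike.congr_fun h1.2 v
    simp only [f, AddMonoidHom.comp_apply, AddMonoidHom.sub_apply, AddMonoidHom.add_apply,
      AddMonoidHom.smul_apply, AddMonoidHom.id_apply, map_sub, map_add, map_nsmul,
      AddMonoidHom.zero_apply, nsmul_eq_mul, Nat.cast_add, Nat.cast_one, sub_eq_zero] at h2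
    exact h2
  -- all elements satisfy `(g - 1) (g - ω g) = 0`
  have hquad : ∀ g, ∀ θ ∈ D, ∀ v : S,
      θ (ρ g v) + omega η g * θ (ρ g⁻¹ v) = (1 + omega η g) * θ v := by
    intro g θ hθ v
    obtain ⟨F₁, i₁, h₁⟩ := E.exists_tr_level K
    obtain ⟨F₂, i₂, h₂⟩ := exists_cyc_level η 1
    haveI := IntermediateField.finiteDimensional_sup F₁ F₂
    obtain ⟨l, hl, hbad, B, hB, σ, hσ, b, hb⟩ :=
      frobeniusPowDensity (F₁ ⊔ F₂) ({η} ∪ p.primeFactors) g
    simp only [Finset.mem_union, Finset.mem_singleton, not_or] at hbad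
    let i : GoodPrime p :=
      ⟨⟨l, hl⟩, fun h => hbad.2 (Nat.mem_primeFactors.mpr ⟨hl, h, NeZero.ne p⟩)⟩
    have hrec := hfrob i hbad.1 B hB σ hσ θ hθ
    have hinv : ∀ w, ρ σ⁻¹ (ρ σ w) = w ∧ ρ σ (ρ σ⁻¹ w) = w := fun w =>
      ⟨by rw [← hρ, inv_mul_cancel, hρ1], by rw [← hρ, mul_inv_cancel, hρ1]⟩
    have key : ∀ n : ℕ, θ (ρ (σ ^ n) v) + (l : ZMod (η ^ 1)) ^ n * θ (ρ (σ⁻¹ ^ n) v) =
        (1 + (l : ZMod (η ^ 1)) ^ n) * θ v := by
      intro n
      induction n using Nat.twoStepInduction with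
      | zero => simp [hρ1, two_mul, add_mul]
      | one =>
        have := hrec v
        simpa using this
      | more n h1 h2 =>
        have e1 := hrec (ρ (σ ^ (n + 1)) v)
        have e2 := hrec (ρ (σ⁻¹ ^ (n + 1)) v)
        rw [pow_succ' σ n, hρ σ, (hinv _).1] at e1
        rw [pow_succ' σ⁻¹ n, hρ σ⁻¹, (hinv _).2] at e2
        change θ _ + (l : ZMod (η ^ 1)) * _ = (1 + (l : ZMod (η ^ 1))) * _ at e1 e2
        rw [pow_succ' σ (n + 1), pow_succ' σ n, pow_succ' σ⁻¹ (n + 1), pow_succ' σ⁻¹ n, hρ σ, hρ σ,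
          hρ σ⁻¹, hρ σ⁻¹]
        rw [pow_succ' σ n, pow_succ' σ⁻¹ n, hρ σ, hρ σ⁻¹] at h2
        linear_combination e1 + (l : ZMod (η ^ 1)) ^ (n + 1) * e2 +
          (1 + (l : ZMod (η ^ 1))) * h2 - (l : ZMod (η ^ 1)) * h1
    have hω : omega η g = (l : ZMod (η ^ 1)) ^ b := by
      have hd : ∀ x ∈ F₂, ((σ ^ b)⁻¹ * g) x = x := fun x hx => by
        rw [AlgEquiv.mul_apply, ← hb x ((le_sup_right : F₂ ≤ F₁ ⊔ F₂) hx), AlgEquiv.aut_inv,
          AlgEquiv.symm_apply_apply]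
      obtain ⟨a, ha⟩ := h₂ _ hd
      have h1 : omega η ((σ ^ b)⁻¹ * g) = 1 := by
        rw [omega, eq_add_of_sub_eq ha, map_add, map_one, map_mul, map_pow, map_natCast,
          ← Nat.cast_pow, ZMod.natCast_self, zero_mul, zero_add]
      have h2 := omega_mul (η := η) (σ ^ b) ((σ ^ b)⁻¹ * g)
      rw [mul_inv_cancel_left, h1, mul_one] at h2
      rw [h2, omega, map_pow, Units.val_pow_eq_pow_val, map_pow,
        cyc_frobenius η hl hbad.1 hB hσ, map_natCast]
    have htr : ∀ h : GQ, θ (ρ h v) + omega η h * θ (ρ h⁻¹ v) =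
        θ (ρ h v + (cyc η h).val • ρ h⁻¹ v) := fun h => by
      rw [map_add, map_smul_addHom]
      rfl
    have heq : (ρ g v + (cyc η g).val • ρ g⁻¹ v : S) =
        ρ (σ ^ b) v + (cyc η (σ ^ b)).val • ρ (σ ^ b)⁻¹ v := by
      refine Subtype.ext ?_
      obtain ⟨x, hx⟩ := Submodule.Quotient.mk_surjective _ (v : E.Red K)
      obtain ⟨w, hw⟩ := h₁ g (σ ^ b)
        (fun y hy => (hb y ((le_sup_left : F₁ ≤ F₁ ⊔ F₂) hy)).symm) x
      show E.galK K g v + _ • E.galK K g⁻¹ v = E.galK K (σ ^ b) v + _ • E.galK K (σ ^ b)⁻¹ v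
      rw [← hx, galK_mk, galK_mk, galK_mk, galK_mk, ← Submodule.Quotient.mk_smul,
        ← Submodule.Quotient.mk_smul, ← Submodule.Quotient.mk_add, ← Submodule.Quotient.mk_add,
        Submodule.Quotient.eq]
      exact mem_pm.2 ⟨w, by rw [← hw, tr_apply, tr_apply]⟩
    rw [htr, heq, ← htr, hω, ← key b]
    congr 2
    · rw [omega, map_pow, Units.val_pow_eq_pow_val, map_pow, cyc_frobenius η hl hbad.1 hB hσ,
        map_natCast]
    · rw [inv_pow]
  -- the kernel of `ω` acts trivially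
  have hfix : ∀ g, omega η g = 1 → ∀ θ ∈ D, θ.comp (ρ g) = θ := by
    have hkill : ∀ ψ : S →+ ZMod (η ^ 1), (η ^ 1) • ψ = 0 := fun ψ => by
      ext v
      rw [AddMonoidHom.smul_apply, AddMonoidHom.zero_apply, nsmul_eq_mul, ZMod.natCast_self,
        zero_mul]
    let N : Subgroup GQ :=
      { carrier := {g | omega η g = 1}
        one_mem' := omega_one
        mul_mem' := fun {a b} ha hb => by
          simp only [Set.mem_setOf_eq] at ha hb ⊢
          rw [omega_mul, ha, hb, mul_one]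
        inv_mem' := fun {a} ha => by
          simp only [Set.mem_setOf_eq] at ha ⊢
          simpa [ha] using omega_inv (η := η) a }
    let act : N →* Equiv.Perm D :=
      { toFun := fun h =>
          { toFun := fun θ => ⟨(θ : S →+ ZMod (η ^ 1)).comp (ρ (h : GQ)⁻¹), hDst _ _ θ.2⟩
            invFun := fun θ => ⟨(θ : S →+ ZMod (η ^ 1)).comp (ρ (h : GQ)), hDst _ _ θ.2⟩
            left_inv := fun θ => Subtype.ext (AddMonoidHom.ext fun v => by
              show (θ : S →+ ZMod (η ^ 1)) (ρ (h : GQ)⁻¹ (ρ (h : GQ) v)) = _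
              rw [← hρ, inv_mul_cancel, hρ1])
            right_inv := fun θ => Subtype.ext (AddMonoidHom.ext fun v => by
              show (θ : S →+ ZMod (η ^ 1)) (ρ (h : GQ) (ρ (h : GQ)⁻¹ v)) = _
              rw [← hρ, mul_inv_cancel, hρ1]) }
        map_one' := Equiv.ext fun θ => Subtype.ext (AddMonoidHom.ext fun v => by
          show (θ : S →+ ZMod (η ^ 1)) (ρ ((1 : N) : GQ)⁻¹ v) = _
          rw [OneMemClass.coe_one, inv_one, hρ1]; rfl)
        map_mul' := fun a b => Equiv.ext fun θ => Subtype.ext (AddMonoidHom.ext fun v => by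
          show (θ : S →+ ZMod (η ^ 1)) (ρ ((a * b : N) : GQ)⁻¹ v) = (θ : S →+ ZMod (η ^ 1)) (ρ (b : GQ)⁻¹ (ρ (a : GQ)⁻¹ v))
          rw [← hρ, Subgroup.coe_mul, mul_inv_rev]) }
    have hstep : ∀ (h : N) (θ : D) (n : ℕ),
        (((act h ^ n) θ : D) : S →+ ZMod (η ^ 1)) = (θ : S →+ ZMod (η ^ 1)) + n • (((act h θ : D) : S →+ ZMod (η ^ 1)) - θ) := by
      intro h θ n
      induction n with
      | zero => simp
      | succ n ih =>
        ext v
        rw [pow_succ' (act h) n, Equiv.Perm.mul_apply]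
        show (((act h ^ n) θ : D) : S →+ ZMod (η ^ 1)) (ρ (h : GQ)⁻¹ v) = _
        rw [ih]
        have hq := hquad (h : GQ)⁻¹ θ θ.2 (ρ (h : GQ)⁻¹ v)
        rw [show omega η (h : GQ)⁻¹ = 1 from (N.inv_mem h.2 : _), inv_inv, one_mul, ← hρ,
          ← hρ, mul_inv_cancel, hρ1] at hq
        simp only [AddMonoidHom.add_apply, AddMonoidHom.smul_apply, AddMonoidHom.sub_apply,
          nsmul_eq_mul, Nat.cast_succ]
        show (θ : S →+ ZMod (η ^ 1)) (ρ (h : GQ)⁻¹ v) + (n : ZMod (η ^ 1)) *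
          ((θ : S →+ ZMod (η ^ 1)) (ρ (h : GQ)⁻¹ (ρ (h : GQ)⁻¹ v)) - (θ : S →+ ZMod (η ^ 1)) (ρ (h : GQ)⁻¹ v)) =
          (θ : S →+ ZMod (η ^ 1)) v + ((n : ZMod (η ^ 1)) + 1) *
            ((θ : S →+ ZMod (η ^ 1)) (ρ (h : GQ)⁻¹ v) - (θ : S →+ ZMod (η ^ 1)) v)
        rw [← hρ]
        linear_combination (n : ZMod (η ^ 1)) * hq
    have hP : IsPGroup η act.range := by
      rintro ⟨_, h, rfl⟩
      refine ⟨1, Subtype.ext (Equiv.ext fun θ => Subtype.ext ?_)⟩
      show (((act h ^ (η ^ 1)) θ : D) : S →+ ZMod (η ^ 1)) = (θ : S →+ ZMod (η ^ 1))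
      rw [hstep, hkill, add_zero]
    haveI : Finite D := inferInstance
    obtain ⟨θ₁, hθ₁D, hθ₁0⟩ := AddSubgroup.bot_or_exists_ne_zero D |>.resolve_left hD0
    have hdvd : η ∣ Nat.card D := by
      have h1 : addOrderOf (⟨θ₁, hθ₁D⟩ : D) = η :=
        addOrderOf_eq_prime (Subtype.ext (by simpa using hkill θ₁))
          (fun h => hθ₁0 (congrArg Subtype.val h))
      exact (dvd_of_eq h1.symm).trans (addOrderOf_dvd_natCard _)
    have h0fix : (0 : D) ∈ MulAction.fixedPoints act.range D := by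
      rintro ⟨_, h, rfl⟩
      exact Subtype.ext (AddMonoidHom.zero_comp _)
    obtain ⟨θ₂, hθ₂, hθ₂0⟩ :=
      hP.exists_fixed_point_of_prime_dvd_card_of_fixed_point D hdvd h0fix
    let D2 : AddSubgroup (S →+ ZMod (η ^ 1)) :=
      { carrier := {θ | θ ∈ D ∧ ∀ g, omega η g = 1 → θ.comp (ρ g) = θ}
        add_mem' := fun ha hb => ⟨add_mem ha.1 hb.1, fun g hg => by
          rw [AddMonoidHom.add_comp, ha.2 g hg, hb.2 g hg]⟩
        zero_mem' := ⟨zero_mem D, fun g _ => AddMonoidHom.zero_comp _⟩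
        neg_mem' := fun {a} ha => ⟨neg_mem ha.1, fun g hg => by
          ext v
          have := DFunLike.congr_fun (ha.2 g hg) v
          simp only [AddMonoidHom.comp_apply] at this
          simp [this]⟩ }
    have hD2 : D2 = D := by
      refine hmin D2 ⟨fun h => ?_, fun τ θ hθ => ⟨hDst τ θ hθ.1, fun g hg => ?_⟩⟩ fun θ hθ => hθ.1
      · have hmem : (θ₂ : S →+ ZMod (η ^ 1)) ∈ D2 := ⟨θ₂.2, fun g hg => by
          have := congrArg Subtype.val (hθ₂ ⟨act (⟨g, hg⟩ : N)⁻¹, _, rfl⟩)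
          change (θ₂ : S →+ ZMod (η ^ 1)).comp (ρ ((⟨g, hg⟩ : N)⁻¹ : N).1⁻¹) = _ at this
          simpa using this⟩
        rw [h, AddSubgroup.mem_bot] at hmem
        exact hθ₂0 (Subtype.ext hmem.symm)
      · have hconj : omega η (τ * g * τ⁻¹) = 1 := by
          rw [omega_mul, omega_mul, hg, mul_one, omega_inv]
        ext v
        have := DFunLike.congr_fun (hθ.2 _ hconj) (ρ τ v)
        simp only [AddMonoidHom.comp_apply] at this ⊢
        rwa [← hρ, inv_mul_cancel_right, hρ] at this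
    intro g hg θ hθ
    have h1 : θ ∈ D2 := by rw [hD2]; exact hθ
    exact h1.2 g hg
  -- the image is abelian
  have hab : ∀ g h, ∀ θ ∈ D, ∀ v, θ (ρ g (ρ h v)) = θ (ρ h (ρ g v)) := by
    intro g h θ hθ v
    have hc : omega η (g * h * g⁻¹ * h⁻¹) = 1 := by
      rw [omega_mul, omega_mul, omega_mul, mul_right_comm (omega η g), omega_inv, one_mul,
        omega_inv]
    have := DFunLike.congr_fun (hfix _ hc θ hθ) (ρ h (ρ g v))
    simp only [AddMonoidHom.comp_apply] at this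
    rw [← hρ, ← hρ, show g * h * g⁻¹ * h⁻¹ * h * g = g * h by group] at this
    rw [← hρ g h, ← hρ h g]
    rw [← hρ h g] at this
    exact this
  have hdich : ∀ g, (∀ θ ∈ D, ∀ v, θ (ρ g v) = θ v) ∨ ∀ θ ∈ D, ∀ v, θ (ρ g v) = omega η g * θ v := by
    intro g
    refine or_iff_not_imp_left.2 fun hne => ?_
    push Not at hne
    obtain ⟨θ₁, hθ₁, v₁, hv₁⟩ := hne
    let D3 : AddSubgroup (S →+ ZMod (η ^ 1)) :=
      { carrier := {θ | θ ∈ D ∧ ∀ v, θ (ρ g v) = omega η g * θ v}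
        add_mem' := fun {a b} ha hb => ⟨add_mem ha.1 hb.1, fun v => by
          rw [AddMonoidHom.add_apply, AddMonoidHom.add_apply, ha.2, hb.2, mul_add]⟩
        zero_mem' := ⟨zero_mem D, fun v => by simp⟩
        neg_mem' := fun {a} ha => ⟨neg_mem ha.1, fun v => by simp [ha.2]⟩ }
    have hD3 : D3 = D := by
      refine hmin D3 ⟨fun h => ?_, fun τ θ hθ => ⟨hDst τ θ hθ.1, fun v => ?_⟩⟩ fun θ hθ => hθ.1
      · have hmem : θ₁.comp (ρ g) - θ₁ ∈ D3 := ⟨sub_mem (hDst g θ₁ hθ₁) hθ₁, fun v => by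
          have hq := hquad g θ₁ hθ₁ (ρ g v)
          rw [← hρ g⁻¹ g v, inv_mul_cancel, hρ1] at hq
          simp only [AddMonoidHom.sub_apply, AddMonoidHom.comp_apply]
          linear_combination hq⟩
        rw [h, AddSubgroup.mem_bot, sub_eq_zero] at hmem
        exact hv₁ (DFunLike.congr_fun hmem v₁)
      · simp only [AddMonoidHom.comp_apply]
        rw [hab τ g θ hθ.1, hθ.2]
    intro θ hθ v
    have h1 : θ ∈ D3 := by rw [hD3]; exact hθ
    exact h1.2 v
  obtain ⟨θ, hθ, hθ0⟩ := AddSubgroup.bot_or_exists_ne_zero D |>.resolve_left hD0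
  refine ⟨θ, hθ0, ?_⟩
  show (∀ σ, ∀ v : S, θ (ρ σ v) = θ v) ∨ ∀ σ, ∀ v : S, θ (ρ σ v) = omega η σ * θ v
  by_contra hcon
  push Not at hcon
  obtain ⟨⟨g, v, hgv⟩, h, w, hhw⟩ := hcon
  have hg' := (hdich g).resolve_left fun h' => hgv (h' θ hθ v)
  have hh' := (hdich h).resolve_right fun h' => hhw (h' θ hθ w)
  have hmul : ∀ u, θ (ρ (g * h) u) = omega η g * θ u := fun u => by
    rw [hρ, hg' θ hθ, hh' θ hθ]
  obtain ⟨u, hu⟩ : ∃ u, θ u ≠ 0 := by
    by_contra h0
    push Not at h0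
    exact hθ0 (AddMonoidHom.ext h0)
  rcases hdich (g * h) with h1 | h1
  · have h2 : omega η g = 1 := mul_right_cancel₀ hu (by rw [← hmul, h1 θ hθ, one_mul])
    exact hgv (by rw [hg' θ hθ, h2, one_mul])
  · have h2 : omega η g * omega η h = omega η g * 1 := mul_right_cancel₀ hu (by
      rw [← omega_mul, ← h1 θ hθ, hmul, mul_one])
    exact hhw (by rw [hh' θ hθ, mul_left_cancel₀ (omega_ne_zero g) h2, one_mul])

end EisModule

end Fermat.Agent.Mazur3
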