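import Fermat.Agent.Mazur3.Descent.UnitType
import Fermat.Agent.Mazur3.Descent.Step
import Fermat.Agent.Mazur3.Descent.Kummer
import Fermat.Agent.Mazur3.Descent.Tame

/-!
# Classes of unit type modulo a power of the residual prime, and their filtration
-/

set_option autoImplicit false
set_option linter.style.haveILetI false

noncomputable section

namespace Fermat.Agent.Mazur3

open GalRep Module
open Fermat.Agent.Galois (GQ)

local notation "ℚb" => AlgebraicClosure ℚ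

/-- A group mapped into a small set with small kernel is small. -/
theorem finite_card_le_of_hom {G H : Type*} [AddCommGroup G] [AddCommGroup H] (f : G →+ H)
    {T : Set H} (hT : T.Finite) (hrange : ∀ g, f g ∈ T) [Finite f.ker] :
    Finite G ∧ Nat.card G ≤ Nat.card f.ker * T.ncard := by
  haveI : Finite f.range := Set.Finite.to_subtype (hT.subset (by rintro _ ⟨g, rfl⟩; exact hrange g))
  have hq : Nat.card (G ⧸ f.ker) = Nat.card f.range :=
    Nat.card_congr (QuotientAddGroup.quotientKerEquivRange f).toEquiv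
  have hcard : Nat.card G = Nat.card f.range * Nat.card f.ker := by
    rw [AddSubgroup.card_eq_card_quotient_mul_card_addSubgroup f.ker, hq]
  have hne : Nat.card G ≠ 0 := by
    rw [hcard]
    exact Nat.mul_ne_zero Nat.card_pos.ne' Nat.card_pos.ne'
  refine ⟨Nat.finite_of_card_ne_zero hne, ?_⟩
  rw [hcard, mul_comm]
  refine Nat.mul_le_mul_left _ ?_
  rw [← Nat.card_coe_set_eq]
  exact Nat.card_mono hT (by rintro _ ⟨g, rfl⟩; exact hrange g)

variable {p η : ℕ} [NeZero p] [Fact η.Prime] {E : EisModule p η}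
  {A : ValuationSubring ℚb} {hg : ¬ η ∣ p} {K : ℕ}

/-- A character to `ZMod η` factoring through a finite level and unramified everywhere is
trivial. -/
theorem eq_zero_of_hom_unramified (f : GQ → ZMod (η ^ 1)) (hf : ∀ σ τ, f (σ * τ) = f σ + f τ)
    (hlev : ∃ F : IntermediateField ℚ ℚb, FiniteDimensional ℚ F ∧
      ∀ σ : GQ, (∀ x ∈ F, σ x = x) → f σ = 0)
    (hunr : ∀ q : ℕ, q.Prime → ∃ B : ValuationSubring ℚb, B.LiesOverPrime q ∧
      ∀ σ ∈ B.inertiaSubgroupIn ℚ, f σ = 0) : f = 0 := by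
  have h1 : f 1 = 0 := by
    have := hf 1 1
    rw [mul_one] at this
    exact add_eq_left.1 this.symm
  let ψ : GQ →* Multiplicative (ZMod (η ^ 1)) :=
    { toFun := fun σ => Multiplicative.ofAdd (f σ)
      map_one' := by rw [h1]; rfl
      map_mul' := fun σ τ => by rw [hf]; rfl }
  obtain ⟨F, hF, hF'⟩ := hlev
  have h := EC.eq_one_of_unramified ψ F (fun σ hσ => by
    show Multiplicative.ofAdd (f σ) = 1
    rw [hF' σ hσ]; rfl) fun q hq B hB σ hσ => by
    obtain ⟨B₀, hB₀, hB'⟩ := hunr q hq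
    obtain ⟨γ, rfl⟩ := Galois.exists_smul_eq_of_liesOverPrime hq hB₀ hB
    have h1 : ψ (γ⁻¹ * σ * γ) = 1 := by
      show Multiplicative.ofAdd (f _) = 1
      rw [hB' _ (conj_mem_inertia hσ)]; rfl
    rwa [map_mul, map_mul, map_inv, mul_comm, ← mul_assoc, mul_inv_cancel, one_mul] at h1
  funext σ
  exact Multiplicative.ofAdd.injective (DFunLike.congr_fun h σ)

theorem omega_eq_one_of_unramified (hA : A.LiesOverPrime η)
    (h : ∀ σ ∈ A.inertiaSubgroupIn ℚ, omega η σ = 1) (σ : GQ) : omega η σ = 1 := by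
  let ψ : GQ →* ZMod (η ^ 1) :=
    { toFun := omega η, map_one' := omega_one, map_mul' := omega_mul }
  obtain ⟨F, hF, hF'⟩ := exists_cyc_level η 1
  have hlev : ∀ τ : GQ, (∀ x ∈ F, τ x = x) → ψ τ = 1 := fun τ hτ => by
    obtain ⟨a, ha⟩ := hF' τ hτ
    show omega η τ = 1
    rw [omega, eq_add_of_sub_eq ha, map_add, map_one, map_mul, map_pow, map_natCast,
      ← Nat.cast_pow, ZMod.natCast_self, zero_mul, zero_add]
  have hψ : ψ.toHomUnits = 1 := EC.eq_one_of_unramified ψ.toHomUnits F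
    (fun τ hτ => Units.ext (hlev τ hτ)) fun q hq B hB τ hτ => by
      refine Units.ext ?_
      show omega η τ = 1
      by_cases hqη : q = η
      · subst hqη
        obtain ⟨γ, rfl⟩ := Galois.exists_smul_eq_of_liesOverPrime hq hA hB
        have h1 := h _ (conj_mem_inertia hτ)
        rwa [omega_mul, omega_mul, mul_comm, ← mul_assoc, omega_inv, one_mul] at h1
      · rw [omega, cyc_inertia η hq hqη hB hτ, Units.val_one, map_one]
  exact congrArg Units.val (DFunLike.congr_fun hψ σ)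

namespace EisModule

variable (O : E.OrdLine A hg)

/-- Cocycles on the line of unit type. -/
def OrdLine.classes : AddSubgroup (GQ → E.M) where
  carrier := {c | O.Adm c ∧ O.UnitType c}
  add_mem' := by
    rintro c c' ⟨hc, hu⟩ ⟨hc', hu'⟩
    refine ⟨⟨⟨fun σ τ => ?_, fun k => ?_⟩, fun σ hσ => O.line.add_mem (hc.2 σ hσ) (hc'.2 σ hσ)⟩,
      fun K g ζ hζ => ?_⟩
    · simp only [Pi.add_apply, hc.1.cocycle, hc'.1.cocycle, map_add]
      abel
    · obtain ⟨F, hF, h⟩ := hc.1.continuous k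
      obtain ⟨F', hF', h'⟩ := hc'.1.continuous k
      refine ⟨F ⊔ F', IntermediateField.finiteDimensional_sup F F', fun σ hσ => ?_⟩
      obtain ⟨w, hw⟩ := h σ fun x hx => hσ x ((le_sup_left : F ≤ _) hx)
      obtain ⟨w', hw'⟩ := h' σ fun x hx => hσ x ((le_sup_right : F' ≤ _) hx)
      exact ⟨w + w', by rw [Pi.add_apply, hw, hw', smul_add]⟩
    · haveI : NeZero (η ^ K) := ⟨pow_ne_zero _ (Fact.out : η.Prime).ne_zero⟩
      obtain ⟨u, hu1, hu2⟩ := hu K g ζ hζ
      obtain ⟨u', hu1', hu2'⟩ := hu' K g ζ hζ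
      refine ⟨u * u', by rw [map_mul, hu1, hu1', one_mul], fun σ hσ h => ?_⟩
      rw [map_mul, hu2 σ hσ (hc.2 σ hσ), hu2' σ hσ (hc'.2 σ hσ),
        show (⟨(c + c') σ, h⟩ : O.line) = ⟨c σ, hc.2 σ hσ⟩ + ⟨c' σ, hc'.2 σ hσ⟩ from rfl, map_add,
        map_add, zexp_add hζ.pow_eq_one, mul_mul_mul_comm]
  zero_mem' := by
    refine ⟨⟨⟨fun σ τ => by simp, fun k => ⟨⊥, inferInstance, fun σ _ => ⟨0, by simp⟩⟩⟩,
      fun σ _ => O.line.zero_mem⟩, fun K g ζ _ => ⟨1, map_one _, fun σ _ h => ?_⟩⟩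
    rw [show (⟨(0 : GQ → E.M) σ, h⟩ : O.line) = 0 from rfl, map_zero, map_zero, zexp_zero,
      map_one, mul_one]
  neg_mem' := by
    rintro c ⟨hc, hu⟩
    refine ⟨⟨⟨fun σ τ => ?_, fun k => ?_⟩, fun σ hσ => O.line.neg_mem (hc.2 σ hσ)⟩,
      fun K g ζ hζ => ?_⟩
    · simp only [Pi.neg_apply, hc.1.cocycle, map_neg]
      abel
    · obtain ⟨F, hF, h⟩ := hc.1.continuous k
      refine ⟨F, hF, fun σ hσ => ?_⟩
      obtain ⟨w, hw⟩ := h σ hσ
      exact ⟨-w, by rw [Pi.neg_apply, hw, smul_neg]⟩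
    · haveI : NeZero (η ^ K) := ⟨pow_ne_zero _ (Fact.out : η.Prime).ne_zero⟩
      obtain ⟨u, hu1, hu2⟩ := hu K g ζ hζ
      refine ⟨u⁻¹, by rw [map_inv₀, hu1, inv_one], fun σ hσ h => ?_⟩
      rw [map_inv₀, hu2 σ hσ (hc.2 σ hσ), mul_inv,
        show (⟨(-c) σ, h⟩ : O.line) = -⟨c σ, hc.2 σ hσ⟩ from rfl, map_neg, map_neg]
      congr 1
      refine inv_eq_of_mul_eq_one_left ?_
      rw [← zexp_add hζ.pow_eq_one, neg_add_cancel, zexp_zero]

/-- Reduction of functions. -/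
def redFun (E : EisModule p η) (K : ℕ) : (GQ → E.M) →+ (GQ → E.Red K) where
  toFun c σ := Submodule.Quotient.mk (c σ)
  map_zero' := rfl
  map_add' _ _ := rfl

/-- Classes of unit type modulo `η ^ K`. -/
def OrdLine.redClasses (K : ℕ) : AddSubgroup (GQ → E.Red K) := O.classes.map (E.redFun K)

/-- The line modulo `η ^ K`. -/
def OrdLine.lineK (K : ℕ) : Submodule ℤ_[η] (E.Red K) := O.line.map (E.pm K).mkQ

/-- Classes trivial on inertia at `B` with values in `S`. -/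
def OrdLine.subClasses (B : ValuationSubring ℚb) (S : Submodule ℤ_[η] (E.Red K)) :
    AddSubgroup (GQ → E.Red K) where
  carrier := {f | f ∈ O.redClasses K ∧ (∀ τ ∈ B.inertiaSubgroupIn ℚ, f τ = 0) ∧ ∀ σ, f σ ∈ S}
  add_mem' := fun {a b} ha hb => ⟨add_mem ha.1 hb.1, fun τ hτ => by
    rw [Pi.add_apply, ha.2.1 τ hτ, hb.2.1 τ hτ, add_zero], fun σ => S.add_mem (ha.2.2 σ) (hb.2.2 σ)⟩
  zero_mem' := ⟨zero_mem _, fun _ _ => rfl, fun _ => S.zero_mem⟩
  neg_mem' := fun {a} ha => ⟨neg_mem ha.1, fun τ hτ => by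
    rw [Pi.neg_apply, ha.2.1 τ hτ, neg_zero], fun σ => S.neg_mem (ha.2.2 σ)⟩

/-- Reductions are killed by `η ^ K`. -/
theorem smul_red_eq_zero (y : E.Red K) : (η ^ K : ℤ_[η]) • y = 0 := by
  obtain ⟨x, rfl⟩ := Submodule.Quotient.mk_surjective _ y
  rw [← Submodule.Quotient.mk_smul, Submodule.Quotient.mk_eq_zero]
  exact mem_pm.2 ⟨x, rfl⟩

theorem smul_red_eq_nsmul [NeZero (η ^ K)] (r : ℤ_[η]) (y : E.Red K) :
    r • y = (r.toZModPow K).val • y := by
  have h : (r - ((r.toZModPow K).val : ℤ_[η])).toZModPow K = 0 := by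
    rw [map_sub, map_natCast, ZMod.natCast_zmod_val, sub_self]
  rw [← RingHom.mem_ker, PadicInt.ker_toZModPow, Ideal.mem_span_singleton] at h
  obtain ⟨r', hr⟩ := h
  conv_lhs => rw [eq_add_of_sub_eq hr, add_smul, mul_smul, smul_red_eq_zero, zero_add,
    Nat.cast_smul_eq_nsmul]

/-- A residual functional on the line extends to a functional of the line, through characters. -/
theorem OrdLine.exists_functional (hK : 0 < K) {ζ : ℚb} (hζ : IsPrimitiveRoot ζ (η ^ K))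
    (S : Submodule ℤ_[η] (E.Red K)) [Finite (E.Red K)] (θ : S →+ ZMod (η ^ 1)) :
    ∃ g : O.line →ₗ[ℤ_[η]] ℤ_[η], ∀ (v : O.line) (h : Submodule.Quotient.mk (v : E.M) ∈ S),
      zexp ζ ((g v).toZModPow K) = zexp (ζ ^ η ^ (K - 1)) (θ ⟨_, h⟩) := by
  classical
  have hη : η.Prime := Fact.out
  haveI : NeZero (η ^ K) := ⟨pow_ne_zero _ hη.ne_zero⟩
  haveI : NeZero (η ^ 1) := ⟨pow_ne_zero _ hη.ne_zero⟩
  have hζ1 : IsPrimitiveRoot (ζ ^ η ^ (K - 1)) (η ^ 1) :=
    hζ.pow (NeZero.pos _) (by rw [← pow_add, Nat.sub_add_cancel hK])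
  set L := O.lineK K
  let SL : Subgroup (Multiplicative L) :=
    (S.comap L.subtype).toAddSubgroup.toSubgroup
  let θ' : SL →* ℚbˣ :=
    { toFun := fun v => Units.mk0 (zexp (ζ ^ η ^ (K - 1)) (θ ⟨((Multiplicative.toAdd v.1 : L) :
          E.Red K), v.2⟩)) (zexp_ne_zero hζ1.pow_eq_one _)
      map_one' := Units.ext (by
        show zexp _ (θ 0) = 1
        rw [map_zero, zexp_zero])
      map_mul' := fun v w => Units.ext (by
        rw [Units.val_mul, Units.val_mk0, Units.val_mk0, Units.val_mk0,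
          ← zexp_add hζ1.pow_eq_one, ← map_add]
        rfl) }
  haveI : NeZero (Monoid.exponent (Multiplicative L) : ℚb) :=
    ⟨Nat.cast_ne_zero.2 (Monoid.exponent_ne_zero_of_finite)⟩
  obtain ⟨χ, hχ⟩ := MonoidHom.domRestrict_surjective ℚb SL θ'
  have hpow : ∀ v : L, ((χ (Multiplicative.ofAdd v) : ℚbˣ) : ℚb) ^ (η ^ K) = 1 := fun v => by
    rw [← Units.val_pow_eq_pow_val, ← map_pow, ← ofAdd_nsmul,
      show (η ^ K) • v = 0 from Subtype.ext (by
        rw [AddSubmonoidClass.coe_nsmul, ← Nat.cast_smul_eq_nsmul ℤ_[η], Nat.cast_pow,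
          smul_red_eq_zero, ZeroMemClass.coe_zero]), ofAdd_zero, map_one, Units.val_one]
  let b := Module.Free.chooseBasis ℤ_[η] O.line
  let πL : O.line →ₗ[ℤ_[η]] L := ((E.pm K).mkQ.domRestrict O.line).codRestrict L
    fun v => ⟨v, v.2, rfl⟩
  choose e he using fun i => exists_zexp_of_pow_eq_one hζ (hpow (πL (b i)))
  refine ⟨b.constr ℕ fun i => ((e i).val : ℤ_[η]), fun v hv => ?_⟩
  set g := b.constr ℕ fun i => ((e i).val : ℤ_[η])
  have key : ∀ w : O.line,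
      zexp ζ ((g w).toZModPow K) = ((χ (Multiplicative.ofAdd (πL w)) : ℚbˣ) : ℚb) := by
    intro w
    have hw : w ∈ Submodule.span ℤ_[η] (Set.range b) := by rw [b.span_eq]; trivial
    induction hw using Submodule.span_induction with
    | mem x hx =>
      obtain ⟨i, rfl⟩ := hx
      rw [Module.Basis.constr_basis, map_natCast, ZMod.natCast_zmod_val, he i]
    | zero => simp [zexp_zero]
    | add x y _ _ hx hy =>
      rw [map_add, map_add, zexp_add hζ.pow_eq_one, hx, hy, map_add, ofAdd_add, map_mul,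
        Units.val_mul]
    | smul r x _ hx =>
      rw [map_smul g, map_smul πL, show r • πL x = (r.toZModPow K).val • πL x from Subtype.ext (by
          rw [Submodule.coe_smul, AddSubmonoidClass.coe_nsmul, smul_red_eq_nsmul]),
        ofAdd_nsmul, map_pow, Units.val_pow_eq_pow_val, ← hx, zexp_pow hζ.pow_eq_one,
        smul_eq_mul, map_mul, nsmul_eq_mul, ZMod.natCast_zmod_val]
  rw [key]
  have h := congrArg Units.val (DFunLike.congr_fun hχ ⟨Multiplicative.ofAdd (πL v), hv⟩)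
  exact h

theorem isStable_ker {S : Submodule ℤ_[η] (E.Red K)} (hS : IsStable S) (θ : S →+ ZMod (η ^ 1))
    (hθ : ∃ χ : GQ → ZMod (η ^ 1), ∀ σ, ∀ v : S, θ ⟨E.galK K σ v, hS σ v v.2⟩ = χ σ * θ v) :
    ∃ S' : Submodule ℤ_[η] (E.Red K), IsStable S' ∧
      ∀ v, v ∈ S' ↔ ∃ h : v ∈ S, θ ⟨v, h⟩ = 0 := by
  refine ⟨{ carrier := {v | ∃ h : v ∈ S, θ ⟨v, h⟩ = 0}
            add_mem' := fun {a b} ⟨ha, ha'⟩ ⟨hb, hb'⟩ => ⟨S.add_mem ha hb, by
              rw [show (⟨a + b, _⟩ : S) = ⟨a, ha⟩ + ⟨b, hb⟩ from rfl, map_add, ha', hb', add_zero]⟩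
            zero_mem' := ⟨S.zero_mem, map_zero θ⟩
            smul_mem' := fun r v ⟨hv, hv'⟩ => ⟨S.smul_mem r hv, by
              rw [show (⟨r • v, _⟩ : S) = r • ⟨v, hv⟩ from rfl, map_smul_addHom, hv', mul_zero]⟩ },
    ?_, fun v => Iff.rfl⟩
  rintro σ v ⟨hv, hv'⟩
  obtain ⟨χ, hχ⟩ := hθ
  exact ⟨hS σ v hv, by rw [hχ σ ⟨v, hv⟩, hv', mul_zero]⟩

theorem card_le_mul_of_le {S' S : Submodule ℤ_[η] (E.Red K)} [Finite (E.Red K)]
    (T : Submodule ℤ_[η] (E.Red K)) (h : S' ≤ S) :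
    Nat.card (S' ⊓ T : Submodule ℤ_[η] (E.Red K)) ≤
      Nat.card (S ⊓ T : Submodule ℤ_[η] (E.Red K)) :=
  Nat.card_mono (Set.toFinite _) (inf_le_inf_right T h : S' ⊓ T ≤ S ⊓ T)

/-- **The count along the filtration.** -/
theorem OrdLine.card_subClasses_le (hp : p.Prime) (hA : A.LiesOverPrime η)
    {B : ValuationSubring ℚb} (hB : B.LiesOverPrime p) [Finite (E.Red K)]
    (S : Submodule ℤ_[η] (E.Red K)) (hS : IsStable S) :
    Finite (O.subClasses B S) ∧ Nat.card (O.subClasses B S) ≤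
      Nat.card (S ⊓ O.lineK K : Submodule ℤ_[η] (E.Red K)) := by
  induction hn : Nat.card S using Nat.strong_induction_on generalizing S with
  | _ n ih =>
  classical
  have hη : η.Prime := Fact.out
  haveI : NeZero (η ^ 1) := ⟨pow_ne_zero _ hη.ne_zero⟩
  by_cases h0 : S = ⊥
  · subst h0
    haveI : Subsingleton (O.subClasses B (⊥ : Submodule ℤ_[η] (E.Red K))) := ⟨fun a b =>
      Subtype.ext (funext fun σ => ((Submodule.mem_bot _).1 (a.2.2.2 σ)).trans
        ((Submodule.mem_bot _).1 (b.2.2.2 σ)).symm)⟩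
    exact ⟨inferInstance, (Nat.card_of_subsingleton
      (0 : O.subClasses B (⊥ : Submodule ℤ_[η] (E.Red K)))).le.trans Nat.card_pos⟩
  have hK : 0 < K := Nat.pos_of_ne_zero fun hK0 => h0 <| eq_bot_iff.2 fun v _ => by
    subst hK0
    rw [Submodule.mem_bot, ← one_smul ℤ_[η] v, ← pow_zero (η : ℤ_[η]), smul_red_eq_zero]
  obtain ⟨θ, hθ0, hθ⟩ := exists_eigen_functional S hS h0
  obtain ⟨S', hS'st, hS'⟩ := isStable_ker hS θ (hθ.elim
    (fun h => ⟨fun _ => 1, fun σ v => by rw [h σ v, one_mul]⟩) (fun h => ⟨omega η, h⟩))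
  have hS'le : S' ≤ S := fun v hv => ((hS' v).1 hv).1
  have hlt : Nat.card S' < n := by
    rw [← hn]
    refine Set.ncard_lt_ncard (t := (S : Set (E.Red K))) ⟨hS'le, fun h => hθ0 ?_⟩ (Set.toFinite _)
    refine AddMonoidHom.ext fun v => ?_
    obtain ⟨_, hv⟩ := (hS' v).1 (h v.2)
    exact hv
  obtain ⟨hfin', hcard'⟩ := ih _ hlt S' hS'st rfl
  -- the projection
  let Φ : O.subClasses B S →+ (GQ → ZMod (η ^ 1)) :=
    { toFun := fun f σ => θ ⟨f.1 σ, f.2.2.2 σ⟩
      map_zero' := funext fun σ => map_zero θ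
      map_add' := fun f f' => funext fun σ => by
        show θ _ = θ _ + θ _
        rw [← map_add]
        rfl }
  let ι : Φ.ker → O.subClasses B S' := fun f => ⟨f.1.1, f.1.2.1, f.1.2.2.1, fun σ =>
    (hS' _).2 ⟨f.1.2.2.2 σ, congrFun (f.2 : Φ f.1 = 0) σ⟩⟩
  have hι : Function.Injective ι := fun a b h =>
    Subtype.ext (Subtype.ext (congrArg (fun z : O.subClasses B S' => z.1) h :))
  haveI := hfin'
  haveI : Finite Φ.ker := Finite.of_injective ι hι
  have hker : Nat.card Φ.ker ≤ Nat.card (S' ⊓ O.lineK K : Submodule ℤ_[η] (E.Red K)) :=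
    (Nat.card_le_card_of_injective ι hι).trans hcard'
  -- the properties of an image
  have hlev : ∀ f : O.subClasses B S, ∃ F : IntermediateField ℚ ℚb, FiniteDimensional ℚ F ∧
      ∀ σ : GQ, (∀ x ∈ F, σ x = x) → Φ f σ = 0 := by
    intro f
    obtain ⟨c, hc, hcf⟩ := f.2.1
    obtain ⟨F, hF, hF'⟩ := hc.1.1.continuous K
    refine ⟨F, hF, fun σ hσ => ?_⟩
    obtain ⟨w, hw⟩ := hF' σ hσ
    show θ _ = 0
    have : f.1 σ = 0 := by
      rw [← hcf]
      show Submodule.Quotient.mk (c σ) = 0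
      rw [Submodule.Quotient.mk_eq_zero]
      exact mem_pm.2 ⟨w, hw⟩
    rw [show (⟨f.1 σ, f.2.2.2 σ⟩ : S) = 0 from Subtype.ext this, map_zero]
  have hunr : ∀ f : O.subClasses B S, ∀ q : ℕ, q.Prime → q ≠ η →
      ∃ B' : ValuationSubring ℚb, B'.LiesOverPrime q ∧
        ∀ σ ∈ B'.inertiaSubgroupIn ℚ, Φ f σ = 0 := by
    intro f q hq hqη
    suffices h : ∃ B' : ValuationSubring ℚb, B'.LiesOverPrime q ∧
        ∀ σ ∈ B'.inertiaSubgroupIn ℚ, f.1 σ = 0 by
      obtain ⟨B', hB', h'⟩ := h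
      refine ⟨B', hB', fun σ hσ => ?_⟩
      show θ _ = 0
      rw [show (⟨f.1 σ, f.2.2.2 σ⟩ : S) = 0 from Subtype.ext (h' σ hσ), map_zero]
    by_cases hqp : q = p
    · exact ⟨B, hqp ▸ hB, f.2.2.1⟩
    · obtain ⟨B', hB'⟩ := Galois.exists_liesOverPrime hq
      obtain ⟨c, hc, hcf⟩ := f.2.1
      refine ⟨B', hB', fun σ hσ => ?_⟩
      rw [← hcf]
      show Submodule.Quotient.mk (c σ) = 0
      rw [hc.1.1.apply_eq_zero hp hq hqp hqη hB' hσ, Submodule.Quotient.mk_zero]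
  have hIA : ∀ f : O.subClasses B S, ∀ σ ∈ A.inertiaSubgroupIn ℚ, f.1 σ ∈ O.lineK K := by
    intro f σ hσ
    obtain ⟨c, hc, hcf⟩ := f.2.1
    rw [← hcf]
    exact ⟨c σ, hc.1.2 σ hσ, rfl⟩
  have hcoc : ∀ (f : O.subClasses B S) (σ τ : GQ),
      f.1 (σ * τ) = f.1 σ + E.galK K σ (f.1 τ) := by
    intro f σ τ
    obtain ⟨c, hc, hcf⟩ := f.2.1
    rw [← hcf]
    show Submodule.Quotient.mk (c (σ * τ)) = _
    rw [hc.1.1.cocycle, Submodule.Quotient.mk_add]
    rfl
  have hhom : (∀ σ, ∀ v : S, θ ⟨E.galK K σ v, hS σ v v.2⟩ = θ v) →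
      ∀ (f : O.subClasses B S) (σ τ : GQ), Φ f (σ * τ) = Φ f σ + Φ f τ := by
    intro h f σ τ
    show θ _ = θ _ + θ _
    rw [← h σ ⟨f.1 τ, f.2.2.2 τ⟩, ← map_add]
    exact congrArg θ (Subtype.ext (hcoc f σ τ))
  have htw : (∀ σ, ∀ v : S, θ ⟨E.galK K σ v, hS σ v v.2⟩ = omega η σ * θ v) →
      ∀ (f : O.subClasses B S) (σ τ : GQ), Φ f (σ * τ) = Φ f σ + omega η σ * Φ f τ := by
    intro h f σ τ
    show θ _ = θ _ + _ * θ _
    rw [← h σ ⟨f.1 τ, f.2.2.2 τ⟩, ← map_add]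
    exact congrArg θ (Subtype.ext (hcoc f σ τ))
  obtain ⟨ζK, hζK⟩ := (haveI : NeZero (η ^ K) := ⟨pow_ne_zero _ hη.ne_zero⟩
    HasEnoughRootsOfUnity.exists_primitiveRoot ℚb (η ^ K))
  set ζ := ζK ^ η ^ (K - 1)
  have hζ : IsPrimitiveRoot ζ (η ^ 1) :=
    hζK.pow (pow_pos hη.pos _) (by rw [← pow_add, Nat.sub_add_cancel hK])
  by_cases hline : ∀ v, ∀ h : v ∈ S, v ∈ O.lineK K → θ ⟨v, h⟩ = 0
  · -- the line dies in the quotient
    have hzero : ∀ f, Φ f = 0 := by
      intro f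
      have hfA : ∀ σ ∈ A.inertiaSubgroupIn ℚ, Φ f σ = 0 :=
        fun σ hσ => hline _ (f.2.2.2 σ) (hIA f σ hσ)
      have hall : ∀ q : ℕ, q.Prime → ∃ B' : ValuationSubring ℚb, B'.LiesOverPrime q ∧
          ∀ σ ∈ B'.inertiaSubgroupIn ℚ, Φ f σ = 0 := fun q hq =>
        if hqη : q = η then ⟨A, hqη ▸ hA, hfA⟩ else hunr f q hq hqη
      rcases hθ with h | h
      · exact eq_zero_of_hom_unramified _ (hhom h f) (hlev f) hall
      · by_cases hω : ∀ σ ∈ A.inertiaSubgroupIn ℚ, omega η σ = 1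
        · exact eq_zero_of_hom_unramified _ (hhom (fun σ v => by
            rw [h σ v, omega_eq_one_of_unramified hA hω σ, one_mul]) f) (hlev f) hall
        · push Not at hω
          obtain ⟨σ₀, hσ₀, hω₀⟩ := hω
          exact eq_zero_of_unramified hA hζ _ (htw h f) (hlev f) (hunr f) hfA hσ₀ hω₀
    obtain ⟨hfin, hcard⟩ := finite_card_le_of_hom Φ (Set.finite_singleton 0) hzero
    refine ⟨hfin, hcard.trans ?_⟩
    rw [Set.ncard_singleton, mul_one]
    exact hker.trans (card_le_mul_of_le (O.lineK K) hS'le)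
  · -- the line survives
    push Not at hline
    obtain ⟨v₀, hv₀S, hv₀L, hv₀⟩ := hline
    have hω : ∀ σ, ∀ v : S, θ ⟨E.galK K σ v, hS σ v v.2⟩ = omega η σ * θ v := by
      rcases hθ with h | h
      · have hI : ∀ σ ∈ A.inertiaSubgroupIn ℚ, omega η σ = 1 := by
          intro σ hσ
          obtain ⟨y, hy, hyv⟩ := hv₀L
          have e : (⟨E.galK K σ v₀, hS σ v₀ hv₀S⟩ : S) = (cyc η σ).val • ⟨v₀, hv₀S⟩ := by
            refine Subtype.ext ?_
            show E.galK K σ v₀ = (cyc η σ).val • v₀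
            rw [← hyv, Submodule.mkQ_apply, galK_mk, O.inertia_line σ hσ y hy,
              Submodule.Quotient.mk_smul]
          have h1 := h σ ⟨v₀, hv₀S⟩
          rw [e, map_smul_addHom] at h1
          exact mul_right_cancel₀ hv₀ (by rw [one_mul]; exact h1)
        intro σ v
        rw [h σ v, omega_eq_one_of_unramified hA hI σ, one_mul]
      · exact h
    obtain ⟨Ψ, hΨ⟩ := exists_unit_classes hA hζ
    have hrange : ∀ f, Φ f ∈ Set.range Ψ := by
      intro f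
      obtain ⟨g, hg'⟩ := O.exists_functional hK hζK S θ
      obtain ⟨c, hc, hcf⟩ := f.2.1
      obtain ⟨u, hu1, hu2⟩ := hc.2 K g ζK hζK
      obtain ⟨i, hi⟩ := hΨ (Φ f) (htw hω f) (hlev f) (hunr f) ⟨u, hu1, fun σ hσ => by
        have hmk : (Submodule.Quotient.mk (c σ) : E.Red K) = f.1 σ := congrFun hcf σ
        rw [hu2 σ hσ (hc.1.2 σ hσ), hg' ⟨c σ, hc.1.2 σ hσ⟩ (hmk ▸ f.2.2.2 σ)]
        congr 2
        exact congrArg θ (Subtype.ext hmk)⟩
      exact ⟨i, hi.symm⟩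
    obtain ⟨hfin, hcard⟩ := finite_card_le_of_hom Φ (Set.finite_range Ψ) hrange
    refine ⟨hfin, hcard.trans ?_⟩
    have hT : (Set.range Ψ).ncard ≤ η := by
      rw [← Set.image_univ]
      exact (Set.ncard_image_le Set.finite_univ).trans (by simp [Set.ncard_univ])
    let ψ : (S ⊓ O.lineK K : Submodule ℤ_[η] (E.Red K)) →+ ZMod (η ^ 1) :=
      { toFun := fun w => θ ⟨w, w.2.1⟩
        map_zero' := map_zero θ
        map_add' := fun w w' => by rw [← map_add]; rfl }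
    have hψ : ψ.range = ⊤ := by
      haveI : Fact (Nat.card (ZMod (η ^ 1))).Prime := ⟨by rw [Nat.card_zmod, pow_one]; exact hη⟩
      refine (AddSubgroup.eq_bot_or_eq_top_of_prime_card ψ.range).resolve_left fun h => hv₀ ?_
      have : ψ ⟨v₀, hv₀S, hv₀L⟩ ∈ ψ.range := ⟨_, rfl⟩
      rw [h, AddSubgroup.mem_bot] at this
      exact this
    have hψcard : Nat.card (S ⊓ O.lineK K : Submodule ℤ_[η] (E.Red K)) =
        η * Nat.card ψ.ker := by
      rw [AddSubgroup.card_eq_card_quotient_mul_card_addSubgroup ψ.ker,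
        Nat.card_congr (QuotientAddGroup.quotientKerEquivRange ψ).toEquiv, hψ,
        AddSubgroup.card_top, Nat.card_zmod]
      exact congrArg (fun t => t * Nat.card ψ.ker) (pow_one η)
    let j : (S' ⊓ O.lineK K : Submodule ℤ_[η] (E.Red K)) → ψ.ker := fun w =>
      ⟨⟨w.1, hS'le w.2.1, w.2.2⟩, ((hS' _).1 w.2.1).2⟩
    have hj : Function.Injective j := fun a b h =>
      Subtype.ext (congrArg (fun z : ψ.ker => (z.1 : E.Red K)) h :)
    calc Nat.card Φ.ker * (Set.range Ψ).ncard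
        ≤ Nat.card ψ.ker * η :=
          Nat.mul_le_mul (hker.trans (Nat.card_le_card_of_injective j hj)) hT
      _ = _ := by rw [hψcard, mul_comm]

end EisModule

end Fermat.Agent.Mazur3
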