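import Mathlib

/-!
# Characteristic polynomials along invariant submodules, kernels and multiplicities
-/

set_option autoImplicit false

noncomputable section

namespace Fermat.Agent.Mazur3

open Polynomial Module

section

variable {R V : Type*} [CommRing R] [AddCommGroup V] [Module R V] [Module.Finite R V]
  [Module.Free R V] (W : Submodule R V) [Module.Free R W] [Module.Finite R W]
  [Module.Free R (V ⧸ W)]

open Module.Basis in
theorem charpoly_eq_mul_mapQ (e : V →ₗ[R] V) (he : W ≤ W.comap e) :
    e.charpoly = (e.restrict he).charpoly * (W.mapQ W e he).charpoly := by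
  classical
  let m := Module.Free.ChooseBasisIndex R W
  let bW : Basis m R W := Module.Free.chooseBasis R W
  let n := Module.Free.ChooseBasisIndex R (V ⧸ W)
  let bQ : Basis n R (V ⧸ W) := Module.Free.chooseBasis R (V ⧸ W)
  let b := sumQuot bW bQ
  let A : Matrix m m R := LinearMap.toMatrix bW bW (e.restrict he)
  let B : Matrix m n R := Matrix.of fun i l ↦
    ((sumQuot bW bQ).repr (e ((sumQuot bW bQ) (Sum.inr l)))) (Sum.inl i)
  let D : Matrix n n R := LinearMap.toMatrix bQ bQ (W.mapQ W e he)
  suffices LinearMap.toMatrix b b e = Matrix.fromBlocks A B 0 D by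
    rw [← LinearMap.charpoly_toMatrix e b, this, ← LinearMap.charpoly_toMatrix _ bW,
      ← LinearMap.charpoly_toMatrix _ bQ, Matrix.charpoly_fromBlocks_zero₂₁]
  ext u v
  cases u with
  | inl i =>
    cases v with
    | inl k =>
      simp only [b, sumQuot_inl, Matrix.fromBlocks_apply₁₁, A, LinearMap.toMatrix_apply]
      apply sumQuot_repr_inl_of_mem
    | inr l => simp [b, LinearMap.toMatrix_apply, Matrix.fromBlocks_apply₁₂, B]
  | inr j =>
    cases v with
    | inl k =>
      suffices W.mkQ (e (bW k)) = 0 by simp [LinearMap.toMatrix_apply, b, this]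
      rw [← LinearMap.mem_ker, Submodule.ker_mkQ]
      exact he (Submodule.coe_mem (bW k))
    | inr l =>
      simp only [LinearMap.toMatrix_apply, sumQuot_repr_inr,
        Matrix.fromBlocks_apply₂₂, b, D]
      rw [← sumQuot_inr bW bQ l, W.mapQ_apply]
      simp

end

/-- Symmetry of a polynomial under `μ ↦ d / μ`. -/
def IsSymmUnder {Ω : Type*} [Field Ω] (d : Ω) (P : Polynomial Ω) : Prop :=
  ∀ μ : Ω, μ ≠ 0 → P.rootMultiplicity μ = P.rootMultiplicity (d / μ)

theorem isSymmUnder_one {Ω : Type*} [Field Ω] (d : Ω) : IsSymmUnder d (1 : Polynomial Ω) := fun μ _ => by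
  rw [rootMultiplicity_eq_zero (by simp), rootMultiplicity_eq_zero (by simp)]

theorem IsSymmUnder.mul {Ω : Type*} [Field Ω] {d : Ω} {P Q : Polynomial Ω} (hP : IsSymmUnder d P)
    (hQ : IsSymmUnder d Q) (h : P * Q ≠ 0) : IsSymmUnder d (P * Q) := fun μ hμ => by
  rw [rootMultiplicity_mul h, rootMultiplicity_mul h, hP μ hμ, hQ μ hμ]

theorem isSymmUnder_quadratic {Ω : Type*} [Field Ω] [IsAlgClosed Ω] {d : Ω} (hd : d ≠ 0) (t : Ω) :
    IsSymmUnder d (X ^ 2 - C t * X + C d : Polynomial Ω) := by
  classical
  obtain ⟨a, ha⟩ := IsAlgClosed.exists_root (X ^ 2 - C t * X + C d : Polynomial Ω) (by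
    intro h
    have h2 : (X ^ 2 - C t * X + C d : Polynomial Ω).coeff 2 = 1 := by simp [coeff_X_pow]
    rw [eq_C_of_degree_eq_zero h, coeff_C_ne_zero (by norm_num)] at h2
    exact zero_ne_one h2)
  have ha' : a ^ 2 - t * a + d = 0 := by simpa [IsRoot] using ha
  have ha0 : a ≠ 0 := fun h => hd (by simpa [h] using ha')
  have hfac : (X ^ 2 - C t * X + C d : Polynomial Ω) = (X - C a) * (X - C (d / a)) := by
    have ht : t = a + d / a := by
      field_simp
      linear_combination -ha'
    have h1 : C d = C a * C (d / a) := by rw [← map_mul, mul_div_cancel₀ _ ha0]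
    rw [ht, map_add, h1]
    ring
  intro μ hμ
  have hne : ((X - C a) * (X - C (d / a)) : Polynomial Ω) ≠ 0 :=
    mul_ne_zero (X_sub_C_ne_zero a) (X_sub_C_ne_zero _)
  rw [hfac, rootMultiplicity_mul hne, rootMultiplicity_mul hne, rootMultiplicity_X_sub_C,
    rootMultiplicity_X_sub_C, rootMultiplicity_X_sub_C, rootMultiplicity_X_sub_C]
  have e1 : (μ = d / a) = (d / μ = a) := by
    refine propext ⟨fun h => ?_, fun h => ?_⟩
    · rw [h]; field_simp
    · rw [← h]; field_simp
  have e2 : (d / μ = d / a) = (μ = a) := by
    refine propext ⟨fun h => ?_, fun h => by rw [h]⟩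
    field_simp at h
    exact h.symm
  simp only [e1, e2]
  ring

section Kernel

variable {R : Type*} [CommRing R] [IsDomain R] [IsPrincipalIdealRing R]
  {M : Type*} [AddCommGroup M] [Module R M] [Module.Free R M] [Module.Finite R M]
  {Ω : Type*} [Field Ω] [IsAlgClosed Ω] [Algebra R Ω]

/-- The rank of the kernel of a polynomial in an endomorphism is at most the total multiplicity
of its roots in the characteristic polynomial. -/
theorem finrank_ker_aeval_le (f : Module.End R M) (Q : Polynomial R) (s : Finset Ω)
    (hs : ∀ μ : Ω, (Q.map (algebraMap R Ω)).IsRoot μ → μ ∈ s) :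
    finrank R (LinearMap.ker (aeval f Q)) ≤
      ∑ μ ∈ s, (f.charpoly.map (algebraMap R Ω)).rootMultiplicity μ := by
  classical
  set K := LinearMap.ker (aeval f Q) with hK
  have hKf : ∀ x ∈ K, f x ∈ K := fun x hx => by
    rw [hK, LinearMap.mem_ker] at *
    have hcomm : Commute (aeval f Q) f := by
      simpa using (Commute.all Q X).map (aeval f)
    rw [← Module.End.mul_apply, hcomm.eq, Module.End.mul_apply, hx, map_zero]
  haveI : Module.Free R (M ⧸ K) :=
    Module.Free.of_equiv (LinearMap.quotKerEquivRange (aeval f Q)).symm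
  set P : Polynomial Ω := (f.restrict hKf).charpoly.map (algebraMap R Ω) with hP
  have hP0 : P ≠ 0 := ((LinearMap.charpoly_monic _).map _).ne_zero
  have hdeg : P.roots.card = finrank R K := by
    rw [IsAlgClosed.card_roots_eq_natDegree, hP, (LinearMap.charpoly_monic _).natDegree_map,
      LinearMap.charpoly_natDegree]
  have hroots : ∀ μ ∈ P.roots, μ ∈ s := by
    intro μ hμ
    rw [mem_roots hP0, hP, ← LinearMap.charpoly_baseChange,
      ← Module.End.hasEigenvalue_iff_isRoot_charpoly] at hμ
    obtain ⟨v, hv⟩ := hμ.exists_hasEigenvector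
    refine hs μ ?_
    have h0 : aeval ((f.restrict hKf).baseChange Ω) (Q.map (algebraMap R Ω)) = 0 := by
      have hr : aeval (f.restrict hKf) Q = 0 := by
        refine LinearMap.ext fun x => Subtype.ext ?_
        have : ∀ Q' : Polynomial R, ((aeval (f.restrict hKf) Q' x : K) : M) = aeval f Q' x := by
          intro Q'
          induction Q' using Polynomial.induction_on' with
          | add a b ha hb => simp [map_add, ha, hb]
          | monomial n a =>
            simp only [aeval_monomial, Module.End.mul_apply, Module.algebraMap_end_apply,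
              Submodule.coe_smul, Module.End.pow_restrict n]
            rfl
        rw [this]
        exact x.2
      rw [aeval_map_algebraMap]
      have h2 := aeval_algHom_apply (Module.End.baseChangeHom R Ω K) (f.restrict hKf) Q
      rw [hr, map_zero] at h2
      exact h2
    have h1 := Module.End.aeval_apply_of_hasEigenvector (p := Q.map (algebraMap R Ω)) hv
    rw [h0, LinearMap.zero_apply] at h1
    exact (smul_eq_zero.mp h1.symm).resolve_right hv.2
  rw [← hdeg, ← Multiset.sum_count_eq_card hroots]
  refine Finset.sum_le_sum fun μ _ => ?_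
  rw [count_roots]
  refine rootMultiplicity_le_rootMultiplicity_of_dvd ((LinearMap.charpoly_monic f).map _).ne_zero
    ?_ μ
  exact Polynomial.map_dvd _ (Dvd.intro _ (charpoly_eq_mul_mapQ K f hKf).symm)

end Kernel

end Fermat.Agent.Mazur3
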