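import Fermat.Agent.Mazur3.Descent.Symmetric

/-!
# The relation at the level prime, its kernel, and the vanishing of cocycles on inertia
-/

set_option autoImplicit false

noncomputable section

namespace Fermat.Agent.Mazur3

open GalRep Module Polynomial
open scoped Pointwise
open Fermat.Agent.Galois (GQ)

local notation "ℚb" => AlgebraicClosure ℚ

theorem conj_mem_inertia_of_decomposition {B : ValuationSubring ℚb} {σ τ : GQ}
    (hσ : σ ∈ B.decompositionSubgroup ℚ) (hτ : τ ∈ B.inertiaSubgroupIn ℚ) :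
    σ * τ * σ⁻¹ ∈ B.inertiaSubgroupIn ℚ := by
  have h : (σ⁻¹)⁻¹ * τ * σ⁻¹ ∈ B.inertiaSubgroupIn ℚ := conj_mem_inertia (by
    rwa [show (σ⁻¹ : GQ) • B = B from inv_mem hσ])
  rwa [inv_inv] at h

theorem isUnit_natCast_pow {η q : ℕ} [Fact η.Prime] (hq : q.Prime) (h : q ≠ η) (j : ℕ) :
    IsUnit ((q : ℤ_[η]) ^ j) := by
  refine IsUnit.pow j ?_
  rw [PadicInt.isUnit_iff, PadicInt.norm_natCast_eq_one_iff]
  exact ((Nat.coprime_primes Fact.out hq).2 (Ne.symm h))

variable {p η : ℕ} [NeZero p] [Fact η.Prime] {E : EisModule p η}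

namespace EisModule

theorem galois_tame (hp : p.Prime) (hg : ¬ η ∣ p) {B : ValuationSubring ℚb}
    (hB : B.LiesOverPrime p) {F : GQ} (hF : B.IsFrobeniusAt F p) {s : GQ}
    (hs : s ∈ B.inertiaSubgroupIn ℚ) : E.galois (F * s * F⁻¹) = E.galois s ^ p := by
  set w := F * s * F⁻¹ * (s ^ p)⁻¹ with hw
  have hwI : w ∈ B.inertiaSubgroupIn ℚ :=
    mul_mem (conj_mem_inertia_of_decomposition hF.mem_decompositionSubgroup hs)
      (inv_mem (pow_mem hs p))
  have hpη : p ≠ η := fun h => hg (h ▸ dvd_rfl)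
  suffices hw1 : E.galois w = 1 by
    rw [← map_pow]
    have h : E.galois (w * s ^ p) = E.galois (s ^ p) := by rw [map_mul, hw1, one_mul]
    rwa [hw, inv_mul_cancel_right] at h
  refine LinearMap.ext fun v => sub_eq_zero.1 (eq_zero_of_forall_smul (η := η) fun k => ?_)
  obtain ⟨L, hL, hLg, hlev⟩ := (isCocycle_coboundary (E := E) 0).exists_level k
  obtain ⟨j, hj⟩ := Galois.tame_relation hp hB hF hs L
  obtain ⟨x, hx⟩ := (hlev (w ^ p ^ j) hj).2.1 v
  obtain ⟨u, hu⟩ := isUnit_natCast_pow (η := η) hp hpη j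
  refine ⟨(u⁻¹ : ℤ_[η]ˣ).val • x, ?_⟩
  set N := E.galois w - 1 with hN
  have hNN : N * N = 0 := E.unipotent B hB w hwI w hwI
  have hpow : ∀ n : ℕ, E.galois w ^ n = 1 + (n : ℤ_[η]) • N := by
    intro n
    induction n with
    | zero => simp
    | succ n ih =>
      rw [pow_succ, ih, show E.galois w = 1 + N from (add_sub_cancel _ _).symm, add_mul, mul_add,
        mul_add, mul_one, one_mul, mul_one, smul_mul_assoc, hNN, smul_zero, Nat.cast_succ,
        add_smul, one_smul]
      abel
  have h1 : ((p : ℤ_[η]) ^ j) • (E.galois w v - v) = (η ^ k : ℤ_[η]) • x := by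
    rw [← hx, map_pow, hpow, Nat.cast_pow]
    simp [hN]
  show E.galois w v - v = _
  rw [smul_comm, ← h1, ← hu, smul_smul, Units.inv_mul, one_smul]

/-- The relation at the level prime. -/
theorem frob_sq_sub_mul_unipotent (hp : p.Prime) (hg : ¬ η ∣ p) {B : ValuationSubring ℚb}
    (hB : B.LiesOverPrime p) {F : GQ} (hF : B.IsFrobeniusAt F p) {s : GQ}
    (hs : s ∈ B.inertiaSubgroupIn ℚ) :
    (E.galois F * E.galois F - (p : Module.End ℤ_[η] E.M) ^ 2) * (E.galois s - 1) = 0 := by
  have hpη : p ≠ η := fun h => hg (h ▸ dvd_rfl)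
  set N := E.galois s - 1 with hN
  set G := E.galois F with hG
  set G' := E.galois F⁻¹ with hG'
  set t := E.tr F with ht
  set t' := E.tr (s * F) with ht'
  have hNN : N * N = 0 := E.unipotent B hB s hs s hs
  have hs1 : E.galois s = 1 + N := (add_sub_cancel _ _).symm
  have hcF : (cyc η F).val = (p : ℤ_[η]) := cyc_frobenius η hp hpη hB hF
  have hcsF : (cyc η (s * F)).val = (p : ℤ_[η]) := by
    rw [map_mul, cyc_inertia η hp hpη hB hs, one_mul, hcF]
  have hGG' : G * G' = 1 := galois_mul_inv F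
  have hG'G : G' * G = 1 := galois_inv_mul F
  have hpc : ∀ X : Module.End ℤ_[η] E.M,
      (p : Module.End ℤ_[η] E.M) * X = X * (p : Module.End ℤ_[η] E.M) :=
    fun X => (Nat.cast_commute p X).eq
  have hsn : ∀ n : ℕ, E.galois s ^ n = 1 + (n : Module.End ℤ_[η] E.M) * N := by
    intro n
    induction n with
    | zero => simp
    | succ n ih =>
      rw [pow_succ, ih, hs1, add_mul, mul_add, mul_add, mul_one, one_mul, mul_one, mul_assoc, hNN,
        mul_zero, add_zero, Nat.cast_succ, add_mul, one_mul]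
      abel
  have hsp := hsn p
  have hFN : G * N = (p : Module.End ℤ_[η] E.M) * N * G := by
    have h := galois_tame (E := E) hp hg hB hF hs
    rw [map_mul, map_mul, hsp, hs1, ← hG, ← hG', mul_add, mul_one, add_mul, hGG',
      add_right_inj] at h
    rw [← h, mul_assoc _ G' G, hG'G, mul_one]
  have hq : G * G - t * G + (p : Module.End ℤ_[η] E.M) = 0 := by
    have := galois_sq (E := E) F
    rwa [hcF, ← Algebra.algebraMap_eq_smul_one, map_natCast] at this
  have hq' : (1 + N) * G * ((1 + N) * G) - t' * ((1 + N) * G) +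
      (p : Module.End ℤ_[η] E.M) = 0 := by
    have := galois_sq (E := E) (s * F)
    rwa [hcsF, ← Algebra.algebraMap_eq_smul_one, map_natCast, map_mul, hs1] at this
  set Δ := t' - t with hΔ
  have hcomm : ∀ g, Commute Δ (E.galois g) := fun g =>
    (tr_commute_galois _ g).sub_left (tr_commute_galois _ g)
  have hΔN : Δ * N = N * Δ := ((hcomm s).sub_right (Commute.one_right _)).eq
  have htN : t * N = N * t := ((tr_commute_galois F s).sub_right (Commute.one_right _)).eq
  have htG : t * G = G * G + (p : Module.End ℤ_[η] E.M) := by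
    rw [← sub_eq_zero, ← neg_eq_zero, ← hq]
    abel
  have htNG : t * (N * G) = N * (G * G) + N * (p : Module.End ℤ_[η] E.M) := by
    rw [← mul_assoc, htN, mul_assoc, htG, mul_add]
  -- the bracket
  have hbr : (p : Module.End ℤ_[η] E.M) * N * (G * G - 1) = Δ * G + Δ * (N * G) := by
    have hexp : (1 + N) * G * ((1 + N) * G) =
        G * G + N * (G * G) + (p : Module.End ℤ_[η] E.M) * N * (G * G) := by
      calc (1 + N) * G * ((1 + N) * G) = G * G + N * (G * G) + G * N * G + N * (G * N) * G := by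
            noncomm_ring
        _ = _ := by
            rw [hFN, show N * ((p : Module.End ℤ_[η] E.M) * N * G) * G =
              N * (p : Module.End ℤ_[η] E.M) * N * (G * G) by noncomm_ring,
              ← hpc, mul_assoc _ N N, hNN]
            noncomm_ring
    have hexp' : t' * ((1 + N) * G) = G * G + (p : Module.End ℤ_[η] E.M) + N * (G * G) +
        N * (p : Module.End ℤ_[η] E.M) + (Δ * G + Δ * (N * G)) := by
      rw [show t' = t + Δ from (add_sub_cancel _ _).symm]
      calc (t + Δ) * ((1 + N) * G) = t * G + t * (N * G) + (Δ * G + Δ * (N * G)) := by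
            noncomm_ring
        _ = _ := by rw [htG, htNG]; abel
    rw [hexp, hexp'] at hq'
    rw [← sub_eq_zero, ← hq', hpc N]
    noncomm_ring
  have hΔN0 : Δ * (N * G) = 0 := by
    have h := congrArg (fun z => N * z) hbr
    simp only [mul_add, ← mul_assoc, ← hpc, hNN, mul_zero, zero_mul, mul_assoc _ N N, ← hΔN] at h
    rw [← mul_assoc]
    simpa [mul_assoc, hNN] using h.symm
  rw [hΔN0, add_zero] at hbr
  -- conjugation by Frobenius
  have hpne : ∀ X : Module.End ℤ_[η] E.M, (p : Module.End ℤ_[η] E.M) * X = 0 → X = 0 :=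
    fun X hX => LinearMap.ext fun v => by
      have h0 : (p : ℤ_[η]) • X v = 0 := by
        simpa [Nat.cast_smul_eq_nsmul] using LinearMap.congr_fun hX v
      exact (smul_eq_zero.1 h0).resolve_left (Nat.cast_ne_zero.2 hp.ne_zero)
  have hconj : (p : Module.End ℤ_[η] E.M) * ((p : Module.End ℤ_[η] E.M) * N * (G * G - 1)) =
      (p : Module.End ℤ_[η] E.M) * N * (G * G - 1) := by
    have h := congrArg (fun z => G * z * G') hbr
    have e1 : G * (Δ * G) * G' = Δ * G := by
      rw [← mul_assoc G, ← (hcomm F).eq]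
      simp only [mul_assoc, hGG', mul_one]
      rfl
    simp only [e1] at h
    rw [show G * ((p : Module.End ℤ_[η] E.M) * N * (G * G - 1)) * G' =
      G * (p : Module.End ℤ_[η] E.M) * N * ((G * G - 1) * G') by noncomm_ring,
      ← hpc G, mul_assoc _ G N, hFN,
      show (p : Module.End ℤ_[η] E.M) * ((p : Module.End ℤ_[η] E.M) * N * G) * ((G * G - 1) * G') =
        (p : Module.End ℤ_[η] E.M) * ((p : Module.End ℤ_[η] E.M) * N *
          (G * G * (G * G') - G * G')) by noncomm_ring, hGG', mul_one, ← hbr] at h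
    exact h
  have hN0 : N * (G * G - 1) = 0 := by
    refine hpne _ (LinearMap.ext fun v => ?_)
    have h := LinearMap.congr_fun hconj v
    simp only [Module.End.mul_apply, Module.End.natCast_apply, ← Nat.cast_smul_eq_nsmul ℤ_[η]]
      at h ⊢
    have h2 : ((p : ℤ_[η]) - 1) • ((p : ℤ_[η]) • N ((G * G - 1) v)) = 0 := by
      rw [sub_smul, one_smul, sub_eq_zero]
      exact h
    refine (smul_eq_zero.1 h2).resolve_left (sub_ne_zero.2 ?_)
    exact fun h => hp.ne_one (Nat.cast_injective (h.trans Nat.cast_one.symm))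
  have hGGN : G * G * N = (p : Module.End ℤ_[η] E.M) ^ 2 * N * (G * G) := by
    rw [mul_assoc G G N, hFN, show G * ((p : Module.End ℤ_[η] E.M) * N * G) =
      G * (p : Module.End ℤ_[η] E.M) * N * G by noncomm_ring, ← hpc, mul_assoc _ G N, hFN]
    noncomm_ring
  calc (G * G - (p : Module.End ℤ_[η] E.M) ^ 2) * N
      = (p : Module.End ℤ_[η] E.M) ^ 2 * (N * (G * G - 1)) := by
        rw [sub_mul, hGGN]; noncomm_ring
    _ = 0 := by rw [hN0, mul_zero]

variable {A : ValuationSubring ℚb} {hg : ¬ η ∣ p}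

/-- The kernel at the level prime has at most half the rank. -/
theorem OrdLine.two_mul_finrank_ker_le (O : E.OrdLine A hg) (hp : p.Prime)
    (hA : A.LiesOverPrime η) {B : ValuationSubring ℚb} (hB : B.LiesOverPrime p) {F : GQ}
    (hF : B.IsFrobeniusAt F p) :
    2 * finrank ℤ_[η] (LinearMap.ker ((E.galois F * E.galois F -
      (p : Module.End ℤ_[η] E.M) ^ 2) * (E.galois F - (p : Module.End ℤ_[η] E.M)))) ≤
      finrank ℤ_[η] E.M := by
  classical
  have hpη : p ≠ η := fun h => hg (h ▸ dvd_rfl)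
  set f := algebraMap ℤ_[η] (padicAlgClosure η)
  have hinj : Function.Injective f := padicAlgClosure_injective
  set Q : Polynomial ℤ_[η] := (X * X - (p : Polynomial ℤ_[η]) ^ 2) * (X - (p : Polynomial ℤ_[η]))
  have hQ : aeval (E.galois F) Q = (E.galois F * E.galois F -
      (p : Module.End ℤ_[η] E.M) ^ 2) * (E.galois F - (p : Module.End ℤ_[η] E.M)) := by
    simp [Q]
  have hp0 : (p : padicAlgClosure η) ≠ 0 := by
    rw [← map_natCast f]
    exact (map_ne_zero_iff _ hinj).2 (Nat.cast_ne_zero.2 hp.ne_zero)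
  have hp1 : (p : padicAlgClosure η) ≠ 1 := fun h => by
    rw [← map_natCast f, ← map_one f] at h
    exact hp.ne_one (Nat.cast_injective ((hinj h).trans Nat.cast_one.symm))
  have hpm1 : (p : padicAlgClosure η) ≠ -1 := fun h => by
    rw [← map_natCast f, ← map_one f, ← map_neg] at h
    have h2 : ((p + 1 : ℕ) : ℤ_[η]) = ((0 : ℕ) : ℤ_[η]) := by
      push_cast
      rw [hinj h]
      ring
    exact Nat.succ_ne_zero p (Nat.cast_injective h2)
  have hle := finrank_ker_aeval_le (E.galois F) Q
    ({(p : padicAlgClosure η), -(p : padicAlgClosure η)} : Finset _) (fun μ hμ => by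
      simp only [Q, Polynomial.map_mul, Polynomial.map_sub, Polynomial.map_pow,
        Polynomial.map_natCast, map_X, IsRoot.def, eval_mul, eval_sub, eval_pow, eval_X,
        eval_natCast, mul_eq_zero] at hμ
      rw [Finset.mem_insert, Finset.mem_singleton]
      rcases hμ with h | h
      · exact sq_eq_sq_iff_eq_or_eq_neg.1 (by rw [sq]; exact sub_eq_zero.1 h)
      · exact Or.inl (sub_eq_zero.1 h))
  rw [hQ] at hle
  set P := (E.galois F).charpoly.map f with hP
  have hsym : ∀ μ, μ ≠ 0 → P.rootMultiplicity μ =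
      P.rootMultiplicity ((p : padicAlgClosure η) / μ) := by
    have h := O.symm_charpoly hp hA hinj F
    rw [cyc_frobenius η hp hpη hB hF, map_natCast] at h
    exact h
  have h1 := hsym _ hp0
  have h2 := hsym _ (neg_ne_zero.2 hp0)
  rw [div_self hp0] at h1
  rw [div_neg, div_self hp0] at h2
  set v : padicAlgClosure η := (p : padicAlgClosure η)
  have hne : v ≠ -v := fun h => hp0 (by
    rw [eq_neg_iff_add_eq_zero, ← two_mul] at h
    exact (mul_eq_zero.1 h).resolve_left two_ne_zero)
  have hne1 : (1 : padicAlgClosure η) ≠ -1 := fun h => two_ne_zero (α := padicAlgClosure η) (by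
    rw [eq_neg_iff_add_eq_zero, one_add_one_eq_two] at h
    exact h)
  have hsum : ∑ μ ∈ ({v, -v, 1, -1} : Finset (padicAlgClosure η)), P.rootMultiplicity μ ≤
      finrank ℤ_[η] E.M := by
    have hP0 : P ≠ 0 := ((LinearMap.charpoly_monic _).map _).ne_zero
    rw [← LinearMap.charpoly_natDegree (E.galois F),
      ← (LinearMap.charpoly_monic (E.galois F)).natDegree_map f, ← hP,
      ← IsAlgClosed.card_roots_eq_natDegree]
    refine le_trans ?_ (le_of_eq (P.roots.toFinset_sum_count_eq))
    simp only [← count_roots]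
    refine Finset.sum_le_sum_of_ne_zero fun μ _ h => ?_
    rw [Multiset.mem_toFinset, ← Multiset.count_ne_zero]
    exact h
  have hv1 : v ≠ 1 := hp1
  have hvm : v ≠ -1 := hpm1
  have hmv1 : -v ≠ 1 := fun h => hpm1 (by rw [← h, neg_neg])
  have hmvm : -v ≠ -1 := fun h => hp1 (neg_injective h)
  rw [Finset.sum_insert (by simp [hne, hv1, hvm]), Finset.sum_insert (by simp [hmv1, hmvm]),
    Finset.sum_insert (by simp [hne1]), Finset.sum_singleton, ← h1, ← h2] at hsum
  rw [Finset.sum_insert (by simp [hne]), Finset.sum_singleton] at hle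
  omega

/-- A cocycle is trivial on inertia away from the level and the residual prime. -/
theorem IsCocycle.apply_eq_zero (hp : p.Prime) {c : GQ → E.M} (hc : E.IsCocycle c) {q : ℕ}
    (hq : q.Prime) (hqp : q ≠ p) (hqη : q ≠ η) {B : ValuationSubring ℚb}
    (hB : B.LiesOverPrime q) {τ : GQ} (hτ : τ ∈ B.inertiaSubgroupIn ℚ) : c τ = 0 := by
  have hqdp : ¬ q ∣ p := fun h => hqp ((Nat.prime_dvd_prime_iff_eq hq hp).1 h)
  have htriv : ∀ σ ∈ B.inertiaSubgroupIn ℚ, E.galois σ = 1 :=
    E.unramified q hq hqdp hqη B hB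
  obtain ⟨F, hF⟩ := Galois.exists_isFrobeniusAt hq hB
  have hconjI := conj_mem_inertia_of_decomposition hF.mem_decompositionSubgroup hτ
  have hconj : c (F * τ * F⁻¹) = E.galois F (c τ) := by
    rw [hc.conj, htriv _ hconjI, Module.End.one_apply, add_sub_cancel_left]
  have hpow : ∀ σ ∈ B.inertiaSubgroupIn ℚ, ∀ n : ℕ, c (σ ^ n) = (n : ℤ_[η]) • c σ := by
    intro σ hσ n
    induction n with
    | zero => simp [hc.map_one]
    | succ n ih =>
      rw [pow_succ', hc.cocycle, htriv σ hσ, Module.End.one_apply, ih, Nat.cast_succ, add_smul,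
        one_smul, add_comm]
  have hmul : c (F * τ * F⁻¹) = c (τ ^ q) := by
    refine sub_eq_zero.1 (eq_zero_of_forall_smul (η := η) fun k => ?_)
    obtain ⟨L, hL, hLg, hlev⟩ := hc.exists_level k
    obtain ⟨j, hj⟩ := Galois.tame_relation hq hB hF hτ L
    set w := F * τ * F⁻¹ * (τ ^ q)⁻¹ with hw
    have hwI : w ∈ B.inertiaSubgroupIn ℚ := mul_mem hconjI (inv_mem (pow_mem hτ q))
    obtain ⟨x, hx⟩ := (hlev (w ^ q ^ j) hj).1
    obtain ⟨u, hu⟩ := isUnit_natCast_pow (η := η) hq hqη j
    refine ⟨(u⁻¹ : ℤ_[η]ˣ).val • x, ?_⟩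
    rw [show F * τ * F⁻¹ = w * τ ^ q by rw [hw, inv_mul_cancel_right], hc.cocycle, htriv w hwI,
      Module.End.one_apply, add_sub_cancel_right, smul_comm, ← hx, hpow w hwI, Nat.cast_pow, ← hu,
      smul_smul, Units.inv_mul, one_smul]
  rw [hconj, hpow τ hτ] at hmul
  let i : GoodPrime p := ⟨⟨q, hq⟩, hqdp⟩
  refine E.sub_injective i ?_
  rw [map_zero, LinearMap.sub_apply, ← galois_add_mul_inv (ℓ := i) hqη hB hF, LinearMap.add_apply,
    Module.End.mul_apply, Module.End.natCast_apply, Module.End.natCast_apply, hmul,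
    show (i : ℕ) = q from rfl, ← Nat.cast_smul_eq_nsmul ℤ_[η], ← Nat.cast_smul_eq_nsmul ℤ_[η],
    ← map_smul, ← hmul, galois_inv_apply, Nat.cast_add, Nat.cast_one, add_smul, one_smul,
    hmul, sub_eq_zero, add_comm]

end EisModule

end Fermat.Agent.Mazur3
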