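import Fermat.Agent.Mazur3.Descent.Trace
import Fermat.Agent.Mazur3.Descent.Linear

/-!
# Symmetry of the eigenvalues, the rank of the line and the relation at the level prime
-/

set_option autoImplicit false
set_option linter.style.haveILetI false

noncomputable section

namespace Fermat.Agent.Mazur3

open GalRep Polynomial Module
open scoped TensorProduct
open Fermat.Agent.Galois (GQ)

local notation "ℚb" => AlgebraicClosure ℚ

variable {p η : ℕ} [NeZero p] [Fact η.Prime] {E : EisModule p η}
  {A : ValuationSubring ℚb} {hg : ¬ η ∣ p}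

namespace EisModule

theorem OrdLine.symm_aux (O : E.OrdLine A hg) (hp : p.Prime) (hA : A.LiesOverPrime η)
    {Ω : Type} [Field Ω] [IsAlgClosed Ω] [Algebra ℤ_[η] Ω]
    (hΩ : Function.Injective (algebraMap ℤ_[η] Ω)) :
    ∀ (n : ℕ) (V : Type) [AddCommGroup V] [Module Ω V] [FiniteDimensional Ω V],
      finrank Ω V = n → ∀ φ : E.galAlg →+* Module.End Ω V,
        (∀ r : ℤ_[η], φ (algebraMap ℤ_[η] _ r) = algebraMap Ω _ (algebraMap ℤ_[η] Ω r)) →
        ∀ g : GQ, IsSymmUnder (algebraMap ℤ_[η] Ω (cyc η g).val)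
          (LinearMap.charpoly (φ (E.galEl g))) := by
  intro n
  induction n using Nat.strong_induction_on with
  | _ n ih =>
  intro V _ _ _ hn φ hφ g
  classical
  by_cases hn0 : n = 0
  · have : LinearMap.charpoly (φ (E.galEl g)) = 1 :=
      (LinearMap.charpoly_monic _).natDegree_eq_zero.1 (by
        rw [LinearMap.charpoly_natDegree, hn, hn0])
    rw [this]
    exact isSymmUnder_one _
  let P : ℕ → Prop := fun k => ∃ W : Submodule Ω V, finrank Ω W = k ∧ W ≠ ⊥ ∧
    ∀ a, ∀ x ∈ W, φ a x ∈ W
  have hex : ∃ k, P k := ⟨_, ⊤, rfl, fun h => hn0 (by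
    rw [← hn, ← finrank_top Ω V, h, finrank_bot]), fun _ _ _ => trivial⟩
  obtain ⟨W, hWr, hW0, hWst⟩ := Nat.find_spec hex
  -- the representation on the simple piece
  let φW : E.galAlg →+* Module.End Ω W :=
    { toFun := fun a => (φ a).restrict (hWst a)
      map_one' := LinearMap.ext fun x => Subtype.ext (by simp)
      map_mul' := fun a b => LinearMap.ext fun x => Subtype.ext (by simp)
      map_zero' := LinearMap.ext fun x => Subtype.ext (by simp)
      map_add' := fun a b => LinearMap.ext fun x => Subtype.ext (by simp) }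
  have hirrW : ∀ U : Submodule Ω W, (∀ a, ∀ x ∈ U, φW a x ∈ U) → U = ⊥ ∨ U = ⊤ := by
    intro U hU
    refine or_iff_not_imp_left.2 fun hU0 => ?_
    have hmap : finrank Ω (U.map W.subtype) = finrank Ω U :=
      (Submodule.equivMapOfInjective _ W.injective_subtype U).finrank_eq.symm
    have h1 : P (finrank Ω U) := ⟨U.map W.subtype, hmap,
      fun h0 => hU0 (Submodule.map_injective_of_injective W.injective_subtype
        (h0.trans (Submodule.map_bot _).symm)), by
      rintro a _ ⟨x, hx, rfl⟩
      exact ⟨φW a x, hU a x hx, rfl⟩⟩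
    exact Submodule.eq_top_of_finrank_eq
      (le_antisymm U.finrank_le (hWr ▸ Nat.find_min' hex h1))
  have hWpos : 0 < finrank Ω W := Module.finrank_pos_iff.2
    ((Submodule.nontrivial_iff_ne_bot).2 hW0)
  haveI : Nontrivial W := (Submodule.nontrivial_iff_ne_bot).2 hW0
  have hone : finrank Ω W ≠ 1 := by
    intro h1
    let b : Module.Basis (Fin 1) Ω W := (Module.finBasisOfFinrankEq Ω W h1)
    let χ : E.galAlg →+* Ω :=
      { toFun := fun a => LinearMap.toMatrix b b (φW a) 0 0
        map_one' := by rw [map_one, LinearMap.toMatrix_one, Matrix.one_apply_eq]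
        map_mul' := fun a c => by
          rw [map_mul, LinearMap.toMatrix_mul, Matrix.mul_apply, Fin.sum_univ_one]
        map_zero' := by simp
        map_add' := fun a c => by simp }
    refine galAlg_no_char hp hA O hΩ { χ with commutes' := fun r => ?_ }
    show LinearMap.toMatrix b b (φW (algebraMap ℤ_[η] _ r)) 0 0 = algebraMap ℤ_[η] Ω r
    rw [show φW (algebraMap ℤ_[η] _ r) = algebraMap Ω _ (algebraMap ℤ_[η] Ω r) from
      LinearMap.ext fun x => Subtype.ext (by simp [φW, hφ])]
    simp [LinearMap.toMatrix_apply, Algebra.algebraMap_eq_smul_one]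
  let ρ : GQ →* Module.End Ω W := φW.toMonoidHom.comp E.galEl
  have hρst : ∀ U : Submodule Ω W, (∀ h, ∀ x ∈ U, ρ h x ∈ U) → ∀ a, ∀ x ∈ U, φW a x ∈ U := by
    rintro U hU ⟨a, ha⟩
    induction ha using Algebra.adjoin_induction with
    | mem a ha =>
      obtain ⟨h, rfl⟩ := ha
      exact hU h
    | algebraMap r =>
      intro x hx
      rw [show φW ⟨_, _⟩ = algebraMap Ω _ (algebraMap ℤ_[η] Ω r) from
        LinearMap.ext fun y => Subtype.ext (by
          show φ (algebraMap ℤ_[η] E.galAlg r) (y : V) = _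
          simp [hφ])]
      exact U.smul_mem _ hx
    | add a b ha hb iha ihb =>
      intro x hx
      rw [show (⟨a + b, _⟩ : E.galAlg) = ⟨a, ha⟩ + ⟨b, hb⟩ from rfl, map_add]
      exact U.add_mem (iha x hx) (ihb x hx)
    | mul a b ha hb iha ihb =>
      intro x hx
      rw [show (⟨a * b, _⟩ : E.galAlg) = ⟨a, ha⟩ * ⟨b, hb⟩ from rfl, map_mul]
      exact iha _ (ihb x hx)
  -- the trace is scalar on the simple piece
  have hsc : ∀ h : GQ, ∃ c : Ω, φW ⟨E.tr h, tr_mem h⟩ = c • 1 := by
    intro h
    set T := φW ⟨E.tr h, tr_mem h⟩ with hT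
    obtain ⟨c, hc⟩ := Module.End.exists_eigenvalue T
    refine ⟨c, ?_⟩
    rcases hirrW (T.eigenspace c) (hρst _ fun h' x hx => by
      rw [Module.End.mem_eigenspace_iff] at hx ⊢
      have hcomm : Commute (⟨E.tr h, tr_mem h⟩ : E.galAlg) (E.galEl h') :=
        Subtype.ext (tr_commute_galois h h')
      rw [← Module.End.mul_apply, hT]
      show (φW _ * φW (E.galEl h')) x = _
      rw [(hcomm.map φW).eq, Module.End.mul_apply, ← hT, hx, map_smul]
      rfl) with hbot | htop
    · exact absurd hbot hc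
    · refine LinearMap.ext fun x => ?_
      exact Module.End.mem_eigenspace_iff.1 (htop ▸ Submodule.mem_top : x ∈ T.eigenspace c)
  choose t ht using hsc
  let d : GQ →* Ω :=
    (algebraMap ℤ_[η] Ω).toMonoidHom.comp ((Units.coeHom _).comp (cyc η))
  have hrel : ∀ h, ρ h + d h • ρ h⁻¹ = t h • 1 := by
    intro h
    rw [← ht h, show (⟨E.tr h, tr_mem h⟩ : E.galAlg) =
      E.galEl h + algebraMap ℤ_[η] _ (cyc η h).val * E.galEl h⁻¹ from
        Subtype.ext (by
          show E.galois h + (cyc η h).val • E.galois h⁻¹ = _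
          rw [Algebra.smul_def]
          rfl), map_add, map_mul,
      show φW (algebraMap ℤ_[η] _ (cyc η h).val) = algebraMap Ω _ (d h) from
        LinearMap.ext fun x => Subtype.ext (by simp [φW, hφ, d]), ← Algebra.smul_def]
    rfl
  obtain ⟨hle2, hchar⟩ := finrank_le_two_and_charpoly ρ t d hrel
    (fun U hU => hirrW U (hρst U hU))
  have hchar' := hchar (by omega) g
  have hdg : d g ≠ 0 := (map_ne_zero_iff _ hΩ).2 (cyc η g).ne_zero
  -- the quotient
  let φQ : E.galAlg →+* Module.End Ω (V ⧸ W) :=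
    { toFun := fun a => W.mapQ W (φ a) (hWst a)
      map_one' := Submodule.linearMap_qext _ (LinearMap.ext fun x => by simp)
      map_mul' := fun a b => Submodule.linearMap_qext _ (LinearMap.ext fun x => by simp)
      map_zero' := Submodule.linearMap_qext _ (LinearMap.ext fun x => by simp)
      map_add' := fun a b => Submodule.linearMap_qext _ (LinearMap.ext fun x => by simp) }
  have hQ := ih (finrank Ω (V ⧸ W)) (by
      have := W.finrank_quotient_add_finrank
      omega) (V ⧸ W) rfl φQ
    (fun r => Submodule.linearMap_qext _ (LinearMap.ext fun x => by simp [φQ, hφ])) g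
  rw [charpoly_eq_mul_mapQ W (φ (E.galEl g)) (hWst _)]
  refine IsSymmUnder.mul ?_ hQ (mul_ne_zero (LinearMap.charpoly_monic _).ne_zero
    (LinearMap.charpoly_monic _).ne_zero)
  have : LinearMap.charpoly ((φ (E.galEl g)).restrict (hWst (E.galEl g))) =
      X ^ 2 - C (t g) * X + C (d g) := hchar'
  rw [this]
  exact isSymmUnder_quadratic hdg _

/-- The eigenvalues of a Galois element come in pairs with product the cyclotomic character. -/
theorem OrdLine.symm_charpoly (O : E.OrdLine A hg) (hp : p.Prime) (hA : A.LiesOverPrime η)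
    {Ω : Type} [Field Ω] [IsAlgClosed Ω] [Algebra ℤ_[η] Ω]
    (hΩ : Function.Injective (algebraMap ℤ_[η] Ω)) (g : GQ) :
    IsSymmUnder (algebraMap ℤ_[η] Ω (cyc η g).val)
      ((E.galois g).charpoly.map (algebraMap ℤ_[η] Ω)) := by
  let φ : E.galAlg →+* Module.End Ω (Ω ⊗[ℤ_[η]] E.M) :=
    (Module.End.baseChangeHom ℤ_[η] Ω E.M).toRingHom.comp E.galAlg.val.toRingHom
  have h := O.symm_aux hp hA hΩ _ (Ω ⊗[ℤ_[η]] E.M) rfl φ (fun r => by
    show Module.End.baseChangeHom ℤ_[η] Ω E.M (algebraMap ℤ_[η] (Module.End ℤ_[η] E.M) r) = _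
    rw [AlgHom.commutes, IsScalarTower.algebraMap_apply ℤ_[η] Ω]) g
  rw [← LinearMap.charpoly_baseChange]
  exact h

variable (η) in
/-- An algebraically closed field over `ℤ_η`. -/
abbrev padicAlgClosure : Type := AlgebraicClosure (FractionRing ℤ_[η])

theorem padicAlgClosure_injective :
    Function.Injective (algebraMap ℤ_[η] (padicAlgClosure η)) := by
  rw [IsScalarTower.algebraMap_eq ℤ_[η] (FractionRing ℤ_[η]) (padicAlgClosure η)]
  exact (algebraMap (FractionRing ℤ_[η]) (padicAlgClosure η)).injective.comp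
    (IsFractionRing.injective ℤ_[η] (FractionRing ℤ_[η]))

theorem OrdLine.free_quot (O : E.OrdLine A hg) : Module.Free ℤ_[η] (E.M ⧸ O.line) := by
  haveI : Module.IsTorsionFree ℤ_[η] (E.M ⧸ O.line) := by
    refine .of_smul_eq_zero fun c x h => ?_
    obtain ⟨v, rfl⟩ := Submodule.Quotient.mk_surjective _ x
    rw [← Submodule.Quotient.mk_smul, Submodule.Quotient.mk_eq_zero] at h
    refine or_iff_not_imp_left.2 fun hc => ?_
    rw [Submodule.Quotient.mk_eq_zero]
    exact O.saturated c v hc h
  infer_instance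

/-- Elements of the line and of the quotient: the line has half the rank. -/
theorem OrdLine.two_mul_finrank_line (O : E.OrdLine A hg) (hp : p.Prime)
    (hA : A.LiesOverPrime η) : 2 * finrank ℤ_[η] O.line = finrank ℤ_[η] E.M := by
  obtain ⟨s, hs, hs1⟩ := exists_cyc_ne_one hA
  haveI := O.free_quot
  set L := O.line
  set a := (cyc η s).val
  have he : L ≤ L.comap (E.galois s) := fun v hv =>
    O.galois_mem s (by obtain ⟨t, -, rfl⟩ := hs; exact t.2) v hv
  have hL : (E.galois s).restrict he = algebraMap ℤ_[η] _ a :=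
    LinearMap.ext fun x => Subtype.ext (O.inertia_line s hs x x.2)
  have hQ : L.mapQ L (E.galois s) he = 1 :=
    Submodule.linearMap_qext _ (LinearMap.ext fun x => by
      simp only [LinearMap.comp_apply, Submodule.mkQ_apply, Submodule.mapQ_apply,
        Module.End.one_apply]
      exact (Submodule.Quotient.eq L).2 (O.inertia_quot s hs x))
  have hcp : (E.galois s).charpoly = (X - C a) ^ finrank ℤ_[η] L *
      (X - C 1) ^ finrank ℤ_[η] (E.M ⧸ L) := by
    rw [charpoly_eq_mul_mapQ L (E.galois s) he, hQ, hL, LinearMap.charpoly_one, map_one]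
    congr 1
    have h0 := LinearMap.charpoly_sub_smul (0 : Module.End ℤ_[η] L) (-a)
    have hneg : (0 : Module.End ℤ_[η] L) - (-a) • 1 = algebraMap ℤ_[η] _ a := by
      rw [Algebra.algebraMap_eq_smul_one]
      module
    rw [hneg, LinearMap.charpoly_zero,
      Polynomial.pow_comp, Polynomial.X_comp, map_neg, ← sub_eq_add_neg] at h0
    exact h0
  set f := algebraMap ℤ_[η] (padicAlgClosure η)
  have hinj : Function.Injective f := padicAlgClosure_injective
  have hsym := O.symm_charpoly hp hA hinj s 1 one_ne_zero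
  rw [div_one, hcp, Polynomial.map_mul, Polynomial.map_pow, Polynomial.map_pow,
    Polynomial.map_sub, Polynomial.map_sub, map_X, map_C, map_C, map_one] at hsym
  have hne : f a ≠ 1 := fun h => hs1 (hinj (by rw [h, map_one]))
  have hnz : ((X - C (f a)) ^ finrank ℤ_[η] L *
      (X - C 1) ^ finrank ℤ_[η] (E.M ⧸ L) : Polynomial (padicAlgClosure η)) ≠ 0 :=
    mul_ne_zero (pow_ne_zero _ (X_sub_C_ne_zero _)) (pow_ne_zero _ (X_sub_C_ne_zero _))
  rw [rootMultiplicity_mul hnz, rootMultiplicity_mul hnz, rootMultiplicity_X_sub_C_pow,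
    rootMultiplicity_X_sub_C_pow,
    rootMultiplicity_eq_zero (p := (X - C (f a)) ^ _) (fun h => hne (by
      simp only [IsRoot.def, eval_pow, eval_sub, eval_X, eval_C] at h
      exact (sub_eq_zero.1 (eq_zero_of_pow_eq_zero h)).symm)),
    rootMultiplicity_eq_zero (p := (X - C (1 : padicAlgClosure η)) ^ _) (fun h => hne (by
      simp only [IsRoot.def, eval_pow, eval_sub, eval_X, eval_C] at h
      exact sub_eq_zero.1 (eq_zero_of_pow_eq_zero h)))] at hsym
  have := L.finrank_quotient_add_finrank
  omega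

end EisModule

end Fermat.Agent.Mazur3
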