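import Fermat.Agent.Mazur3.Descent.Basic
import Fermat.Agent.EC.Unramified
import Fermat.Agent.GalRep.Assembly

/-!
# The trace of the Eisenstein module and characters of the image of Galois
-/

set_option autoImplicit false

noncomputable section

namespace Fermat.Agent.Mazur3

open GalRep IsLocalRing
open Fermat.Agent.Galois (GQ)
open scoped Pointwise

local notation "ℚb" => AlgebraicClosure ℚ

/-- Inertia at a conjugate place is conjugate. -/
theorem conj_mem_inertia {A : ValuationSubring ℚb} {g σ : GQ}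
    (hσ : σ ∈ (g • A).inertiaSubgroupIn ℚ) : g⁻¹ * σ * g ∈ A.inertiaSubgroupIn ℚ := by
  obtain ⟨τ, hτ, rfl⟩ := hσ
  set σ : GQ := ((g • A).decompositionSubgroup ℚ).subtype τ with hσdef
  have hdec : g⁻¹ * σ * g ∈ A.decompositionSubgroup ℚ := by
    show (g⁻¹ * σ * g) • A = A
    rw [mul_smul, mul_smul, show σ • (g • A) = g • A from τ.2, inv_smul_smul]
  refine ⟨⟨_, hdec⟩, ?_, rfl⟩
  rw [SetLike.mem_coe, ValuationSubring.inertiaSubgroup, MonoidHom.mem_ker]
  refine RingEquiv.ext fun r => ?_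
  obtain ⟨x, rfl⟩ := residue_surjective r
  have hx : g (x : ℚb) ∈ g • A := ValuationSubring.smul_mem_pointwise_smul _ _ _ x.2
  have h1 := RingEquiv.congr_fun (MonoidHom.mem_ker.1 hτ) (residue _ (⟨g x, hx⟩ : ↥(g • A)))
  rw [show (MulSemiringAction.toRingAut _ _ τ) (residue _ (⟨g x, hx⟩ : ↥(g • A))) =
      τ • residue _ (⟨g x, hx⟩ : ↥(g • A)) from rfl, ← ResidueField.residue_smul] at h1
  rw [show (1 : RingAut _) (residue _ (⟨g x, hx⟩ : ↥(g • A))) =
      residue _ (⟨g x, hx⟩ : ↥(g • A)) from rfl, ← sub_eq_zero, ← map_sub, residue_eq_zero_iff,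
    ← ValuationSubring.coe_mem_nonunits_iff] at h1
  show (⟨_, hdec⟩ : A.decompositionSubgroup ℚ) • residue A x = residue A x
  rw [← ResidueField.residue_smul, ← sub_eq_zero, ← map_sub, residue_eq_zero_iff,
    ← ValuationSubring.coe_mem_nonunits_iff, ← Galois.mem_nonunits_smul_iff g A]
  convert h1 using 1
  show g (g⁻¹ (σ (g x)) - x) = σ (g x) - g x
  rw [map_sub, AlgEquiv.aut_inv, AlgEquiv.apply_symm_apply]

variable {η : ℕ} [Fact η.Prime]

theorem eq_zero_of_forall_smul {N : Type*} [AddCommGroup N] [Module ℤ_[η] N]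
    [Module.Finite ℤ_[η] N] {x : N} (h : ∀ k : ℕ, ∃ w : N, x = (η ^ k : ℤ_[η]) • w) : x = 0 := by
  have h0 : x ∈ (⨅ k : ℕ, (Ideal.span {(η : ℤ_[η])}) ^ k • (⊤ : Submodule ℤ_[η] N)) := by
    refine Submodule.mem_iInf _ |>.mpr fun k => ?_
    obtain ⟨w, rfl⟩ := h k
    exact Submodule.smul_mem_smul (Ideal.pow_mem_pow (Ideal.mem_span_singleton_self _) k)
      Submodule.mem_top
  rwa [Ideal.iInf_pow_smul_eq_bot_of_le_jacobson _ (by
    rw [← PadicInt.maximalIdeal_eq_span_p]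
    exact IsLocalRing.maximalIdeal_le_jacobson _), Submodule.mem_bot] at h0

/-- Minkowski for characters with values in a finite algebra over `ℤ_η`. -/
theorem eq_one_of_unramified_padic {R : Type*} [CommRing R] [Algebra ℤ_[η] R]
    [Module.Finite ℤ_[η] R] (f : GQ →* R)
    (hlev : ∀ k : ℕ, ∃ F : IntermediateField ℚ ℚb, FiniteDimensional ℚ F ∧
      ∀ σ : GQ, (∀ x ∈ F, σ x = x) → ∃ r : R, f σ - 1 = (η ^ k : ℤ_[η]) • r)
    (hunr : ∀ q : ℕ, q.Prime → ∃ A : ValuationSubring ℚb, A.LiesOverPrime q ∧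
      ∀ σ ∈ A.inertiaSubgroupIn ℚ, f σ = 1) : f = 1 := by
  refine MonoidHom.ext fun g => ?_
  rw [MonoidHom.one_apply, ← sub_eq_zero]
  refine eq_zero_of_forall_smul (η := η) fun k => ?_
  let I : Ideal R := Ideal.span {algebraMap ℤ_[η] R (η ^ k)}
  let f' : GQ →* (R ⧸ I)ˣ := ((Ideal.Quotient.mk I).toMonoidHom.comp f).toHomUnits
  obtain ⟨F, hF, hF'⟩ := hlev k
  have hone : ∀ σ : GQ, f' σ = 1 ↔ f σ - 1 ∈ I := fun σ => by
    rw [← Units.val_inj, ← Ideal.Quotient.eq]
    simp [f']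
  have h := EC.eq_one_of_unramified f' F (fun σ hσ => by
    obtain ⟨r, hr⟩ := hF' σ hσ
    rw [hone, hr, Algebra.smul_def]
    exact Ideal.mul_mem_right _ _ (Ideal.subset_span rfl)) fun q hq B hB σ hσ => by
    obtain ⟨A, hA, hAI⟩ := hunr q hq
    obtain ⟨γ, rfl⟩ := Galois.exists_smul_eq_of_liesOverPrime hq hA hB
    have h1 : f' (γ⁻¹ * σ * γ) = 1 := by
      rw [hone, hAI _ (conj_mem_inertia hσ), sub_self]
      exact I.zero_mem
    rwa [map_mul, map_mul, map_inv, mul_comm, ← mul_assoc, mul_inv_cancel, one_mul] at h1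
  have h2 := (hone g).1 (DFunLike.congr_fun h g)
  rw [Ideal.mem_span_singleton'] at h2
  obtain ⟨r, hr⟩ := h2
  exact ⟨r, by rw [← hr, Algebra.smul_def, mul_comm]⟩

/-- The cyclotomic character is ramified at `η`. -/
theorem exists_cyc_ne_one {A : ValuationSubring ℚb} (hA : A.LiesOverPrime η) :
    ∃ s ∈ A.inertiaSubgroupIn ℚ, (cyc η s).val ≠ 1 := by
  by_contra hcon
  push Not at hcon
  have h := eq_one_of_unramified_padic (η := η) (R := ℤ_[η]) ((Units.coeHom _).comp (cyc η))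
    (fun k => exists_cyc_level η k) fun q hq => by
      by_cases hqη : q = η
      · rw [hqη]
        exact ⟨A, hA, hcon⟩
      · obtain ⟨B, hB⟩ := Galois.exists_liesOverPrime hq
        exact ⟨B, hB, fun σ hσ => by simp [cyc_inertia η hq hqη hB hσ]⟩
  obtain ⟨ℓ, hℓ, hprime⟩ := Nat.exists_infinite_primes (η + 1)
  obtain ⟨B, hB⟩ := Galois.exists_liesOverPrime hprime
  obtain ⟨σ, hσ⟩ := Galois.exists_isFrobeniusAt hprime hB
  have h1 := DFunLike.congr_fun h σ
  simp only [MonoidHom.comp_apply, Units.coeHom_apply, MonoidHom.one_apply] at h1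
  rw [cyc_frobenius η hprime (by omega) hB hσ, ← Nat.cast_one, Nat.cast_inj] at h1
  exact hprime.ne_one h1

variable {p : ℕ} [NeZero p] {E : EisModule p η}

namespace EisModule

/-- The trace `g + cyc(g) g⁻¹`. -/
def tr (E : EisModule p η) (g : GQ) : Module.End ℤ_[η] E.M :=
  E.galois g + (cyc η g).val • E.galois g⁻¹

theorem tr_apply (g : GQ) (v : E.M) :
    E.tr g v = E.galois g v + (cyc η g).val • E.galois g⁻¹ v := rfl

theorem galois_mul_inv (g : GQ) : E.galois g * E.galois g⁻¹ = 1 := by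
  rw [← map_mul, mul_inv_cancel, map_one]

theorem galois_inv_mul (g : GQ) : E.galois g⁻¹ * E.galois g = 1 := by
  rw [← map_mul, inv_mul_cancel, map_one]

theorem galois_add_mul_inv {ℓ : GoodPrime p} (hℓ : (ℓ : ℕ) ≠ η) {B : ValuationSubring ℚb}
    (hB : B.LiesOverPrime (ℓ : ℕ)) {σ : GQ} (hσ : B.IsFrobeniusAt σ (ℓ : ℕ)) :
    E.galois σ + ((ℓ : ℕ) : Module.End ℤ_[η] E.M) * E.galois σ⁻¹ =
      E.hecke (MvPolynomial.X ℓ) := by
  have h := congrArg (fun z => z * E.galois σ⁻¹) (E.frobenius ℓ hℓ B hB σ hσ)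
  simp only [add_mul, sub_mul, zero_mul, mul_assoc, galois_mul_inv, mul_one] at h
  rw [← sub_eq_zero, add_sub_right_comm]
  exact h

theorem tr_frobenius_pow {ℓ : GoodPrime p} (hℓ : (ℓ : ℕ) ≠ η) {B : ValuationSubring ℚb}
    (hB : B.LiesOverPrime (ℓ : ℕ)) {σ : GQ} (hσ : B.IsFrobeniusAt σ (ℓ : ℕ)) (b : ℕ) :
    E.tr (σ ^ b) =
      frobPoly (E.hecke (MvPolynomial.X ℓ)) ((ℓ : ℕ) : Module.End ℤ_[η] E.M) b := by
  rw [← pow_add_pow_eq_frobPoly (galois_mul_inv σ) (galois_inv_mul σ)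
      (galois_add_mul_inv hℓ hB hσ) b,
    tr, ← inv_pow, map_pow, map_pow, map_pow, Units.val_pow_eq_pow_val,
    cyc_frobenius η ℓ.1.2 hℓ hB hσ, Algebra.smul_def, map_pow, map_natCast]

theorem exists_tr_level (E : EisModule p η) (k : ℕ) :
    ∃ F : IntermediateField ℚ ℚb, FiniteDimensional ℚ F ∧ ∀ g g' : GQ, (∀ x ∈ F, g x = g' x) →
      ∀ v : E.M, ∃ w : E.M, E.tr g v - E.tr g' v = (η ^ k : ℤ_[η]) • w := by
  obtain ⟨F, hF, -, h⟩ := (isCocycle_coboundary (E := E) 0).exists_level k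
  refine ⟨F, hF, fun g g' hgg v => ?_⟩
  set d := g'⁻¹ * g with hd
  have hfix : ∀ x ∈ F, d x = x := fun x hx => by
    rw [AlgEquiv.mul_apply, hgg x hx, AlgEquiv.aut_inv, AlgEquiv.symm_apply_apply]
  have hfix' : ∀ x ∈ F, d⁻¹ x = x := fun x hx => by
    conv_lhs => rw [← hfix x hx]
    rw [AlgEquiv.aut_inv, AlgEquiv.symm_apply_apply]
  obtain ⟨w₁, h1⟩ := (h d hfix).2.1 v
  obtain ⟨w₂, h2⟩ := (h d⁻¹ hfix').2.1 (E.galois g'⁻¹ v)
  obtain ⟨a, ha⟩ := (h d hfix).2.2
  have e0 : g = g' * d := by simp [hd]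
  have e1 : E.galois g v = E.galois g' v + (η ^ k : ℤ_[η]) • E.galois g' w₁ := by
    rw [← map_smul, ← h1, map_sub, e0, galois_mul_apply, add_sub_cancel]
  have e2 : E.galois g⁻¹ v = E.galois g'⁻¹ v + (η ^ k : ℤ_[η]) • w₂ := by
    rw [← h2, e0, mul_inv_rev, galois_mul_apply, add_sub_cancel]
  have e3 : (cyc η g).val = (cyc η g').val + (η : ℤ_[η]) ^ k * ((cyc η g').val * a) := by
    rw [e0, map_mul, Units.val_mul, eq_add_of_sub_eq ha]
    ring
  refine ⟨E.galois g' w₁ + ((cyc η g').val * a) • E.galois g'⁻¹ v + (cyc η g).val • w₂, ?_⟩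
  rw [tr_apply, tr_apply, e1, e2, smul_add]
  conv_lhs => rw [e3]
  rw [e3]
  module

theorem tr_commute_of_commute (E : EisModule p η) (f : Module.End ℤ_[η] E.M)
    (hf : ∀ ℓ : GoodPrime p, Commute (E.hecke (MvPolynomial.X ℓ)) f) (g : GQ) :
    Commute (E.tr g) f := by
  refine LinearMap.ext fun v => sub_eq_zero.1 (eq_zero_of_forall_smul (η := η) fun k => ?_)
  obtain ⟨F, hF, hF'⟩ := E.exists_tr_level k
  obtain ⟨ℓ, hℓ, hbad, B, hB, σ, hσ, b, hb⟩ := frobeniusPowDensity F ({η} ∪ p.primeFactors) g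
  simp only [Finset.mem_union, Finset.mem_singleton, not_or] at hbad
  let i : GoodPrime p := ⟨⟨ℓ, hℓ⟩, fun h => hbad.2 (Nat.mem_primeFactors.mpr ⟨hℓ, h, NeZero.ne p⟩)⟩
  have hc : Commute (E.tr (σ ^ b)) f := by
    rw [tr_frobenius_pow (ℓ := i) hbad.1 hB hσ]
    generalize (b : ℕ) = n
    induction n using Nat.twoStepInduction with
    | zero => exact Nat.cast_commute 2 f
    | one => exact hf i
    | more n h1 h2 => exact ((hf i).mul_left h2).sub_left ((Nat.cast_commute _ f).mul_left h1)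
  obtain ⟨w₁, h1⟩ := hF' g (σ ^ b) (fun x hx => (hb x hx).symm) (f v)
  obtain ⟨w₂, h2⟩ := hF' g (σ ^ b) (fun x hx => (hb x hx).symm) v
  refine ⟨w₁ - f w₂, ?_⟩
  have h3 : E.tr (σ ^ b) (f v) = f (E.tr (σ ^ b) v) := LinearMap.congr_fun hc.eq v
  rw [Module.End.mul_apply, Module.End.mul_apply, smul_sub, ← map_smul, ← h1, ← h2, map_sub, h3]
  abel

theorem tr_commute_galois (g h : GQ) : Commute (E.tr g) (E.galois h) :=
  E.tr_commute_of_commute _ (fun _ => (E.galois_hecke h _).symm) g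

theorem tr_commute_hecke (g : GQ) (P : HeckePoly p) : Commute (E.tr g) (E.hecke P) :=
  E.tr_commute_of_commute _ (fun ℓ => (Commute.all (MvPolynomial.X ℓ) P).map E.hecke) g

theorem galois_sq (g : GQ) :
    E.galois g * E.galois g - E.tr g * E.galois g +
      (cyc η g).val • (1 : Module.End ℤ_[η] E.M) = 0 := by
  rw [tr, add_mul, smul_mul_assoc, galois_inv_mul]
  abel

/-- The algebra generated by the image of Galois. -/
def galAlg (E : EisModule p η) : Subalgebra ℤ_[η] (Module.End ℤ_[η] E.M) :=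
  Algebra.adjoin ℤ_[η] (Set.range E.galois)

theorem galois_mem (g : GQ) : E.galois g ∈ E.galAlg := Algebra.subset_adjoin ⟨g, rfl⟩

/-- An element of Galois in the algebra it generates. -/
def galEl (E : EisModule p η) : GQ →* E.galAlg := E.galois.codRestrict E.galAlg galois_mem

theorem tr_mem (g : GQ) : E.tr g ∈ E.galAlg :=
  add_mem (galois_mem g) (E.galAlg.smul_mem (galois_mem g⁻¹) _)

theorem tr_frobenius {ℓ : GoodPrime p} (hℓ : (ℓ : ℕ) ≠ η) {B : ValuationSubring ℚb}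
    (hB : B.LiesOverPrime (ℓ : ℕ)) {σ : GQ} (hσ : B.IsFrobeniusAt σ (ℓ : ℕ)) :
    E.tr σ = E.hecke (MvPolynomial.X ℓ) := by
  have h := tr_frobenius_pow (E := E) hℓ hB hσ 1
  rwa [pow_one] at h

/-- The image of Galois has no characters: the Eisenstein systems do not occur. -/
theorem galAlg_no_char {A : ValuationSubring ℚb} {hg : ¬ η ∣ p} (hp : p.Prime)
    (hA : A.LiesOverPrime η) (O : E.OrdLine A hg) {Ω : Type} [Field Ω] [Algebra ℤ_[η] Ω]
    (hΩ : Function.Injective (algebraMap ℤ_[η] Ω)) (χ : E.galAlg →ₐ[ℤ_[η]] Ω) : False := by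
  haveI : Module.Finite ℤ_[η] E.galAlg :=
    Module.Finite.iff_fg.2 (IsNoetherian.noetherian (Subalgebra.toSubmodule E.galAlg))
  set R := χ.range
  haveI : Module.Finite ℤ_[η] R :=
    Module.Finite.of_surjective χ.rangeRestrict.toLinearMap χ.rangeRestrict_surjective
  set ψ : GQ →* R := χ.rangeRestrict.toMonoidHom.comp E.galEl with hψ
  have hψv : ∀ g, (ψ g : Ω) = χ (E.galEl g) := fun g => rfl
  obtain ⟨c, hc⟩ := Ideal.exists_pow_inf_eq_pow_smul (Ideal.span {(η : ℤ_[η])})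
    (Subalgebra.toSubmodule E.galAlg)
  have hlev : ∀ k : ℕ, ∃ F : IntermediateField ℚ ℚb, FiniteDimensional ℚ F ∧
      ∀ σ : GQ, (∀ x ∈ F, σ x = x) → ∃ r : R, ψ σ - 1 = (η ^ k : ℤ_[η]) • r := by
    intro k
    obtain ⟨F, hF, hF'⟩ := E.continuous (k + c)
    refine ⟨F, hF, fun σ hσ => ?_⟩
    have h1 : E.galois σ - 1 ∈ (Ideal.span {(η : ℤ_[η])} ^ (k + c) •
        (⊤ : Submodule ℤ_[η] (Module.End ℤ_[η] E.M))) ⊓ Subalgebra.toSubmodule E.galAlg := by
      refine ⟨?_, sub_mem (galois_mem σ) (one_mem E.galAlg)⟩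
      choose w hw using hF' σ hσ
      let b := Module.Free.chooseBasis ℤ_[η] E.M
      rw [show E.galois σ - 1 = (η ^ (k + c) : ℤ_[η]) • b.constr ℕ (fun i => w (b i)) from
        b.ext fun i => by simpa [Module.Basis.constr_basis] using hw (b i)]
      exact Submodule.smul_mem_smul (Ideal.pow_mem_pow (Ideal.mem_span_singleton_self _) _)
        Submodule.mem_top
    rw [hc (k + c) (Nat.le_add_left _ _), Nat.add_sub_cancel, Ideal.span_singleton_pow,
      Submodule.ideal_span_singleton_smul, Submodule.mem_smul_pointwise_iff_exists] at h1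
    obtain ⟨a, ha, e⟩ := h1
    refine ⟨χ.rangeRestrict ⟨a, ha.2⟩, ?_⟩
    rw [← map_smul, ← map_one χ.rangeRestrict]
    refine (map_sub χ.rangeRestrict _ _).symm.trans (congrArg _ (Subtype.ext ?_))
    exact e.symm
  have hunr : ∀ q : ℕ, q.Prime → q ≠ η → ∃ B : ValuationSubring ℚb, B.LiesOverPrime q ∧
      ∀ σ ∈ B.inertiaSubgroupIn ℚ, ψ σ = 1 := by
    intro q hq hqη
    obtain ⟨B, hB⟩ := Galois.exists_liesOverPrime hq
    refine ⟨B, hB, fun σ hσ => Subtype.ext ?_⟩
    rw [hψv]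
    by_cases hqp : q ∣ p
    · obtain rfl := (Nat.prime_dvd_prime_iff_eq hq hp).1 hqp
      have h0 : (E.galEl σ - 1) * (E.galEl σ - 1) = 0 :=
        Subtype.ext (E.unipotent B hB σ hσ σ hσ)
      have := congrArg χ h0
      rw [map_mul, map_zero, mul_self_eq_zero, map_sub, map_one, sub_eq_zero] at this
      rw [this]
      rfl
    · rw [show E.galEl σ = 1 from Subtype.ext (E.unramified q hq hqp hqη B hB σ hσ), map_one]
      rfl
  -- on inertia at `η` the character is `1` or cyclotomic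
  have hη : ∀ σ ∈ A.inertiaSubgroupIn ℚ,
      (ψ σ : Ω) = 1 ∨ (ψ σ : Ω) = algebraMap ℤ_[η] Ω (cyc η σ).val := by
    intro σ hσ
    have h0 : (E.galEl σ - algebraMap ℤ_[η] _ (cyc η σ).val) * (E.galEl σ - 1) = 0 := by
      refine Subtype.ext (LinearMap.ext fun v => ?_)
      show (E.galois σ - algebraMap ℤ_[η] (Module.End ℤ_[η] E.M) (cyc η σ).val)
        ((E.galois σ - 1) v) = 0
      rw [LinearMap.sub_apply, Module.algebraMap_end_apply,
        O.inertia_line σ hσ _ (by simpa using O.inertia_quot σ hσ v), sub_self]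
    have := congrArg χ h0
    rw [map_mul, map_zero, map_sub, map_sub, map_one, AlgHom.commutes, mul_eq_zero, sub_eq_zero,
      sub_eq_zero, ← hψv] at this
    exact this.symm
  -- the two cases
  let cR : GQ →* R := (algebraMap ℤ_[η] R).toMonoidHom.comp ((Units.coeHom _).comp (cyc η))
  have hcase : ψ = 1 ∨ ψ = cR := by
    by_cases hone : ∀ σ ∈ A.inertiaSubgroupIn ℚ, ψ σ = 1
    · refine Or.inl (eq_one_of_unramified_padic (η := η) ψ hlev fun q hq => ?_)
      by_cases hqη : q = η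
      · rw [hqη]
        exact ⟨A, hA, hone⟩
      · exact hunr q hq hqη
    · refine Or.inr ?_
      push Not at hone
      obtain ⟨s, hs, hs1⟩ := hone
      have hcyc : ∀ σ ∈ A.inertiaSubgroupIn ℚ,
          (ψ σ : Ω) = algebraMap ℤ_[η] Ω (cyc η σ).val := by
        intro σ hσ
        have hsc := (hη s hs).resolve_left fun h => hs1 (Subtype.ext h)
        refine (hη σ hσ).elim (fun h => ?_) id
        rcases hη (σ * s) (mul_mem hσ hs) with h2 | h2
        · rw [map_mul, Subalgebra.coe_mul, h, one_mul] at h2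
          exact absurd (Subtype.ext h2) hs1
        · rw [map_mul, Subalgebra.coe_mul, h, one_mul, hsc, map_mul (cyc η), Units.val_mul,
            map_mul] at h2
          have hne : algebraMap ℤ_[η] Ω (cyc η s).val ≠ 0 :=
            (map_ne_zero_iff _ hΩ).2 (cyc η s).ne_zero
          rw [h]
          exact mul_right_cancel₀ hne (by rw [one_mul]; exact h2)
      let ci : GQ →* R :=
        { toFun := fun g => algebraMap ℤ_[η] R ((cyc η g)⁻¹ : ℤ_[η]ˣ).val * ψ g
          map_one' := by simp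
          map_mul' := fun g g' => by
            rw [map_mul, mul_inv, Units.val_mul, map_mul, map_mul ψ]
            ring }
      have h := eq_one_of_unramified_padic (η := η) ci (fun k => by
        obtain ⟨F₁, i₁, h₁⟩ := hlev k
        obtain ⟨F₂, i₂, h₂⟩ := exists_cyc_level η k
        refine ⟨F₁ ⊔ F₂, IntermediateField.finiteDimensional_sup F₁ F₂, fun σ hσ => ?_⟩
        obtain ⟨r, hr⟩ := h₁ σ fun x hx => hσ x ((le_sup_left : F₁ ≤ _) hx)
        have hσ' : ∀ x ∈ F₂, σ⁻¹ x = x := fun x hx => by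
          conv_lhs => rw [← hσ x ((le_sup_right : F₂ ≤ F₁ ⊔ F₂) hx)]
          rw [AlgEquiv.aut_inv, AlgEquiv.symm_apply_apply]
        obtain ⟨a, ha⟩ := h₂ σ⁻¹ hσ'
        rw [map_inv] at ha
        refine ⟨r + algebraMap ℤ_[η] R a * ψ σ, ?_⟩
        rw [Algebra.smul_def] at hr
        show algebraMap ℤ_[η] R ((cyc η σ)⁻¹ : ℤ_[η]ˣ).val * ψ σ - 1 = _
        rw [eq_add_of_sub_eq ha, map_add, map_one, map_mul, Algebra.smul_def, mul_add, ← hr]
        ring) fun q hq => by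
        by_cases hqη : q = η
        · rw [hqη]
          refine ⟨A, hA, fun σ hσ => Subtype.ext ?_⟩
          show algebraMap ℤ_[η] Ω ((cyc η σ)⁻¹ : ℤ_[η]ˣ).val * (ψ σ : Ω) = 1
          rw [hcyc σ hσ, ← map_mul, Units.inv_mul, map_one]
        · obtain ⟨B, hB, h1⟩ := hunr q hq hqη
          refine ⟨B, hB, fun σ hσ => ?_⟩
          show algebraMap ℤ_[η] R ((cyc η σ)⁻¹ : ℤ_[η]ˣ).val * ψ σ = 1
          rw [h1 σ hσ, cyc_inertia η hq hqη hB hσ, inv_one, Units.val_one, map_one, one_mul]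
      refine MonoidHom.ext fun g => ?_
      have h2 := congrArg (fun z => algebraMap ℤ_[η] R (cyc η g).val * z) (DFunLike.congr_fun h g)
      simp only [ci, MonoidHom.coe_mk, OneHom.coe_mk, MonoidHom.one_apply, mul_one] at h2
      rw [← mul_assoc, ← map_mul, Units.mul_inv, map_one, one_mul] at h2
      exact h2
  obtain ⟨ℓ, hℓle, hℓ⟩ := Nat.exists_infinite_primes (η + p + 1)
  let i : GoodPrime p := ⟨⟨ℓ, hℓ⟩, fun h => by
    have := Nat.le_of_dvd hp.pos (show ℓ ∣ p from h)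
    omega⟩
  have hiη : (i : ℕ) ≠ η := by show ℓ ≠ η; omega
  obtain ⟨B, hB⟩ := Galois.exists_liesOverPrime hℓ
  obtain ⟨σ, hσ⟩ := Galois.exists_isFrobeniusAt hℓ hB
  set T := E.hecke (MvPolynomial.X i) - ((1 + (i : ℕ) : ℕ) : Module.End ℤ_[η] E.M) with hT
  have hTmem : T ∈ E.galAlg := by
    rw [hT, ← tr_frobenius hiη hB hσ]
    exact sub_mem (tr_mem σ) (natCast_mem _ _)
  have hTχ : χ ⟨T, hTmem⟩ = 0 := by
    have e : (⟨T, hTmem⟩ : E.galAlg) = E.galEl σ + (cyc η σ).val • E.galEl σ⁻¹ -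
        ((1 + ℓ : ℕ) : E.galAlg) := Subtype.ext (by
      rw [AddSubgroupClass.coe_sub, SubringClass.coe_natCast]
      show T = E.tr σ - _
      rw [tr_frobenius hiη hB hσ])
    rw [e, map_sub, map_add, map_smul, map_natCast, ← hψv, ← hψv,
      cyc_frobenius η hℓ hiη hB hσ, Algebra.smul_def, map_natCast]
    rcases hcase with h | h <;> rw [h]
    · simp
    · have h1 : algebraMap ℤ_[η] Ω (cyc η σ⁻¹).val * (ℓ : Ω) = 1 := by
        rw [← map_natCast (algebraMap ℤ_[η] Ω) ℓ, ← cyc_frobenius η hℓ hiη hB hσ, ← map_mul,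
          ← Units.val_mul, ← map_mul, inv_mul_cancel, map_one, Units.val_one, map_one]
      show algebraMap ℤ_[η] Ω (cyc η σ).val +
        (ℓ : Ω) * algebraMap ℤ_[η] Ω (cyc η σ⁻¹).val - _ = 0
      rw [cyc_frobenius η hℓ hiη hB hσ, map_natCast, mul_comm, h1]
      push_cast
      ring
  have hinj : Function.Injective T := E.sub_injective i
  have hdet : LinearMap.det T ≠ 0 := fun h0 => by
    obtain ⟨v, hv, hv0⟩ := Submodule.exists_mem_ne_zero_of_ne_bot
      (LinearMap.bot_lt_ker_of_det_eq_zero h0).ne'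
    exact hv0 (hinj (by rw [LinearMap.mem_ker.1 hv, map_zero]))
  have hch := LinearMap.aeval_self_charpoly T
  have h0 : Polynomial.aeval (⟨T, hTmem⟩ : E.galAlg) T.charpoly = 0 :=
    Subtype.ext (by rw [← Subalgebra.coe_val, ← Polynomial.aeval_algHom_apply]; simpa using hch)
  have := congrArg χ h0
  rw [← Polynomial.aeval_algHom_apply, map_zero, hTχ, Polynomial.aeval_def,
    Polynomial.eval₂_at_zero] at this
  rw [LinearMap.det_eq_sign_charpoly_coeff, mul_ne_zero_iff] at hdet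
  exact hdet.2 ((map_eq_zero_iff _ hΩ).1 this)

end EisModule

end Fermat.Agent.Mazur3
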