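import Fermat.Agent.Mazur3.Descent.Symmetric
import Fermat.Agent.NewVec.InertiaField
import Fermat.Agent.GalRep.PlaceVal

/-!
# Cocycles on the line are of unit type up to a constant

The valuation of the Kummer generator of a functional of a cocycle on inertia is killed by a
constant independent of the level, by comparing the Frobenius element on the line and on the
quotient.
-/

set_option autoImplicit false

noncomputable section

namespace Fermat.Agent.Mazur3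

open GalRep Module
open Fermat.Agent.Galois (GQ)
open scoped Pointwise

local notation "ℚb" => AlgebraicClosure ℚ

variable {η K : ℕ} [Fact η.Prime] [NeZero (η ^ K)]

/-- The Kummer generator of `κ` on inertia has value `n` modulo `η ^ K`. -/
def IsVal (A : ValuationSubring ℚb) (ζ : ℚb) (κ : GQ → ZMod (η ^ K)) (n : ZMod (η ^ K)) : Prop :=
  ∃ (u : ℚb) (k : ℤ), u ≠ 0 ∧ (k : ZMod (η ^ K)) = n ∧
    A.valuation u ^ (η ^ K) = A.valuation (η : ℚb) ^ k ∧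
    ∀ σ ∈ A.inertiaSubgroupIn ℚ, σ u = zexp ζ (κ σ) * u

variable {A : ValuationSubring ℚb} {ζ : ℚb}

theorem valuation_zexp (hζ : ζ ^ η ^ K = 1) (e : ZMod (η ^ K)) :
    A.valuation (zexp ζ e) = 1 := by
  have h := congrArg A.valuation (zexp_pow_self hζ e)
  rw [map_pow, map_one] at h
  exact (pow_eq_one_iff_of_nonneg zero_le (NeZero.ne _)).1 h

theorem exists_isVal (hA : A.LiesOverPrime η) (hζ : ζ ^ η ^ K = 1) (κ : GQ → ZMod (η ^ K))
    (hκ : ∀ σ ∈ A.inertiaSubgroupIn ℚ, ∀ τ ∈ A.inertiaSubgroupIn ℚ,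
      κ (σ * τ) = κ σ + (cyc η σ).val.toZModPow K * κ τ)
    (F : IntermediateField ℚ ℚb) [FiniteDimensional ℚ F]
    (hF : ∀ σ ∈ A.inertiaSubgroupIn ℚ, (∀ x ∈ F, σ x = x) → κ σ = 0) :
    ∃ n, IsVal A ζ κ n := by
  obtain ⟨u, hu0, hu⟩ := exists_kummer_gen hζ (A.inertiaSubgroupIn ℚ) κ hκ F hF
  obtain ⟨k, hk⟩ := NewVec.exists_val_eq_zpow_of_fixed Fact.out hA (x := u ^ (η ^ K))
    (fun σ hσ => by rw [map_pow, hu σ hσ, mul_pow, zexp_pow_self hζ, one_mul])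
    (pow_ne_zero _ hu0)
  exact ⟨_, u, k, hu0, rfl, by rw [← map_pow, hk], hu⟩

theorem IsVal.unique (hA : A.LiesOverPrime η) (hζ : ζ ^ η ^ K = 1) {κ : GQ → ZMod (η ^ K)}
    {n n' : ZMod (η ^ K)} (h : IsVal A ζ κ n) (h' : IsVal A ζ κ n') : n = n' := by
  obtain ⟨u, k, hu0, rfl, hv, hu⟩ := h
  obtain ⟨u', k', hu0', rfl, hv', hu'⟩ := h'
  obtain ⟨l, hl⟩ := NewVec.exists_val_eq_zpow_of_fixed Fact.out hA (x := u / u')
    (fun σ hσ => by rw [map_div₀, hu σ hσ, hu' σ hσ, mul_div_mul_left _ _ (zexp_ne_zero hζ _)])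
    (div_ne_zero hu0 hu0')
  have hq0 : A.valuation (η : ℚb) ≠ 0 := (valuation_ell_pos Fact.out).ne'
  have h1 : A.valuation (η : ℚb) ^ (l * (η ^ K : ℕ) : ℤ) = A.valuation (η : ℚb) ^ (k - k') := by
    rw [zpow_mul, zpow_natCast, ← hl, map_div₀, div_pow, hv, hv', zpow_sub₀ hq0]
  have h2 := (zpow_right_inj₀ (zero_lt_iff.2 hq0) (valuation_ell_lt_one hA).ne).1 h1
  have h3 := congrArg (fun z : ℤ => (z : ZMod (η ^ K))) h2
  push_cast at h3
  rw [← Nat.cast_pow, ZMod.natCast_self, mul_zero, eq_comm, sub_eq_zero] at h3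
  exact h3

theorem IsVal.congr {κ κ' : GQ → ZMod (η ^ K)} {n : ZMod (η ^ K)} (h : IsVal A ζ κ n)
    (he : ∀ σ ∈ A.inertiaSubgroupIn ℚ, κ σ = κ' σ) : IsVal A ζ κ' n := by
  obtain ⟨u, k, hu0, hk, hv, hu⟩ := h
  exact ⟨u, k, hu0, hk, hv, fun σ hσ => by rw [← he σ hσ, hu σ hσ]⟩

theorem IsVal.add (hζ : ζ ^ η ^ K = 1) {κ κ' : GQ → ZMod (η ^ K)} {n n' : ZMod (η ^ K)}
    (h : IsVal A ζ κ n) (h' : IsVal A ζ κ' n') : IsVal A ζ (κ + κ') (n + n') := by
  obtain ⟨u, k, hu0, rfl, hv, hu⟩ := h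
  obtain ⟨u', k', hu0', rfl, hv', hu'⟩ := h'
  refine ⟨u * u', k + k', mul_ne_zero hu0 hu0', by push_cast; rfl, ?_, fun σ hσ => ?_⟩
  · rw [map_mul, mul_pow, hv, hv', zpow_add₀ (valuation_ell_pos Fact.out).ne']
  · rw [map_mul, hu σ hσ, hu' σ hσ, Pi.add_apply, zexp_add hζ, mul_mul_mul_comm]

theorem isVal_zero : IsVal A ζ (0 : GQ → ZMod (η ^ K)) 0 :=
  ⟨1, 0, one_ne_zero, Int.cast_zero, by simp, fun σ _ => by simp [zexp_zero]⟩

theorem IsVal.nsmul (hζ : ζ ^ η ^ K = 1) {κ : GQ → ZMod (η ^ K)} {n : ZMod (η ^ K)}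
    (h : IsVal A ζ κ n) : ∀ j : ℕ, IsVal A ζ (j • κ) (j • n)
  | 0 => by simpa using isVal_zero
  | j + 1 => by rw [succ_nsmul, succ_nsmul]; exact (h.nsmul hζ j).add hζ h

theorem IsVal.smul (hζ : ζ ^ η ^ K = 1) {κ : GQ → ZMod (η ^ K)} {n : ZMod (η ^ K)}
    (h : IsVal A ζ κ n) (a : ZMod (η ^ K)) : IsVal A ζ (a • κ) (a * n) := by
  have h1 := h.nsmul hζ a.val
  rwa [← Nat.cast_smul_eq_nsmul (ZMod (η ^ K)), ← Nat.cast_smul_eq_nsmul (ZMod (η ^ K)),
    ZMod.natCast_zmod_val, smul_eq_mul] at h1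

theorem IsVal.conj (hζ : ζ ^ η ^ K = 1) {κ : GQ → ZMod (η ^ K)} {n : ZMod (η ^ K)}
    (h : IsVal A ζ κ n) {F : GQ} (hF : F ∈ A.decompositionSubgroup ℚ) :
    IsVal A ζ (fun σ => (cyc η F).val.toZModPow K * κ (F⁻¹ * σ * F)) n := by
  obtain ⟨u, k, hu0, hk, hv, hu⟩ := h
  refine ⟨F u, k, (map_ne_zero _).2 hu0, hk, by rw [Galois.valuation_apply_eq hF, hv],
    fun σ hσ => ?_⟩
  have hmem : F⁻¹ * σ * F ∈ A.inertiaSubgroupIn ℚ := conj_mem_inertia (by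
    rwa [show F • A = A from hF])
  rw [← apply_zexp hζ, ← map_mul, ← hu _ hmem, ← AlgEquiv.mul_apply, ← AlgEquiv.mul_apply]
  congr 1
  group

theorem IsVal.exists_unit (hA : A.LiesOverPrime η) {κ : GQ → ZMod (η ^ K)}
    (h : IsVal A ζ κ 0) :
    ∃ u : ℚb, A.valuation u = 1 ∧ ∀ σ ∈ A.inertiaSubgroupIn ℚ, σ u = zexp ζ (κ σ) * u := by
  obtain ⟨u, k, hu0, hk, hv, hu⟩ := h
  rw [ZMod.intCast_zmod_eq_zero_iff_dvd] at hk
  obtain ⟨l, rfl⟩ := hk
  refine ⟨u / (η : ℚb) ^ l, ?_, fun σ hσ => by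
    rw [map_div₀, map_zpow₀, map_natCast, hu σ hσ, mul_div_assoc]⟩
  have hq0 : A.valuation (η : ℚb) ≠ 0 := (valuation_ell_pos Fact.out).ne'
  refine (pow_eq_one_iff_of_nonneg zero_le (NeZero.ne (η ^ K))).1 ?_
  rw [map_div₀, map_zpow₀, div_pow, hv, ← zpow_natCast (_ ^ l), ← zpow_mul, mul_comm,
    div_self (zpow_ne_zero _ hq0)]

variable {p : ℕ} [NeZero p] {E : EisModule p η} {hg : ¬ η ∣ p}

namespace EisModule

/-- The character on inertia of a functional of a cocycle. -/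
def OrdLine.kappa (O : E.OrdLine A hg) (K : ℕ) (c : GQ → E.M)
    (g : O.line →ₗ[ℤ_[η]] ℤ_[η]) (σ : GQ) : ZMod (η ^ K) := by
  classical
  exact if h : c σ ∈ O.line then (g ⟨c σ, h⟩).toZModPow K else 0

theorem OrdLine.kappa_eq (O : E.OrdLine A hg) {c : GQ → E.M} (g : O.line →ₗ[ℤ_[η]] ℤ_[η])
    {σ : GQ} (h : c σ ∈ O.line) : O.kappa K c g σ = (g ⟨c σ, h⟩).toZModPow K := dif_pos h

/-- Cocycles with values on the line on inertia. -/
def OrdLine.Adm (O : E.OrdLine A hg) (c : GQ → E.M) : Prop :=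
  E.IsCocycle c ∧ ∀ σ ∈ A.inertiaSubgroupIn ℚ, c σ ∈ O.line

theorem OrdLine.adm_coboundary (O : E.OrdLine A hg) (x : E.M) : O.Adm (E.coboundary x) :=
  ⟨isCocycle_coboundary x, fun σ hσ => O.inertia_quot σ hσ x⟩

theorem OrdLine.kappa_cocycle (O : E.OrdLine A hg) {c : GQ → E.M} (hc : O.Adm c)
    (g : O.line →ₗ[ℤ_[η]] ℤ_[η]) : ∀ σ ∈ A.inertiaSubgroupIn ℚ, ∀ τ ∈ A.inertiaSubgroupIn ℚ,
      O.kappa K c g (σ * τ) =
        O.kappa K c g σ + (cyc η σ).val.toZModPow K * O.kappa K c g τ := by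
  intro σ hσ τ hτ
  rw [O.kappa_eq g (hc.2 _ (mul_mem hσ hτ)), O.kappa_eq g (hc.2 _ hσ), O.kappa_eq g (hc.2 _ hτ),
    ← map_mul (PadicInt.toZModPow K), ← map_add (PadicInt.toZModPow K),
    ← smul_eq_mul (cyc η σ).val (g ⟨c τ, hc.2 _ hτ⟩),
    ← map_smul g, ← map_add g]
  congr 2
  refine Subtype.ext ?_
  show c (σ * τ) = c σ + (cyc η σ).val • c τ
  rw [hc.1.cocycle, O.inertia_line σ hσ _ (hc.2 _ hτ)]

theorem OrdLine.exists_isVal_kappa (O : E.OrdLine A hg) (hA : A.LiesOverPrime η)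
    (hζ : ζ ^ η ^ K = 1) {c : GQ → E.M} (hc : O.Adm c) (g : O.line →ₗ[ℤ_[η]] ℤ_[η]) :
    ∃ n, IsVal A ζ (O.kappa K c g) n := by
  obtain ⟨F, hF, hF'⟩ := hc.1.continuous K
  refine exists_isVal hA hζ _ (O.kappa_cocycle hc g) F fun σ hσ hfix => ?_
  obtain ⟨w, hw⟩ := hF' σ hfix
  have hne : (η : ℤ_[η]) ^ K ≠ 0 := pow_ne_zero _ (Nat.cast_ne_zero.2 (Fact.out : η.Prime).ne_zero)
  have hwl : w ∈ O.line := O.saturated _ w hne (hw ▸ hc.2 σ hσ)
  rw [O.kappa_eq g (hc.2 σ hσ), show (⟨c σ, hc.2 σ hσ⟩ : O.line) =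
    (η ^ K : ℤ_[η]) • (⟨w, hwl⟩ : O.line) from Subtype.ext hw, map_smul, smul_eq_mul, map_mul,
    map_pow, map_natCast, ← Nat.cast_pow, ZMod.natCast_self, zero_mul]

/-- The value of the Kummer generator of a functional of a cocycle. -/
def OrdLine.nu (O : E.OrdLine A hg) (K : ℕ) [NeZero (η ^ K)] (ζ : ℚb) (c : GQ → E.M)
    (g : O.line →ₗ[ℤ_[η]] ℤ_[η]) : ZMod (η ^ K) := by
  classical
  exact if h : ∃ n, IsVal A ζ (O.kappa K c g) n then h.choose else 0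

variable (O : E.OrdLine A hg)

theorem OrdLine.isVal_nu (hA : A.LiesOverPrime η) (hζ : ζ ^ η ^ K = 1) {c : GQ → E.M}
    (hc : O.Adm c) (g : O.line →ₗ[ℤ_[η]] ℤ_[η]) :
    IsVal A ζ (O.kappa K c g) (O.nu K ζ c g) := by
  rw [OrdLine.nu, dif_pos (O.exists_isVal_kappa hA hζ hc g)]
  exact (O.exists_isVal_kappa hA hζ hc g).choose_spec

theorem OrdLine.nu_eq (hA : A.LiesOverPrime η) (hζ : ζ ^ η ^ K = 1) {c : GQ → E.M}
    (hc : O.Adm c) (g : O.line →ₗ[ℤ_[η]] ℤ_[η]) {κ : GQ → ZMod (η ^ K)} {n : ZMod (η ^ K)}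
    (h : IsVal A ζ κ n) (he : ∀ σ ∈ A.inertiaSubgroupIn ℚ, κ σ = O.kappa K c g σ) :
    O.nu K ζ c g = n :=
  (O.isVal_nu hA hζ hc g).unique hA hζ (h.congr he)

theorem OrdLine.nu_add (hA : A.LiesOverPrime η) (hζ : ζ ^ η ^ K = 1) {c : GQ → E.M}
    (hc : O.Adm c) (g g' : O.line →ₗ[ℤ_[η]] ℤ_[η]) :
    O.nu K ζ c (g + g') = O.nu K ζ c g + O.nu K ζ c g' :=
  O.nu_eq hA hζ hc _ ((O.isVal_nu hA hζ hc g).add hζ (O.isVal_nu hA hζ hc g')) fun σ hσ => by
    rw [Pi.add_apply, O.kappa_eq _ (hc.2 σ hσ), O.kappa_eq _ (hc.2 σ hσ),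
      O.kappa_eq _ (hc.2 σ hσ), LinearMap.add_apply, map_add]

theorem OrdLine.nu_smul (hA : A.LiesOverPrime η) (hζ : ζ ^ η ^ K = 1) {c : GQ → E.M}
    (hc : O.Adm c) (r : ℤ_[η]) (g : O.line →ₗ[ℤ_[η]] ℤ_[η]) :
    O.nu K ζ c (r • g) = r.toZModPow K * O.nu K ζ c g :=
  O.nu_eq hA hζ hc _ ((O.isVal_nu hA hζ hc g).smul hζ _) fun σ hσ => by
    rw [Pi.smul_apply, O.kappa_eq _ (hc.2 σ hσ), O.kappa_eq _ (hc.2 σ hσ), LinearMap.smul_apply,
      smul_eq_mul, smul_eq_mul, map_mul]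

theorem OrdLine.nu_add_cocycle (hA : A.LiesOverPrime η) (hζ : ζ ^ η ^ K = 1) {c c' d : GQ → E.M}
    (hc : O.Adm c) (hc' : O.Adm c') (hd : O.Adm d)
    (he : ∀ σ ∈ A.inertiaSubgroupIn ℚ, d σ = c σ + c' σ) (g : O.line →ₗ[ℤ_[η]] ℤ_[η]) :
    O.nu K ζ d g = O.nu K ζ c g + O.nu K ζ c' g :=
  O.nu_eq hA hζ hd _ ((O.isVal_nu hA hζ hc g).add hζ (O.isVal_nu hA hζ hc' g)) fun σ hσ => by
    rw [Pi.add_apply, O.kappa_eq _ (hc.2 σ hσ), O.kappa_eq _ (hc'.2 σ hσ),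
      O.kappa_eq _ (hd.2 σ hσ), ← map_add, ← map_add]
    congr 2
    exact Subtype.ext (he σ hσ).symm

theorem OrdLine.nu_comp (hA : A.LiesOverPrime η) (hζ : ζ ^ η ^ K = 1) {c d : GQ → E.M}
    (hc : O.Adm c) (hd : O.Adm d) (Q : O.line →ₗ[ℤ_[η]] O.line)
    (he : ∀ σ, ∀ h : σ ∈ A.inertiaSubgroupIn ℚ, d σ = Q ⟨c σ, hc.2 σ h⟩)
    (g : O.line →ₗ[ℤ_[η]] ℤ_[η]) : O.nu K ζ d g = O.nu K ζ c (g ∘ₗ Q) :=
  O.nu_eq hA hζ hd _ (O.isVal_nu hA hζ hc _) fun σ hσ => by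
    rw [O.kappa_eq _ (hc.2 σ hσ), O.kappa_eq _ (hd.2 σ hσ), LinearMap.comp_apply]
    congr 2
    exact Subtype.ext (he σ hσ).symm

/-- The Frobenius element on the line. -/
def OrdLine.frobL : O.line →ₗ[ℤ_[η]] O.line :=
  (E.galois O.frob).restrict (O.galois_mem _ O.isFrobeniusAt.mem_decompositionSubgroup)

@[simp] theorem OrdLine.coe_frobL (v : O.line) : (O.frobL v : E.M) = E.galois O.frob v := rfl

theorem OrdLine.nu_frob (hA : A.LiesOverPrime η) (hζ : ζ ^ η ^ K = 1) {c : GQ → E.M}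
    (hc : O.Adm c) (g : O.line →ₗ[ℤ_[η]] ℤ_[η]) :
    O.nu K ζ c (g ∘ₗ O.frobL) = (cyc η O.frob).val.toZModPow K *
      (O.nu K ζ c g + O.nu K ζ (E.coboundary (c O.frob)) g) := by
  set F := O.frob
  have hF : F ∈ A.decompositionSubgroup ℚ := O.isFrobeniusAt.mem_decompositionSubgroup
  have hy := O.adm_coboundary (c F)
  have h1 := (((O.isVal_nu hA hζ hc g).add hζ (O.isVal_nu hA hζ hy g)).smul hζ
    ((cyc η F).val.toZModPow K))
  refine ((O.isVal_nu hA hζ hc (g ∘ₗ O.frobL)).conj hζ hF).unique hA hζ (h1.congr fun σ hσ => ?_)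
  have hmem : F⁻¹ * σ * F ∈ A.inertiaSubgroupIn ℚ := conj_mem_inertia (by
    rwa [show F • A = A from hF])
  rw [Pi.smul_apply, Pi.add_apply, O.kappa_eq _ (hc.2 σ hσ), O.kappa_eq _ (hy.2 σ hσ),
    O.kappa_eq _ (hc.2 _ hmem), smul_eq_mul, ← map_add, ← map_add, LinearMap.comp_apply]
  congr 3
  refine Subtype.ext ?_
  show c σ + (E.galois σ (c F) - c F) = E.galois F (c (F⁻¹ * σ * F))
  have h := hc.1.conj F (F⁻¹ * σ * F)
  rw [show F * (F⁻¹ * σ * F) * F⁻¹ = σ by group] at h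
  rw [h]
  abel

theorem OrdLine.phi_add (hA : A.LiesOverPrime η) (hζ : ζ ^ η ^ K = 1) (x y : E.M)
    (g : O.line →ₗ[ℤ_[η]] ℤ_[η]) :
    O.nu K ζ (E.coboundary (x + y)) g =
      O.nu K ζ (E.coboundary x) g + O.nu K ζ (E.coboundary y) g :=
  O.nu_add_cocycle hA hζ (O.adm_coboundary x) (O.adm_coboundary y) (O.adm_coboundary _)
    (fun σ _ => by simp only [coboundary, map_add]; abel) g

theorem OrdLine.phi_of_mem (hA : A.LiesOverPrime η) (hζ : ζ ^ η ^ K = 1) {x : E.M}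
    (hx : x ∈ O.line) (g : O.line →ₗ[ℤ_[η]] ℤ_[η]) :
    O.nu K ζ (E.coboundary x) g = 0 := by
  set e := (g ⟨x, hx⟩).toZModPow K
  have h : IsVal A ζ (fun σ => (cyc η σ).val.toZModPow K * e - e) 0 := by
    refine ⟨zexp ζ e, 0, zexp_ne_zero hζ e, Int.cast_zero, ?_, fun σ hσ => ?_⟩
    · rw [valuation_zexp hζ, one_pow, zpow_zero]
    · rw [apply_zexp hζ, ← zexp_add hζ, sub_add_cancel]
  refine O.nu_eq hA hζ (O.adm_coboundary x) g h fun σ hσ => ?_
  rw [O.kappa_eq _ ((O.adm_coboundary x).2 σ hσ), show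
    (⟨E.coboundary x σ, (O.adm_coboundary x).2 σ hσ⟩ : O.line) =
      (cyc η σ).val • (⟨x, hx⟩ : O.line) - ⟨x, hx⟩ from Subtype.ext (by
        show E.galois σ x - x = _
        rw [O.inertia_line σ hσ x hx]; rfl), map_sub, map_smul, smul_eq_mul, map_sub, map_mul]

theorem OrdLine.phi_comm (hA : A.LiesOverPrime η) (hζ : ζ ^ η ^ K = 1) (x : E.M)
    (P : Module.End ℤ_[η] E.M) (hP : ∀ σ, Commute P (E.galois σ))
    (Q : O.line →ₗ[ℤ_[η]] O.line) (hQ : ∀ v : O.line, (Q v : E.M) = P v)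
    (g : O.line →ₗ[ℤ_[η]] ℤ_[η]) :
    O.nu K ζ (E.coboundary (P x)) g = O.nu K ζ (E.coboundary x) (g ∘ₗ Q) :=
  O.nu_comp hA hζ (O.adm_coboundary x) (O.adm_coboundary _) Q (fun σ hσ => by
    rw [hQ]
    show E.galois σ (P x) - P x = P (E.galois σ x - x)
    rw [map_sub, ← Module.End.mul_apply, ← (hP σ).eq, Module.End.mul_apply]) g

theorem exists_comp_eq_det {L : Type*} [AddCommGroup L] [Module ℤ_[η] L]
    [Module.Free ℤ_[η] L] [Module.Finite ℤ_[η] L] (Z : Module.End ℤ_[η] L)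
    (hZ : Function.Injective Z) :
    ∃ (d : ℤ_[η]) (W : Module.End ℤ_[η] L), d ≠ 0 ∧ W * Z = d • 1 := by
  refine ⟨-Z.charpoly.coeff 0, Polynomial.aeval Z Z.charpoly.divX, fun h => ?_, ?_⟩
  · obtain ⟨v, hv, hv0⟩ := Submodule.exists_mem_ne_zero_of_ne_bot
      (LinearMap.bot_lt_ker_of_det_eq_zero (f := Z) (by
        rw [LinearMap.det_eq_sign_charpoly_coeff, neg_eq_zero.1 h, mul_zero])).ne'
    exact hv0 (hZ (by rw [LinearMap.mem_ker.1 hv, map_zero]))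
  · have h := LinearMap.aeval_self_charpoly Z
    rw [← Z.charpoly.divX_mul_X_add, map_add, map_mul, Polynomial.aeval_X,
      Polynomial.aeval_C, Algebra.algebraMap_eq_smul_one] at h
    rw [neg_smul, ← eq_neg_of_add_eq_zero_left h]

theorem mem_inertia_mul {s F : GQ} (hs : s ∈ A.inertiaSubgroupIn ℚ)
    (hF : F ∈ A.decompositionSubgroup ℚ) : s * F ∈ A.decompositionSubgroup ℚ := by
  obtain ⟨t, -, rfl⟩ := hs
  exact mul_mem t.2 hF

/-- Every cocycle with values on the line on inertia is of unit type up to a constant. -/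
theorem OrdLine.exists_unitType (hA : A.LiesOverPrime η) :
    ∃ D : ℤ_[η], D ≠ 0 ∧ ∀ c : GQ → E.M, E.IsCocycle c →
      (∀ σ ∈ A.inertiaSubgroupIn ℚ, c σ ∈ O.line) → O.UnitType fun σ => D • c σ := by
  obtain ⟨s, hs, hs1⟩ := exists_cyc_ne_one hA
  set F := O.frob with hFdef
  have hF : F ∈ A.decompositionSubgroup ℚ := O.isFrobeniusAt.mem_decompositionSubgroup
  set u₀ := (cyc η F).val with hu₀
  set a := (cyc η s).val with ha
  set iη : GoodPrime p := ⟨⟨η, Fact.out⟩, hg⟩ with hiη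
  set T : Module.End ℤ_[η] O.line :=
    (E.hecke (MvPolynomial.X iη)).restrict (O.hecke_mem _) with hT
  set G : Module.End ℤ_[η] O.line := O.frobL with hG
  have hrel : (η : ℤ_[η]) • (G * G) - u₀ • (T * G) + (u₀ * u₀) • (1 : Module.End ℤ_[η] O.line) = 0 := by
    refine LinearMap.ext fun v => Subtype.ext ?_
    simpa [hG, hT, hiη] using O.frob_line v v.2
  have hTG : Commute T G := LinearMap.ext fun v => Subtype.ext
    (LinearMap.congr_fun ((E.galois_hecke F _).symm.eq) (v : E.M))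
  -- the two injective operators on the line
  set c₁ : ℤ_[η] := 1 + (η : ℤ_[η]) with hc₁
  have hres : ∀ (P : Module.End ℤ_[η] E.M) (Q : Module.End ℤ_[η] O.line),
      (∀ v : O.line, (Q v : E.M) = P v) → Function.Injective P → Function.Injective Q :=
    fun P Q h hP v w hvw => Subtype.ext (hP (by rw [← h, ← h, hvw]))
  have hsub : Function.Injective (T - c₁ • 1 : Module.End ℤ_[η] O.line) := by
    refine hres _ _ (fun v => ?_) (E.sub_injective iη)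
    simp [hT, hiη, hc₁, add_smul, Nat.cast_smul_eq_nsmul]
  have hadd : Function.Injective (T + c₁ • 1 : Module.End ℤ_[η] O.line) := by
    refine hres _ _ (fun v => ?_) (E.add_injective iη)
    simp [hT, hiη, hc₁, add_smul, Nat.cast_smul_eq_nsmul]
  obtain ⟨d₁, W₁, hd₁, hW₁⟩ := exists_comp_eq_det (L := O.line)
    ((T - c₁ • 1) * (T + c₁ • 1)) (hsub.comp hadd)
  obtain ⟨d₂, W₂, hd₂, hW₂⟩ := exists_comp_eq_det (L := O.line) _ hsub
  refine ⟨(a - 1) * d₁ * d₂, mul_ne_zero (mul_ne_zero (sub_ne_zero.2 hs1) hd₁) hd₂,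
    fun c hc hline K g ζ hζ' => ?_⟩
  haveI : NeZero (η ^ K) := ⟨pow_ne_zero _ (Fact.out : η.Prime).ne_zero⟩
  have hζ : ζ ^ η ^ K = 1 := hζ'.pow_eq_one
  have hu : IsUnit (u₀.toZModPow K) := (cyc η F).isUnit.map _
  let φ : E.M → (O.line →ₗ[ℤ_[η]] ℤ_[η]) → ZMod (η ^ K) := fun x h => O.nu K ζ (E.coboundary x) h
  have hφF : ∀ x h, φ x (h ∘ₗ G) = u₀.toZModPow K * φ (E.galois F x) h := by
    intro x h
    show O.nu K ζ _ _ = _
    rw [hG, O.nu_frob hA hζ (O.adm_coboundary x)]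
    congr 1
    rw [← O.phi_add hA hζ]
    congr 2
    simp [coboundary, ← hFdef]
  -- the central element
  set Δ := E.tr (s * F) - E.tr F with hΔ
  have hΔc : ∀ σ, Commute Δ (E.galois σ) := fun σ =>
    (tr_commute_galois _ σ).sub_left (tr_commute_galois _ σ)
  have hcsF : (cyc η (s * F)).val = a * u₀ := by rw [map_mul, Units.val_mul]
  have hinvmem : ∀ g' ∈ A.decompositionSubgroup ℚ, ∀ v ∈ O.line, E.galois g'⁻¹ v ∈ O.line :=
    fun g' hg' v hv => O.galois_mem _ (inv_mem hg') v hv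
  have hsinv : s⁻¹ ∈ A.inertiaSubgroupIn ℚ := inv_mem hs
  have hainv : a * (cyc η s⁻¹).val = 1 := by
    rw [ha, ← Units.val_mul, ← map_mul, mul_inv_cancel, map_one, Units.val_one]
  have hΔL : ∀ v : O.line, Δ (v : E.M) = (((a - 1) • G) v : E.M) := by
    intro v
    have hFv := O.galois_mem F hF v v.2
    rw [hΔ, LinearMap.sub_apply, tr_apply, tr_apply, hcsF, mul_inv_rev, galois_mul_apply,
      galois_mul_apply, O.inertia_line s hs _ hFv, O.inertia_line _ hsinv v v.2, map_smul,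
      smul_smul, mul_right_comm, hainv, one_mul, ← ha, LinearMap.smul_apply, Submodule.coe_smul,
      hG, O.coe_frobL, ← hFdef, ← hu₀]
    module
  have hΔQ : ∀ x : E.M, Δ (E.galois F x) - ((a - 1) * u₀) • x ∈ O.line := by
    intro x
    have e : Δ (E.galois F x) - ((a - 1) * u₀) • x =
        (E.galois s (E.galois F (E.galois F x)) - E.galois F (E.galois F x)) +
          (a * u₀) • (E.galois F⁻¹ (E.galois s⁻¹ (E.galois F x) - E.galois F x)) := by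
      rw [hΔ, LinearMap.sub_apply, tr_apply, tr_apply, hcsF, mul_inv_rev, galois_mul_apply,
        galois_mul_apply, map_sub, galois_inv_apply, ← hu₀]
      module
    rw [e]
    exact add_mem (O.inertia_quot s hs _)
      (O.line.smul_mem _ (hinvmem F hF _ (O.inertia_quot _ hsinv _)))
  have key : ∀ x h, ((a - 1) * d₁).toZModPow K * φ x h = 0 := by
    -- the Frobenius relation on the classes of coboundaries
    have h1 : ∀ x h, (a - 1).toZModPow K *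
        φ x (h ∘ₗ (G * G - (u₀ * u₀) • (1 : Module.End ℤ_[η] O.line))) = 0 := by
      intro x h
      have e1 : φ (Δ (E.galois F x)) h = φ (E.galois F x) (h ∘ₗ ((a - 1) • G)) :=
        O.phi_comm hA hζ _ Δ hΔc _ (fun v => (hΔL v).symm) h
      have e2 : φ (Δ (E.galois F x)) h = ((a - 1) * u₀).toZModPow K * φ x h := by
        have hsp := O.phi_add (K := K) hA hζ (((a - 1) * u₀) • x)
          (Δ (E.galois F x) - ((a - 1) * u₀) • x) h
        rw [add_sub_cancel, O.phi_of_mem hA hζ (hΔQ x) h, add_zero] at hsp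
        refine hsp.trans ?_
        rw [show φ x h = O.nu K ζ (E.coboundary x) h from rfl, ← O.nu_smul hA hζ (O.adm_coboundary x)]
        refine (O.phi_comm hA hζ x (((a - 1) * u₀) • 1) (fun σ => (Commute.one_left _).smul_left _)
          (((a - 1) * u₀) • 1) (fun v => rfl) h).trans ?_
        congr 1
        exact LinearMap.ext fun v => by simp
      have e3 : h ∘ₗ ((a - 1) • G) = (a - 1) • (h ∘ₗ G) := LinearMap.comp_smul _ _ _
      have e4 : φ x (h ∘ₗ (G * G)) = u₀.toZModPow K * φ (E.galois F x) (h ∘ₗ G) := by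
        rw [← hφF]
        rfl
      have e5 : φ (E.galois F x) ((a - 1) • (h ∘ₗ G)) =
          (a - 1).toZModPow K * φ (E.galois F x) (h ∘ₗ G) :=
        O.nu_smul hA hζ (O.adm_coboundary _) _ _
      rw [LinearMap.comp_sub, LinearMap.comp_smul, show h ∘ₗ (1 : Module.End ℤ_[η] O.line) = h from
        LinearMap.comp_id h,
        show h ∘ₗ (G * G) - (u₀ * u₀) • h = h ∘ₗ (G * G) + (-(u₀ * u₀)) • h by module]
      show _ * O.nu K ζ (E.coboundary x) _ = 0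
      rw [O.nu_add hA hζ (O.adm_coboundary x), O.nu_smul hA hζ (O.adm_coboundary x)]
      show (a - 1).toZModPow K * (φ x (h ∘ₗ (G * G)) + (-(u₀ * u₀)).toZModPow K * φ x h) = 0
      rw [e3, e5, e2] at e1
      rw [e4, map_neg, map_mul]
      rw [map_mul] at e1
      linear_combination (-(u₀.toZModPow K)) * e1
    intro x h
    have hY : (u₀ * u₀) • (u₀ * u₀) • ((T - c₁ • 1) * (T + c₁ • 1)) =
        ((η : ℤ_[η]) ^ 2 • (G * G + (u₀ * u₀) • 1) + (2 * (η : ℤ_[η]) * (u₀ * u₀)) • 1 -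
          (u₀ * u₀) • (T * T)) * (G * G - (u₀ * u₀) • (1 : Module.End ℤ_[η] O.line)) := by
      have e0 : u₀ • (T * G) = (η : ℤ_[η]) • (G * G) + (u₀ * u₀) • 1 := by
        rw [← sub_eq_zero, ← neg_eq_zero, ← hrel]
        module
      have e1 : (u₀ * u₀) • (T * T * (G * G)) =
          ((η : ℤ_[η]) • (G * G) + (u₀ * u₀) • 1) * ((η : ℤ_[η]) • (G * G) + (u₀ * u₀) • 1) := by
        rw [← e0, smul_mul_smul_comm, hTG.mul_mul_mul_comm T G]
      simp only [hc₁, sub_mul, add_mul, mul_sub, mul_add, smul_mul_assoc, mul_smul_comm, one_mul,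
        mul_one, smul_add, smul_sub, smul_smul] at e1 ⊢
      rw [← sub_eq_zero] at e1 ⊢
      rw [← e1]
      module
    set Y := (η : ℤ_[η]) ^ 2 • (G * G + (u₀ * u₀) • 1) + (2 * (η : ℤ_[η]) * (u₀ * u₀)) • 1 -
      (u₀ * u₀) • (T * T)
    have h2 := h1 x (((u₀ * u₀) • (u₀ * u₀) • (1 : ℤ_[η])) • ((h ∘ₗ W₁) ∘ₗ (1 : Module.End ℤ_[η] O.line)))
    have h3 : ((u₀ * u₀) * (u₀ * u₀) * d₁) • h =
        ((h ∘ₗ W₁) ∘ₗ Y) ∘ₗ (G * G - (u₀ * u₀) • (1 : Module.End ℤ_[η] O.line)) := by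
      rw [LinearMap.comp_assoc, ← Module.End.mul_eq_comp, ← hY, LinearMap.comp_assoc,
        ← Module.End.mul_eq_comp, mul_smul_comm, mul_smul_comm, hW₁, smul_smul, smul_smul,
        LinearMap.comp_smul]
      rw [show h ∘ₗ (1 : Module.End ℤ_[η] O.line) = h from LinearMap.comp_id h]
    have h4 := h1 x ((h ∘ₗ W₁) ∘ₗ Y)
    rw [← h3] at h4
    change _ * O.nu K ζ (E.coboundary x) _ = 0 at h4
    rw [O.nu_smul hA hζ (O.adm_coboundary x), map_mul, map_mul, map_mul] at h4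
    refine (((hu.mul hu).mul (hu.mul hu)).mul_right_eq_zero).1 ?_
    rw [map_mul]
    linear_combination h4
  have hy : ∀ h, ((a - 1) * d₁ * d₂).toZModPow K * O.nu K ζ c h = 0 := by
    intro h
    have h1 : ∀ h', ((a - 1) * d₁).toZModPow K *
        O.nu K ζ c (h' ∘ₗ (G - u₀ • (1 : Module.End ℤ_[η] O.line))) = 0 := by
      intro h'
      rw [LinearMap.comp_sub, LinearMap.comp_smul, show h' ∘ₗ (1 : Module.End ℤ_[η] O.line) = h'
        from LinearMap.comp_id h', show h' ∘ₗ G - u₀ • h' = h' ∘ₗ G + (-u₀) • h' by module, O.nu_add hA hζ ⟨hc, hline⟩,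
        O.nu_smul hA hζ ⟨hc, hline⟩, hG, O.nu_frob hA hζ ⟨hc, hline⟩, map_neg, ← hFdef, ← hu₀]
      linear_combination (u₀.toZModPow K) * key (c F) h'
    have hY : (-(u₀ * u₀)) • (T - c₁ • 1) * (1 : Module.End ℤ_[η] O.line) =
        -((η : ℤ_[η]) • (G + u₀ • 1) - u₀ • T) * (G - u₀ • 1) := by
      refine LinearMap.ext fun v => ?_
      have h0 := LinearMap.congr_fun hrel v
      simp only [hc₁, Module.End.mul_apply, Module.End.one_apply, LinearMap.sub_apply,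
        LinearMap.add_apply, LinearMap.neg_apply, LinearMap.smul_apply, LinearMap.zero_apply,
        map_sub, map_smul, map_add, map_neg] at h0 ⊢
      rw [← sub_eq_zero, ← h0]
      module
    set Y := -((η : ℤ_[η]) • (G + u₀ • 1) - u₀ • T)
    have h3 : (-(u₀ * u₀ * d₂)) • h =
        ((h ∘ₗ W₂) ∘ₗ Y) ∘ₗ (G - u₀ • (1 : Module.End ℤ_[η] O.line)) := by
      rw [LinearMap.comp_assoc, ← Module.End.mul_eq_comp, ← hY, mul_one, LinearMap.comp_assoc,
        ← Module.End.mul_eq_comp, mul_smul_comm, hW₂, smul_smul, neg_mul,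
        LinearMap.comp_smul]
      rw [show h ∘ₗ (1 : Module.End ℤ_[η] O.line) = h from LinearMap.comp_id h]
    have h4 := h1 ((h ∘ₗ W₂) ∘ₗ Y)
    rw [← h3, O.nu_smul hA hζ ⟨hc, hline⟩, map_neg, map_mul (PadicInt.toZModPow K) (u₀ * u₀)] at h4
    refine ((hu.mul hu).neg.mul_right_eq_zero).1 ?_
    simp only [map_mul] at h4 ⊢
    linear_combination h4
  set D := (a - 1) * d₁ * d₂ with hD
  have hval : IsVal A ζ (O.kappa K (fun σ => D • c σ) g) 0 := by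
    have h0 : O.nu K ζ c (D • g) = 0 := by rw [O.nu_smul hA hζ ⟨hc, hline⟩, hy]
    refine (h0 ▸ O.isVal_nu hA hζ ⟨hc, hline⟩ (D • g)).congr fun σ hσ => ?_
    rw [O.kappa_eq _ (hline σ hσ), O.kappa_eq _ (O.line.smul_mem D (hline σ hσ)),
      LinearMap.smul_apply, show (⟨D • c σ, O.line.smul_mem D (hline σ hσ)⟩ : O.line) =
        D • ⟨c σ, hline σ hσ⟩ from rfl, map_smul g]
  obtain ⟨u, hu1, hu2⟩ := hval.exists_unit hA
  exact ⟨u, hu1, fun σ hσ h => by rw [hu2 σ hσ, O.kappa_eq g h]⟩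

end EisModule

end Fermat.Agent.Mazur3
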